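/-
Program G (S28, Igusa), chapter IG/AN, helper11: leaf (U2-affine) of (P2).

`q_p`-expansions, with coefficients in `ℤ[ζ_p] ⊂ ℚbar`, of the functions
`z ↦ Δ((a z + b)/e) / Δ(z)` (`e ∣ p`), in the vocabulary of `X0/Integrality` (`IntgQN`), and the
identification of the expansion of `Δ(p z)/Δ(z)` with `qExpand p (uq p)` (`Interface20.uq`).
-/
import Mathlib
import Fermat.Agent.X0.JQExp
import Fermat.Agent.X0.QExpAffine
import Fermat.Agent.X0.QExpRing
import Fermat.Agent.X0.Integrality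
import Fermat.Agent.X0.RootsK
import Fermat.Agent.IG.PR.Interface20

set_option autoImplicit false

noncomputable section

namespace Fermat.Agent.IG.AN.DeltaAffine11

open Fermat.Agent.X0 Fermat.Agent.X0.JQExp Fermat.Agent.X0.Hermite Fermat.Agent.X0.QExpAffine
open Fermat.Agent.X0.Analytic
open UpperHalfPlane ModularForm ModularCurve
open Fermat.Agent.IG.PR.Interface20

local notation "Δ" => ModularForm.discriminant
local notation "𝕢" => Function.Periodic.qParam

/-! ### The eta unit over a ring -/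

/-- `∏ (1 - q^n)^24` over `R`. -/
def etaU (R : Type*) [CommRing R] : PowerSeries R :=
  dedekindEtaUnit.map (Int.castRingHom R)

/-- The inverse of `etaU`. -/
def etaUInv (R : Type*) [CommRing R] : PowerSeries R :=
  dedekindEtaUnitInv.map (Int.castRingHom R)

theorem map_etaU {R S : Type*} [CommRing R] [CommRing S] (φ : R →+* S) :
    (etaU R).map φ = etaU S := by
  rw [etaU, etaU, ← RingHom.comp_apply, ← PowerSeries.map_comp,
    RingHom.ext_int (φ.comp (Int.castRingHom R)) (Int.castRingHom S)]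

theorem map_etaUInv {R S : Type*} [CommRing R] [CommRing S] (φ : R →+* S) :
    (etaUInv R).map φ = etaUInv S := by
  rw [etaUInv, etaUInv, ← RingHom.comp_apply, ← PowerSeries.map_comp,
    RingHom.ext_int (φ.comp (Int.castRingHom R)) (Int.castRingHom S)]

/-! ### The `q`-expansions of `Δ` and `1/Δ` -/

theorem qh_one (z : ℍ) : qh 1 z = 𝕢 1 z := by
  unfold qh
  rw [Nat.cast_one]

/-- `Δ = q * etaU(q)`. -/
theorem isQExp_discriminant : IsQExp 1 Δ 0 (PowerSeries.X * etaU ℂ) := by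
  intro z
  have h := hasSum_discriminant z
  rw [pow_zero, mul_one, qh_one]
  have hinj : Function.Injective (fun n : ℕ => n + 1) := add_left_injective 1
  rw [← hinj.hasSum_iff]
  · refine h.congr_fun fun n => ?_
    simp only [Function.comp_apply]
    rw [PowerSeries.coeff_succ_X_mul, etaU, PowerSeries.coeff_map]
    rfl
  · intro n hn
    have : n = 0 := by
      rcases n with _ | n
      · rfl
      · exact absurd ⟨n, rfl⟩ hn
    subst this
    simp

/-- `q / Δ = etaUInv(q)`. -/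
theorem isQExp_discriminant_inv : IsQExp 1 (fun z => (Δ z)⁻¹) 1 (etaUInv ℂ) := by
  intro z
  have hq : ‖𝕢 1 (z : ℂ)‖ < 1 := by simpa using norm_qParam_lt_one 1 z
  have hd : DifferentiableOn ℂ (etaFun ^ 24)⁻¹ (Metric.ball 0 1) := by
    refine DifferentiableOn.inv (differentiableOn_etaFun.pow 24) fun q hq => ?_
    exact pow_ne_zero _ (etaFun_ne_zero (mem_ball_zero_iff.mp hq))
  have h := hasSum_tps hd hq
  rw [tps_etaFun_pow_inv] at h
  rw [qh_one, pow_one]
  show HasSum _ ((Δ z)⁻¹ * 𝕢 1 (z : ℂ))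
  rw [discriminant_eq_etaFun]
  have hq0 : 𝕢 1 (z : ℂ) ≠ 0 := Function.Periodic.qParam_ne_zero _
  have he : etaFun (𝕢 1 z) ^ 24 ≠ 0 := pow_ne_zero _ (etaFun_ne_zero hq)
  have hval : (𝕢 1 (z : ℂ) * etaFun (𝕢 1 z) ^ 24)⁻¹ * 𝕢 1 (z : ℂ) = (etaFun ^ 24)⁻¹ (𝕢 1 z) := by
    simp only [Pi.inv_apply, Pi.pow_apply]
    field_simp
  rw [hval]
  exact h

/-! ### The affine substitutions -/

variable (p : ℕ) [NeZero p]

/-- `ζ_e = ζ_p^(p/e)` in `ℚbar`. -/
def zetaE (e : ℕ) : Kbar := zetaK p ^ (p / e)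

theorem iotaK_zetaE {e : ℕ} (he : 0 < e) (hep : e ∣ p) : iotaK (zetaE p e) = zetaC e := by
  rw [zetaE, iotaK_zetaK_pow, zetaC]
  congr 1
  have hp : (p : ℂ) ≠ 0 := by exact_mod_cast NeZero.ne p
  have heC : (e : ℂ) ≠ 0 := by exact_mod_cast he.ne'
  have h : ((p / e : ℕ) : ℂ) * (e : ℂ) = (p : ℂ) := by
    exact_mod_cast congrArg (Nat.cast : ℕ → ℂ) (Nat.div_mul_cancel hep)
  rw [div_eq_div_iff hp heC]
  linear_combination (2 * (Real.pi : ℂ) * Complex.I) * h

/-- The numerator series: the `q_p`-expansion of `Δ((a z + b)/e)`. -/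
def AK (a e : ℕ) (b : ℤ) : PowerSeries Kbar :=
  affQ (PowerSeries.X * etaU Kbar) 0 (a * (p / e)) b (zetaE p e)

/-- The denominator series: the `q_p`-expansion of `q_p^p / Δ(z)`. -/
def BK : PowerSeries Kbar := (etaUInv Kbar).expand p (NeZero.ne p)

/-- The `q_p`-expansion of `Δ((a z + b)/e) / Δ(z)` over `ℚbar`. -/
def TK (a e : ℕ) (b : ℤ) : LaurentSeries Kbar :=
  laurentOf (0 * (a * (p / e)) + p) (AK p a e b * BK p)

theorem map_AK {a e : ℕ} (b : ℤ) (he : 0 < e) (hep : e ∣ p) :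
    (AK p a e b).map iotaK = affQ (PowerSeries.X * etaU ℂ) 0 (a * (p / e)) b (zetaC e) := by
  rw [AK, affQ_map, map_mul, PowerSeries.map_X, map_etaU, iotaK_zetaE p he hep]

theorem map_BK : (BK p).map iotaK = (etaUInv ℂ).expand p (NeZero.ne p) := by
  rw [BK, PowerSeries.map_expand, map_etaUInv]

/-- **The `q_p`-expansion of `z ↦ Δ((a z + b)/e) / Δ(z)`**, `e ∣ p`. -/
theorem isQExp_quot (a e : ℕ) (b : ℤ) (ha : 0 < a) (he : 0 < e) (hep : e ∣ p) :
    IsQExp p (fun z => Δ (affH a e b ha he z) / Δ z) (0 * (a * (p / e)) + p)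
      ((AK p a e b * BK p).map iotaK) := by
  have hA := isQExp_affine (N := p) isQExp_discriminant b ha he hep
  have hB := isQExp_discriminant_inv.level_mul p
  rw [one_mul] at hB
  have hAB := hA.mul hB
  rw [map_mul, map_AK p b he hep, map_BK]
  have hfun : (fun z => Δ (affH a e b ha he z) / Δ z) =
      (fun z => Δ (affH a e b ha he z)) * fun z => (Δ z)⁻¹ := by
    funext z
    simp [div_eq_mul_inv]
  rw [hfun]
  exact hAB

theorem toC_TK (a e : ℕ) (b : ℤ) :
    toC (TK p a e b) = laurentOf (0 * (a * (p / e)) + p) ((AK p a e b * BK p).map iotaK) := by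
  rw [TK, toC, coeffMap_laurentOf]

/-- `TK` is the `q_p`-expansion of `Δ((a z + b)/e) / Δ(z)` in the sense of `X0/Integrality`. -/
theorem intgQN_quot (a e : ℕ) (b : ℤ) (ha : 0 < a) (he : 0 < e) (hep : e ∣ p) :
    IntgQN p (fun z => Δ (affH a e b ha he z) / Δ z) (toC (TK p a e b)) := by
  rw [toC_TK]
  exact intg_qn_of_isQExp p (isQExp_quot p a e b ha he hep)

/-! ### The functions `dAff` and their holomorphy -/

/-- `z ↦ Δ((a z + b)/e) / Δ(z)`. -/
def dAff (a e : ℕ) (b : ℤ) (ha : 0 < a) (he : 0 < e) : ℍ → ℂ :=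
  fun z => ModularForm.discriminant (Hermite.affH a e b ha he z) / ModularForm.discriminant z

omit [NeZero p] in
theorem discriminant_affH_mem_HolH (a e : ℕ) (b : ℤ) (ha : 0 < a) (he : 0 < e) :
    (fun z => Δ (affH a e b ha he z)) ∈ HolH := by
  rw [mem_HolH, UpperHalfPlane.mdifferentiable_iff]
  have hΔ : DifferentiableOn ℂ ((Δ : ℍ → ℂ) ∘ ofComplex) {z | 0 < z.im} :=
    UpperHalfPlane.mdifferentiable_iff.mp CuspForm.discriminant.holo'
  have heC : (e : ℂ) ≠ 0 := by exact_mod_cast he.ne'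
  have hmap : Set.MapsTo (fun w : ℂ => ((a : ℂ) * w + b) / e) {z | 0 < z.im} {z | 0 < z.im} := by
    intro w hw
    exact (affH a e b ha he ⟨w, hw⟩).2
  have hdiff : DifferentiableOn ℂ (fun w : ℂ => ((a : ℂ) * w + b) / e) {z | 0 < z.im} := by
    intro w _
    exact (((differentiableAt_id.const_mul (a : ℂ)).add_const (b : ℂ)).div_const
      (e : ℂ)).differentiableWithinAt
  refine (hΔ.comp hdiff hmap).congr fun w hw => ?_
  simp only [Function.comp_apply]
  congr 1
  apply UpperHalfPlane.ext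
  have h1 : ((ofComplex w : ℍ) : ℂ) = w := by
    rw [ofComplex_apply_of_im_pos hw]
  have h2 : ((ofComplex (((a : ℂ) * w + b) / e) : ℍ) : ℂ) = ((a : ℂ) * w + b) / e := by
    rw [ofComplex_apply_of_im_pos (hmap hw)]
  rw [coe_affH, h1, h2]

omit [NeZero p] in
/-- (A1) `dAff` is holomorphic on `ℍ`. -/
theorem dAff_mem_HolH (a e : ℕ) (b : ℤ) (ha : 0 < a) (he : 0 < e) : dAff a e b ha he ∈ HolH := by
  have h := discriminant_affH_mem_HolH a e b ha he
  rw [mem_HolH] at h ⊢
  exact h.div CuspForm.discriminant.holo' discriminant_ne_zero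

/-! ### Coefficients in `ℤ[ζ_p]` -/

section Coeff

omit [NeZero p] in
theorem coeff_mul_mem {R : Type*} [CommRing R] (S : Subring R) {P Q : PowerSeries R}
    (hP : ∀ n, PowerSeries.coeff n P ∈ S) (hQ : ∀ n, PowerSeries.coeff n Q ∈ S) (n : ℕ) :
    PowerSeries.coeff n (P * Q) ∈ S := by
  rw [PowerSeries.coeff_mul]
  exact Subring.sum_mem _ fun x _ => S.mul_mem (hP _) (hQ _)

omit [NeZero p] in
theorem zpow_mem_of_pow_eq_one {R : Type*} [Field R] (S : Subring R) {x : R} (hx : x ∈ S)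
    {e : ℕ} (he : 0 < e) (hxe : x ^ e = 1) (n : ℤ) : x ^ n ∈ S := by
  have hinv : x⁻¹ ∈ S := by
    have h : x⁻¹ = x ^ (e - 1) := by
      have hx0 : x ≠ 0 := by
        rintro rfl
        rw [zero_pow he.ne'] at hxe
        exact zero_ne_one hxe
      rw [eq_comm, ← mul_right_inj' hx0, mul_inv_cancel₀ hx0, ← pow_succ', Nat.sub_add_cancel he,
        hxe]
    rw [h]
    exact S.pow_mem hx _
  obtain ⟨k, rfl | rfl⟩ := n.eq_nat_or_neg
  · rw [zpow_natCast]
    exact S.pow_mem hx k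
  · rw [zpow_neg, zpow_natCast, ← inv_pow]
    exact S.pow_mem hinv k

omit [NeZero p] in
theorem coeff_laurentOf_mem {R : Type*} [CommRing R] (S : Subring R) (m : ℕ) {P : PowerSeries R}
    (hP : ∀ n, PowerSeries.coeff n P ∈ S) (k : ℤ) : (laurentOf m P).coeff k ∈ S := by
  rw [laurentOf, HahnSeries.coeff_single_mul, one_mul, sub_neg_eq_add]
  by_cases h : 0 ≤ k + m
  · obtain ⟨n, hn⟩ := Int.eq_ofNat_of_zero_le h
    rw [hn, HahnSeries.ofPowerSeries_apply_coeff]
    exact hP n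
  · rw [ModularCurve.ofPowerSeries_coeff_of_neg _ (by omega)]
    exact S.zero_mem

omit [NeZero p] in
theorem coeff_X_mul_etaU_mem (S : Subring Kbar) (n : ℕ) :
    PowerSeries.coeff n (PowerSeries.X * etaU Kbar) ∈ S := by
  have h : PowerSeries.X * etaU Kbar =
      (PowerSeries.X * dedekindEtaUnit).map (Int.castRingHom Kbar) := by
    rw [map_mul, PowerSeries.map_X, etaU]
  rw [h, PowerSeries.coeff_map]
  exact intCast_mem S _

omit [NeZero p] in
theorem coeff_etaUInv_mem (S : Subring Kbar) (n : ℕ) :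
    PowerSeries.coeff n (etaUInv Kbar) ∈ S := by
  rw [etaUInv, PowerSeries.coeff_map]
  exact intCast_mem S _

omit [NeZero p] in
theorem zetaE_mem (e : ℕ) : zetaE p e ∈ Subring.closure {zetaK p} :=
  Subring.pow_mem _ (Subring.subset_closure (Set.mem_singleton _)) _

theorem zetaE_pow {e : ℕ} (hep : e ∣ p) : zetaE p e ^ e = 1 := by
  rw [zetaE, ← pow_mul, Nat.div_mul_cancel hep, zetaK_pow_self]

theorem coeff_AK_mem (a : ℕ) {e : ℕ} (b : ℤ) (he : 0 < e) (hep : e ∣ p) (n : ℕ) :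
    PowerSeries.coeff n (AK p a e b) ∈ Subring.closure {zetaK p} := by
  rw [AK, coeff_affQ]
  split_ifs
  · exact Subring.mul_mem _ (coeff_X_mul_etaU_mem _ _)
      (zpow_mem_of_pow_eq_one _ (zetaE_mem p e) he (zetaE_pow p hep) _)
  · exact Subring.zero_mem _

theorem coeff_BK_mem (S : Subring Kbar) (n : ℕ) : PowerSeries.coeff n (BK p) ∈ S := by
  rw [BK, PowerSeries.coeff_expand]
  split_ifs
  · exact coeff_etaUInv_mem S _
  · exact S.zero_mem

theorem coeff_TK_mem (a : ℕ) {e : ℕ} (b : ℤ) (he : 0 < e) (hep : e ∣ p) (n : ℤ) :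
    (TK p a e b).coeff n ∈ Subring.closure {zetaK p} :=
  coeff_laurentOf_mem _ _ (coeff_mul_mem _ (coeff_AK_mem p a b he hep) (coeff_BK_mem p _)) n

end Coeff

/-- (A2) **Expansions with coefficients in `ℤ[ζ_p]`.** -/
theorem exists_expansion (a e : ℕ) (b : ℤ) (ha : 0 < a) (he : 0 < e) (hae : a * e = p) :
    ∃ T : LaurentSeries Kbar, IntgQN p (dAff a e b ha he) (toC T) ∧
      ∀ n, T.coeff n ∈ Subring.closure {zetaK p} :=
  ⟨TK p a e b, intgQN_quot p a e b ha he (Dvd.intro_left a hae),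
    coeff_TK_mem p a b he (Dvd.intro_left a hae)⟩

/-! ### The two distinguished expansions -/

section Formal

variable {R : Type*} [CommRing R]

omit [NeZero p] in
theorem deltaq_eq_laurentOf : deltaq R = laurentOf 0 (PowerSeries.X * etaU R) := by
  rw [deltaq, laurentOf, Nat.cast_zero, neg_zero, map_mul, HahnSeries.ofPowerSeries_X, etaU]
  rw [show (HahnSeries.single (0 : ℤ) (1 : R)) = 1 from rfl, one_mul]

omit [NeZero p] in
theorem deltaqInv_eq_laurentOf : deltaqInv R = laurentOf 1 (etaUInv R) := by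
  rw [deltaqInv, laurentOf, Nat.cast_one, etaUInv]

omit [NeZero p] in
theorem coeffMap_deltaq {S : Type*} [CommRing S] (f : R →+* S) :
    coeffMap f (deltaq R) = deltaq S := by
  rw [deltaq_eq_laurentOf, deltaq_eq_laurentOf, coeffMap_laurentOf, map_mul, PowerSeries.map_X,
    map_etaU]

omit [NeZero p] in
theorem coeffMap_deltaqInv {S : Type*} [CommRing S] (f : R →+* S) :
    coeffMap f (deltaqInv R) = deltaqInv S := by
  rw [deltaqInv_eq_laurentOf, deltaqInv_eq_laurentOf, coeffMap_laurentOf, map_etaUInv]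

theorem coeffMap_uq {S : Type*} [CommRing S] (f : R →+* S) :
    coeffMap f (uq R p) = uq S p := by
  rw [uq, uq, map_mul, ModularCurve.coeffMap_qExpand, coeffMap_deltaq, coeffMap_deltaqInv]

end Formal

omit [NeZero p] in
theorem expand_eq_of_eq {R : Type*} [CommRing R] (P : PowerSeries R) {s t : ℕ} (hs : s ≠ 0)
    (ht : t ≠ 0) (h : s = t) : P.expand s hs = P.expand t ht := by
  subst h
  rfl

omit [NeZero p] in
theorem affQ_zero_zero {R : Type*} [Field R] (P : PowerSeries R) {s : ℕ} (hs : s ≠ 0) (ζ : R) :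
    affQ P 0 s 0 ζ = P.expand s hs := by
  ext k
  rw [coeff_affQ, PowerSeries.coeff_expand]
  split_ifs
  · rw [zero_mul, zpow_zero, mul_one]
  · rfl

/-- `TK` for `(a, e, b) = (p, 1, 0)` is `qExpand p (uq p)`. -/
theorem TK_top :
    TK p p 1 0 = qExpand Kbar p (coeffMap (Int.castRingHom Kbar) (uq ℤ p)) := by
  have hp : p ≠ 0 := NeZero.ne p
  have hpp : p * (p / 1) ≠ 0 := by
    rw [Nat.div_one]
    exact Nat.mul_ne_zero hp hp
  rw [coeffMap_uq, uq, map_mul, deltaq_eq_laurentOf, deltaqInv_eq_laurentOf, qExpand_laurentOf,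
    qExpand_laurentOf, qExpand_laurentOf, ← laurentOf_mul, TK, AK, BK, affQ_zero_zero _ hpp]
  have h1 : (PowerSeries.X * etaU Kbar).expand (p * (p / 1)) hpp =
      ((PowerSeries.X * etaU Kbar).expand p hp).expand p hp := by
    rw [← PowerSeries.expand_mul p hp p hp (PowerSeries.X * etaU Kbar)]
    exact expand_eq_of_eq _ _ _ (by rw [Nat.div_one])
  rw [h1]
  congr 1
  ring

/-- `TK` for `(a, e, b) = (1, p, 0)` is `Δ(t) / Δ(t^p)`. -/
theorem TK_bot :
    TK p 1 p 0 = coeffMap (Int.castRingHom Kbar) (deltaq ℤ * qExpand ℤ p (deltaqInv ℤ)) := by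
  have hp : p ≠ 0 := NeZero.ne p
  have h1 : 1 * (p / p) ≠ 0 := by
    rw [Nat.div_self (Nat.pos_of_ne_zero hp)]
    exact one_ne_zero
  rw [map_mul, ModularCurve.coeffMap_qExpand, coeffMap_deltaq, coeffMap_deltaqInv,
    deltaq_eq_laurentOf,
    deltaqInv_eq_laurentOf, qExpand_laurentOf, ← laurentOf_mul, TK, AK, BK, affQ_zero_zero _ h1]
  have h2 : (PowerSeries.X * etaU Kbar).expand (1 * (p / p)) h1 = PowerSeries.X * etaU Kbar := by
    have h3 : 1 * (p / p) = 1 := by rw [Nat.div_self (Nat.pos_of_ne_zero hp)]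
    rw [expand_eq_of_eq _ h1 one_ne_zero h3, PowerSeries.expand_one_apply]
  rw [h2]
  congr 1
  ring

/-- (A3) the expansion of `Δ(p z)/Δ(z)`. -/
theorem expansion_top :
    IntgQN p (dAff p 1 0 (Nat.pos_of_ne_zero (NeZero.ne p)) one_pos)
      (toC (qExpand Kbar p (coeffMap (Int.castRingHom Kbar) (uq ℤ p)))) := by
  rw [← TK_top]
  exact intgQN_quot p p 1 0 _ _ (one_dvd p)

/-- (A4) the expansion of `Δ(z/p)/Δ(z)`. -/
theorem expansion_bot :
    IntgQN p (dAff 1 p 0 one_pos (Nat.pos_of_ne_zero (NeZero.ne p)))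
      (toC (coeffMap (Int.castRingHom Kbar) (deltaq ℤ * qExpand ℤ p (deltaqInv ℤ)))) := by
  rw [← TK_bot]
  exact intgQN_quot p 1 p 0 _ _ dvd_rfl

end Fermat.Agent.IG.AN.DeltaAffine11
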