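/-
IG/AN (P2-a, helper19): the modular unit `F(z) = Δ(p z) / Δ(z)`.

* `deltaQuot p`            : the function `z ↦ Δ(p z) / Δ(z)` on the upper half plane.
* `deltaQuot_mem_HolH`     : it is holomorphic.
* `deltaQuot_invariant`    : it is invariant under `Γ₀(p)`.
* `compSL_deltaQuot`       : the automorphy step: for every `γ ∈ SL(2, ℤ)`,
  `F(γ z) = e^{-12} Δ((a z + b)/e) / Δ(z)` with `a e = p`.
* `compSL_deltaQuot_S`     : `F(S z) = p^{-12} Δ(z / p) / Δ(z)`.
-/
import Fermat.Agent.X0.HolOrder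
import Fermat.Agent.X0.Hermite
import Fermat.Agent.X0.Analytic

set_option autoImplicit false

open UpperHalfPlane ModularForm
open scoped MatrixGroups Manifold

noncomputable section

namespace Fermat.Agent.IG.AN.DeltaQuot19

open Fermat.Agent.X0 Fermat.Agent.X0.Hermite

/-! ### holomorphy helpers -/

/-- Precomposition with `z ↦ (a z + b) / e` preserves holomorphy. -/
theorem comp_affH_mem_HolH {f : ℍ → ℂ} (hf : f ∈ HolH) (a e : ℕ) (b : ℤ) (ha : 0 < a)
    (he : 0 < e) : (fun z => f (affH a e b ha he z)) ∈ HolH := by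
  rw [mem_HolH, UpperHalfPlane.mdifferentiable_iff] at hf ⊢
  have hmaps : Set.MapsTo (fun w : ℂ => ((a : ℂ) * w + b) / e) {w : ℂ | 0 < w.im}
      {w : ℂ | 0 < w.im} := by
    intro w hw
    exact (affH a e b ha he ⟨w, hw⟩).im_pos
  have hd : DifferentiableOn ℂ (fun w : ℂ => ((a : ℂ) * w + b) / e) {w : ℂ | 0 < w.im} := by
    intro w _
    exact (((differentiableAt_id.const_mul (a : ℂ)).add_const (b : ℂ)).div_const
      (e : ℂ)).differentiableWithinAt
  refine (hf.comp hd hmaps).congr fun w hw => ?_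
  have hw' : 0 < (((a : ℂ) * w + b) / e).im := hmaps hw
  simp only [Function.comp_apply]
  rw [UpperHalfPlane.ofComplex_apply_of_im_pos hw, UpperHalfPlane.ofComplex_apply_of_im_pos hw']
  congr 1

/-- Quotients by nowhere vanishing holomorphic functions are holomorphic. -/
theorem div_mem_HolH {f g : ℍ → ℂ} (hf : f ∈ HolH) (hg : g ∈ HolH) (hne : ∀ z, g z ≠ 0) :
    (fun z => f z / g z) ∈ HolH := by
  rw [mem_HolH, UpperHalfPlane.mdifferentiable_iff] at hf hg ⊢
  refine (hf.div hg fun w hw => ?_).congr fun w _ => rfl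
  simp only [Function.comp_apply]
  exact hne _

theorem discriminant_mem_HolH : (ModularForm.discriminant : ℍ → ℂ) ∈ HolH :=
  CuspForm.discriminant.holo'

/-! ### the function -/

/-- The modular unit `F(z) = Δ(p z) / Δ(z)`. -/
def deltaQuot (p : ℕ) [NeZero p] : ℍ → ℂ :=
  fun z => ModularForm.discriminant (scaleH p z) / ModularForm.discriminant z

/-- The conjugates: `Δ((a z + b)/e) / Δ(z)`. -/
def deltaAff (a e : ℕ) (b : ℤ) (ha : 0 < a) (he : 0 < e) : ℍ → ℂ :=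
  fun z => ModularForm.discriminant (affH a e b ha he z) / ModularForm.discriminant z

theorem deltaAff_mem_HolH (a e : ℕ) (b : ℤ) (ha : 0 < a) (he : 0 < e) :
    deltaAff a e b ha he ∈ HolH :=
  div_mem_HolH (comp_affH_mem_HolH discriminant_mem_HolH a e b ha he) discriminant_mem_HolH
    discriminant_ne_zero

theorem scaleH_eq_affH (p : ℕ) [NeZero p] (z : ℍ) :
    scaleH p z = affH p 1 0 (Nat.pos_of_ne_zero (NeZero.ne p)) one_pos z := by
  apply UpperHalfPlane.ext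
  rw [coe_scaleH, coe_affH]
  simp

theorem deltaQuot_eq_deltaAff (p : ℕ) [NeZero p] :
    deltaQuot p = deltaAff p 1 0 (Nat.pos_of_ne_zero (NeZero.ne p)) one_pos := by
  funext z
  rw [deltaQuot, deltaAff, scaleH_eq_affH]

theorem deltaQuot_mem_HolH (p : ℕ) [NeZero p] : deltaQuot p ∈ HolH := by
  rw [deltaQuot_eq_deltaAff]
  exact deltaAff_mem_HolH _ _ _ _ _

/-! ### the automorphy step -/

/-- the denominator `c z + d` of `γ ∈ SL(2, ℤ)` in terms of the integer entries. -/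
theorem denom_eq (γ : SL(2, ℤ)) (z : ℍ) :
    denom γ z = ((γ 1 0 : ℤ) : ℂ) * z + ((γ 1 1 : ℤ) : ℂ) := by
  simp [denom]

/-- **Hermite normal form with denominators**: `d · (γ • z) = γ' • ((a z + b) / e)` and
`c' w + d' = (c z + d) / e` for `w = (a z + b) / e`. -/
theorem exists_scaleH_smul_denom (γ : SL(2, ℤ)) (d : ℕ) [NeZero d] :
    ∃ (γ' : SL(2, ℤ)) (a e : ℕ) (b : ℤ) (ha : 0 < a) (he : 0 < e), a * e = d ∧ 0 ≤ b ∧ b < e ∧
      ∀ z : ℍ, scaleH d (γ • z) = γ' • affH a e b ha he z ∧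
        denom γ' (affH a e b ha he z) = denom γ z / e := by
  have hd : 0 < d := Nat.pos_of_ne_zero (NeZero.ne d)
  obtain ⟨γ', a, e, b, hae, ha, he, hb0, hbe, h1, h2, h3, h4⟩ := exists_hermite γ hd
  refine ⟨γ', a, e, b, ha, he, hae, hb0, hbe, fun z => ?_⟩
  have hden := denom_ne_zero' γ z
  have hden' := denom_ne_zero' γ' (affH a e b ha he z)
  rw [coe_affH] at hden'
  have heC : (e : ℂ) ≠ 0 := by exact_mod_cast he.ne'
  have e1 : ((d : ℤ) : ℂ) * ((γ 0 0 : ℤ) : ℂ) = ((γ' 0 0 : ℤ) : ℂ) * ((a : ℤ) : ℂ) := by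
    exact_mod_cast congrArg (Int.cast : ℤ → ℂ) h1
  have e2 : ((d : ℤ) : ℂ) * ((γ 0 1 : ℤ) : ℂ) =
      ((γ' 0 0 : ℤ) : ℂ) * (b : ℂ) + ((γ' 0 1 : ℤ) : ℂ) * ((e : ℤ) : ℂ) := by
    exact_mod_cast congrArg (Int.cast : ℤ → ℂ) h2
  have e3 : ((γ 1 0 : ℤ) : ℂ) = ((γ' 1 0 : ℤ) : ℂ) * ((a : ℤ) : ℂ) := by
    exact_mod_cast congrArg (Int.cast : ℤ → ℂ) h3
  have e4 : ((γ 1 1 : ℤ) : ℂ) =
      ((γ' 1 0 : ℤ) : ℂ) * (b : ℂ) + ((γ' 1 1 : ℤ) : ℂ) * ((e : ℤ) : ℂ) := by
    exact_mod_cast congrArg (Int.cast : ℤ → ℂ) h4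
  simp only [Int.cast_natCast] at e1 e2 e3 e4
  have hnum : ((γ' 0 0 : ℤ) : ℂ) * (((a : ℂ) * z + b) / e) + ((γ' 0 1 : ℤ) : ℂ) =
      ((d : ℂ) * (((γ 0 0 : ℤ) : ℂ) * z + ((γ 0 1 : ℤ) : ℂ))) / e := by
    field_simp
    linear_combination (-(z : ℂ)) * e1 - e2
  have hdenom : ((γ' 1 0 : ℤ) : ℂ) * (((a : ℂ) * z + b) / e) + ((γ' 1 1 : ℤ) : ℂ) =
      (((γ 1 0 : ℤ) : ℂ) * z + ((γ 1 1 : ℤ) : ℂ)) / e := by
    field_simp
    linear_combination (-(z : ℂ)) * e3 - e4
  constructor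
  · apply UpperHalfPlane.ext
    rw [coe_scaleH, coe_smul', coe_smul', coe_affH, hnum, hdenom]
    field_simp
  · rw [denom_eq, denom_eq, coe_affH, hdenom]

/-- `Δ(γ z) = (c z + d)^12 Δ(z)` with a natural number exponent. -/
theorem discriminant_smul_pow (γ : SL(2, ℤ)) (z : ℍ) :
    ModularForm.discriminant (γ • z) = denom γ z ^ 12 * ModularForm.discriminant z := by
  have h := discriminant_smul γ z
  have h12 : denom γ z ^ (12 : ℤ) = denom γ z ^ 12 := by norm_cast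
  rw [h, h12]

/-- **The automorphy step**: `F(γ z) = e^{-12} Δ((a z + b)/e) / Δ(z)` with `a e = p`. -/
theorem compSL_deltaQuot (p : ℕ) [NeZero p] (γ : SL(2, ℤ)) :
    ∃ (a e : ℕ) (b : ℤ) (ha : 0 < a) (he : 0 < e), a * e = p ∧ 0 ≤ b ∧ b < e ∧
      compSL (deltaQuot p) γ = fun z => ((e : ℂ)⁻¹) ^ 12 * deltaAff a e b ha he z := by
  obtain ⟨γ', a, e, b, ha, he, hae, hb0, hbe, h⟩ := exists_scaleH_smul_denom γ p
  refine ⟨a, e, b, ha, he, hae, hb0, hbe, funext fun z => ?_⟩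
  obtain ⟨h1, h2⟩ := h z
  have heC : (e : ℂ) ≠ 0 := by exact_mod_cast he.ne'
  have hden : denom γ z ≠ 0 := denom_ne_zero γ z
  have hΔ : ModularForm.discriminant z ≠ 0 := discriminant_ne_zero z
  show ModularForm.discriminant (scaleH p (γ • z)) / ModularForm.discriminant (γ • z) = _
  rw [h1, discriminant_smul_pow, discriminant_smul_pow, h2, deltaAff]
  field_simp

/-- `F` is invariant under `Γ₀(p)`. -/
theorem deltaQuot_invariant (p : ℕ) [NeZero p] (γ : SL(2, ℤ))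
    (hγ : γ ∈ CongruenceSubgroup.Gamma0 p) : compSL (deltaQuot p) γ = deltaQuot p := by
  have hp : (p : ℤ) ∣ γ 1 0 := by
    rw [CongruenceSubgroup.Gamma0_mem] at hγ
    exact (ZMod.intCast_zmod_eq_zero_iff_dvd _ _).mp hγ
  funext z
  have hden : denom γ z ≠ 0 := denom_ne_zero γ z
  have hΔ : ModularForm.discriminant z ≠ 0 := discriminant_ne_zero z
  have hΔ' : ModularForm.discriminant (scaleH p z) ≠ 0 := discriminant_ne_zero _
  have hdd : denom (Analytic.conjMat γ p hp) (scaleH p z) = denom γ z := by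
    rw [denom_eq, denom_eq, coe_scaleH]
    have h1 : ((γ 1 0 / (p : ℤ) : ℤ) : ℂ) * (p : ℂ) = ((γ 1 0 : ℤ) : ℂ) := by
      have := Int.ediv_mul_cancel hp
      exact_mod_cast congrArg (fun t : ℤ => (t : ℂ)) this
    simp only [Analytic.conjMat, Matrix.SpecialLinearGroup.coe_mk, Matrix.of_apply,
      Matrix.cons_val', Matrix.cons_val_zero, Matrix.cons_val_one, Matrix.cons_val_fin_one]
    rw [← mul_assoc, h1]
  show ModularForm.discriminant (scaleH p (γ • z)) / ModularForm.discriminant (γ • z) = _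
  rw [Analytic.scaleH_smul γ p hp, discriminant_smul_pow, discriminant_smul_pow, hdd, deltaQuot]
  field_simp

/-! ### the matrix `S` -/

theorem denom_S (z : ℍ) : denom ModularGroup.S z = z := by
  rw [denom_eq]
  simp [ModularGroup.S]

theorem scaleH_S_smul (p : ℕ) [NeZero p] (z : ℍ) :
    scaleH p (ModularGroup.S • z) =
      ModularGroup.S • affH 1 p 0 one_pos (Nat.pos_of_ne_zero (NeZero.ne p)) z := by
  apply UpperHalfPlane.ext
  rw [coe_scaleH, UpperHalfPlane.modular_S_smul, UpperHalfPlane.modular_S_smul]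
  have hp : (p : ℂ) ≠ 0 := by exact_mod_cast NeZero.ne p
  have hz : (z : ℂ) ≠ 0 := ne_zero z
  simp only [coe_affH, Nat.cast_one, Int.cast_zero, one_mul, add_zero]
  field_simp

/-- `F(S z) = p^{-12} Δ(z / p) / Δ(z)`. -/
theorem compSL_deltaQuot_S (p : ℕ) [NeZero p] :
    compSL (deltaQuot p) ModularGroup.S = fun z => ((p : ℂ)⁻¹) ^ 12 *
      deltaAff 1 p 0 one_pos (Nat.pos_of_ne_zero (NeZero.ne p)) z := by
  funext z
  have hp : (p : ℂ) ≠ 0 := by exact_mod_cast NeZero.ne p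
  have hz : (z : ℂ) ≠ 0 := ne_zero z
  have hΔ : ModularForm.discriminant z ≠ 0 := discriminant_ne_zero z
  show ModularForm.discriminant (scaleH p (ModularGroup.S • z)) /
    ModularForm.discriminant (ModularGroup.S • z) = _
  rw [scaleH_S_smul, discriminant_smul_pow, discriminant_smul_pow, denom_S, denom_S, deltaAff,
    coe_affH]
  field_simp
  simp
end Fermat.Agent.IG.AN.DeltaQuot19
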