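/-
IG/AN (P2-a, helper19), part 2: convergent `q`-expansions of `Δ`, `1/Δ` and of the modular unit
`F(z) = Δ(p z)/Δ(z)` and its `S`-conjugate.
-/
import Fermat.Agent.IG.AN.DeltaQuot19
import Fermat.Agent.IG.PR.Interface20
import Fermat.Agent.X0.Integrality
import Fermat.Agent.IG.AN.DeltaAffine11

set_option autoImplicit false

open UpperHalfPlane ModularForm ModularCurve
open scoped MatrixGroups Manifold

noncomputable section

namespace Fermat.Agent.IG.AN.DeltaQuotExp19

open Fermat.Agent.X0 Fermat.Agent.X0.Hermite Fermat.Agent.X0.Analytic Fermat.Agent.X0.JQExp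
open Fermat.Agent.IG.PR.Interface20 Fermat.Agent.IG.AN.DeltaQuot19

/-! ### `Δ` and `1/Δ` -/

/-- `Δ` has the `q`-expansion `deltaq ℂ = q ∏ (1 - q^n)^24`. -/
theorem hasQExp_deltaq : HasQExp (deltaq ℂ) ModularForm.discriminant := by
  refine ⟨0, fun q => q * (etaFun ^ 24) q, ?_, ?_, fun z => ?_⟩
  · exact differentiableOn_id.mul (differentiableOn_etaFun.pow 24)
  · have h := tps_mul (f := fun q : ℂ => q) (g := etaFun ^ 24) analyticAt_id
      ((analyticAt_etaFun (by simp)).pow 24)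
    have hX : tps (fun q : ℂ => q) = PowerSeries.X := by
      have := tps_monomial 1
      simpa using this
    have hfun : (fun q : ℂ => q * (etaFun ^ 24) q) = (fun q : ℂ => q) * (etaFun ^ 24) := rfl
    rw [hfun, h, hX, tps_etaFun_pow, deltaq, lau, map_mul, HahnSeries.ofPowerSeries_X]
    simp
  · rw [pow_zero, mul_one, discriminant_eq_etaFun]
    rfl

/-- `1/Δ` has the `q`-expansion `deltaqInv ℂ`. -/
theorem hasQExp_deltaqInv : HasQExp (deltaqInv ℂ) (fun z => (ModularForm.discriminant z)⁻¹) := by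
  refine ⟨1, (etaFun ^ 24)⁻¹, ?_, ?_, fun z => ?_⟩
  · refine (differentiableOn_etaFun.pow 24).inv fun q hq => ?_
    rw [mem_ball_zero_iff] at hq
    exact pow_ne_zero _ (etaFun_ne_zero hq)
  · rw [tps_etaFun_pow_inv, deltaqInv, lau]
    simp
  · have hq0 : qH z ≠ 0 := qH_ne_zero z
    have he : etaFun (qH z) ^ 24 ≠ 0 := pow_ne_zero _ (etaFun_ne_zero (norm_qH_lt_one z))
    show (ModularForm.discriminant z)⁻¹ * qH z ^ 1 = (etaFun (qH z) ^ 24)⁻¹
    rw [discriminant_eq_etaFun]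
    show (qH z * etaFun (qH z) ^ 24)⁻¹ * qH z ^ 1 = (etaFun (qH z) ^ 24)⁻¹
    field_simp

/-! ### naturality of the formal objects under coefficient maps -/

section CoeffMap

variable {R S : Type*} [CommRing R] [CommRing S]

theorem map_intCast_map (φ : R →+* S) (P : PowerSeries ℤ) :
    (P.map (Int.castRingHom R)).map φ = P.map (Int.castRingHom S) := by
  ext n
  simp [PowerSeries.coeff_map]

theorem coeffMap_deltaq (φ : R →+* S) : coeffMap φ (deltaq R) = deltaq S := by
  rw [deltaq, deltaq, map_mul, coeffMap_single, coeffMap_ofPowerSeries, map_intCast_map, map_one]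

theorem coeffMap_deltaqInv (φ : R →+* S) : coeffMap φ (deltaqInv R) = deltaqInv S := by
  rw [deltaqInv, deltaqInv, map_mul, coeffMap_single, coeffMap_ofPowerSeries, map_intCast_map,
    map_one]

theorem coeffMap_uq (φ : R →+* S) (p : ℕ) [NeZero p] : coeffMap φ (uq R p) = uq S p := by
  rw [uq, uq, map_mul, ModularCurve.coeffMap_qExpand, coeffMap_deltaq, coeffMap_deltaqInv]

theorem toC_coeffMap_intCast (x : LaurentSeries ℤ) :
    toC (coeffMap (Int.castRingHom Kbar) x) = coeffMap (Int.castRingHom ℂ) x := by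
  rw [toC, coeffMap_coeffMap]
  exact coeffMap_congr (RingHom.ext_int _ _) x

end CoeffMap

/-! ### the modular unit -/

/-- `F(z) = Δ(p z)/Δ(z)` has the `q`-expansion `uq ℂ p`. -/
theorem hasQExp_deltaQuot (p : ℕ) [NeZero p] : HasQExp (uq ℂ p) (deltaQuot p) := by
  have h := HasQExp.mul (hasQExp_deltaq.qExpand p) hasQExp_deltaqInv
  have hfun : ((fun z => ModularForm.discriminant (scaleH p z)) *
      fun z => (ModularForm.discriminant z)⁻¹) = deltaQuot p := by
    funext z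
    simp [deltaQuot, div_eq_mul_inv]
  rw [hfun] at h
  exact h

/-- **(iii)**: the `q_p`-expansion of `F` is `u(q_p^p)`. -/
theorem expansion_one (p : ℕ) [NeZero p] :
    IntgQN p (deltaQuot p)
      (toC (qExpand Kbar p (coeffMap (Int.castRingHom Kbar) (uq ℤ p)))) := by
  have h : toC (qExpand Kbar p (coeffMap (Int.castRingHom Kbar) (uq ℤ p)))
      = qExpand ℂ p (uq ℂ p) := by
    rw [toC, ModularCurve.coeffMap_qExpand, ← toC, toC_coeffMap_intCast, coeffMap_uq]
  rw [h]
  exact (hasQExp_deltaQuot p).qExpand p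

theorem affH_one_scaleH (p : ℕ) [NeZero p] (z : ℍ) :
    affH 1 p 0 one_pos (Nat.pos_of_ne_zero (NeZero.ne p)) (scaleH p z) = z := by
  apply UpperHalfPlane.ext
  rw [coe_affH, coe_scaleH]
  have hp : (p : ℂ) ≠ 0 := by exact_mod_cast NeZero.ne p
  simp only [Nat.cast_one, Int.cast_zero, one_mul, add_zero]
  field_simp

theorem toC_C (c : Kbar) : toC (HahnSeries.C c) = HahnSeries.C (iotaK c) := by
  rw [toC]
  show coeffMap iotaK (HahnSeries.single 0 c) = HahnSeries.single 0 (iotaK c)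
  rw [coeffMap_single]

/-- **(iv)**: the `q_p`-expansion of `F ∘ S` is `p^{-12} Δ(q_p)/Δ(q_p^p)`. -/
theorem expansion_S (p : ℕ) [NeZero p] :
    IntgQN p (compSL (deltaQuot p) ModularGroup.S)
      (toC (HahnSeries.C (((p : Kbar)⁻¹) ^ 12) *
        coeffMap (Int.castRingHom Kbar) (deltaq ℤ * qExpand ℤ p (deltaqInv ℤ)))) := by
  have h : toC (HahnSeries.C (((p : Kbar)⁻¹) ^ 12) *
        coeffMap (Int.castRingHom Kbar) (deltaq ℤ * qExpand ℤ p (deltaqInv ℤ)))
      = HahnSeries.C (((p : ℂ)⁻¹) ^ 12) * (deltaq ℂ * qExpand ℂ p (deltaqInv ℂ)) := by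
    rw [map_mul, toC_C, toC_coeffMap_intCast, map_mul, ModularCurve.coeffMap_qExpand,
      coeffMap_deltaq, coeffMap_deltaqInv, map_pow, map_inv₀, map_natCast]
  rw [h, compSL_deltaQuot_S]
  have h1 := HasQExp.mul (HasQExp.const (((p : ℂ)⁻¹) ^ 12))
    (HasQExp.mul hasQExp_deltaq (hasQExp_deltaqInv.qExpand p))
  have hfun : ((fun _ : ℍ => ((p : ℂ)⁻¹) ^ 12) * ((ModularForm.discriminant : ℍ → ℂ) *
      fun z => (ModularForm.discriminant (scaleH p z))⁻¹)) =
      fun z => ((p : ℂ)⁻¹) ^ 12 *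
        deltaAff 1 p 0 one_pos (Nat.pos_of_ne_zero (NeZero.ne p)) (scaleH p z) := by
    funext z
    simp only [Pi.mul_apply, deltaAff, affH_one_scaleH, div_eq_mul_inv]
  rw [hfun] at h1
  exact h1

/-! ### all conjugates -/

/-- The coefficient ring `ℤ[ζ_p, 1/p] ⊆ ℚbar`. -/
def coeffRing (p : ℕ) [NeZero p] : Subring Kbar := Subring.closure {zetaK p, (p : Kbar)⁻¹}

theorem zetaK_mem_coeffRing (p : ℕ) [NeZero p] : zetaK p ∈ coeffRing p :=
  Subring.subset_closure (Set.mem_insert _ _)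

theorem inv_mem_coeffRing (p : ℕ) [NeZero p] : (p : Kbar)⁻¹ ∈ coeffRing p :=
  Subring.subset_closure (Set.mem_insert_of_mem _ rfl)

theorem closure_zetaK_le (p : ℕ) [NeZero p] : Subring.closure {zetaK p} ≤ coeffRing p :=
  Subring.closure_mono (Set.singleton_subset_iff.mpr (Set.mem_insert _ _))

/-- if `a e = p` then `1/e = a/p ∈ ℤ[1/p]`. -/
theorem inv_natCast_mem_coeffRing (p : ℕ) [NeZero p] {a e : ℕ} (hae : a * e = p) :
    (e : Kbar)⁻¹ ∈ coeffRing p := by
  have hp : (p : Kbar) ≠ 0 := by exact_mod_cast NeZero.ne p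
  have he : (e : Kbar) ≠ 0 := by
    intro h
    apply hp
    rw [← hae, Nat.cast_mul, h, mul_zero]
  have ha : (a : Kbar) ≠ 0 := by
    intro h
    apply hp
    rw [← hae, Nat.cast_mul, h, zero_mul]
  have h : (e : Kbar)⁻¹ = (a : Kbar) * (p : Kbar)⁻¹ := by
    rw [← hae, Nat.cast_mul]
    field_simp
  rw [h]
  exact (coeffRing p).mul_mem (natCast_mem _ a) (inv_mem_coeffRing p)

/-- **(ii)**: every conjugate `F ∘ γ` has a `q_p`-expansion with coefficients in `ℤ[ζ_p, 1/p]`. -/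
theorem exists_expansion (p : ℕ) [NeZero p] (γ : SL(2, ℤ)) :
    ∃ T : LaurentSeries Kbar, IntgQN p (compSL (deltaQuot p) γ) (toC T) ∧
      ∀ n, T.coeff n ∈ coeffRing p := by
  obtain ⟨a, e, b, ha, he, hae, -, -, hγ⟩ := compSL_deltaQuot p γ
  obtain ⟨T, hT, hcoef⟩ := DeltaAffine11.exists_expansion p a e b ha he hae
  refine ⟨HahnSeries.C (((e : Kbar)⁻¹) ^ 12) * T, ?_, fun n => ?_⟩
  · rw [hγ, map_mul, toC_C, map_pow, map_inv₀, map_natCast]
    exact intg_qn_mul p (intg_qn_const p _) hT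
  · rw [HahnSeries.C_mul_eq_smul, HahnSeries.coeff_smul, smul_eq_mul]
    exact (coeffRing p).mul_mem ((coeffRing p).pow_mem (inv_natCast_mem_coeffRing p hae) 12)
      (closure_zetaK_le p (hcoef n))

end Fermat.Agent.IG.AN.DeltaQuotExp19
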