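/-
Program G (S28, Igusa) / chapter IG/AN / helper3.

`SectionKit3`: the `p`-section decomposition of Laurent series and the determinant trick.

For a commutative ring `R`, `p ≥ 1`, `V = qExpand R p : R((q)) → R((q))` (`q ↦ q^p`):
* `sec p i f`  : the `i`-th `p`-section, `(sec p i f).coeff n = f.coeff (p * n + i)`;
* `eq_sum_sec` : `f = ∑_{i < p} q^i * V (sec p i f)`;
* `annPoly p f`: a MONIC polynomial of degree `p` over `R((q))` with
  `((annPoly p f).map V).eval f = 0` (characteristic polynomial of the matrix of multiplication by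
  `f` in the "basis" `1, q, …, q^(p-1)` of `R((q))` over `V (R((q)))`; Cayley–Hamilton through the
  adjugate).  It is compatible with coefficient maps `R → S`.
* over a field `k`, for `f` of order `-1` (more generally prime to `p`), `annPoly p f` is THE unique
  monic polynomial of degree `p` over `k((q))` whose image under `V` kills `f`
  (`eq_annPoly_of_monic`, from helper25's Lemma (C)).
No roots of unity, no Puiseux series.
-/
import Mathlib
import Fermat.Prelude.Def_ModularCurve_X0ModL
import Fermat.Agent.IG.PR.RamDeg25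

set_option autoImplicit false

noncomputable section

namespace Fermat.Agent.IG.AN.SectionKit3

open HahnSeries Polynomial ModularCurve Matrix

section Sections

variable {R : Type*} [CommRing R] (p : ℕ) [NeZero p]

theorem sec_aux (i : ℕ) (f : LaurentSeries R) :
    BddBelow (Function.support fun n : ℤ => f.coeff ((p : ℤ) * n + i)) := by
  refine ⟨min 0 (f.order - i), fun m hm' => ?_⟩
  by_contra hlt
  rw [not_le] at hlt
  apply hm'
  have hm := hlt
  show f.coeff ((p : ℤ) * m + i) = 0
  apply coeff_eq_zero_of_lt_order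
  have h0 : m < 0 := lt_of_lt_of_le hm (min_le_left _ _)
  have h1 : m < f.order - i := lt_of_lt_of_le hm (min_le_right _ _)
  have hp : (1 : ℤ) ≤ p := by exact_mod_cast Nat.one_le_iff_ne_zero.2 (NeZero.ne p)
  nlinarith

/-- The `i`-th `p`-section of a Laurent series. -/
def sec (i : ℕ) (f : LaurentSeries R) : LaurentSeries R :=
  ofSuppBddBelow (fun n : ℤ => f.coeff ((p : ℤ) * n + i)) (sec_aux p i f)

@[simp]
theorem sec_coeff (i : ℕ) (f : LaurentSeries R) (n : ℤ) :
    (sec p i f).coeff n = f.coeff ((p : ℤ) * n + i) := by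
  rw [sec, coeff_ofSuppBddBelow]

/-- Coefficients of `q^i * V g`. -/
theorem coeff_single_mul_qExpand (i : ℕ) (g : LaurentSeries R) (m : ℤ) :
    (single (i : ℤ) (1 : R) * qExpand R p g).coeff m =
      if (p : ℤ) ∣ m - i then g.coeff ((m - i) / p) else 0 := by
  rw [coeff_single_mul, one_mul]
  split_ifs with h
  · obtain ⟨c, hc⟩ := h
    have hp : (p : ℤ) ≠ 0 := by exact_mod_cast NeZero.ne p
    rw [hc, qExpand_coeff_mul, Int.mul_ediv_cancel_left _ hp]
  · exact qExpand_coeff_of_not_dvd p g h

/-- **Section decomposition**: `f = ∑_{i < p} q^i * V (sec p i f)`. -/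
theorem eq_sum_sec (f : LaurentSeries R) :
    f = ∑ i : Fin p, single ((i : ℕ) : ℤ) (1 : R) * qExpand R p (sec p i f) := by
  ext m
  rw [HahnSeries.coeff_sum]
  simp only [coeff_single_mul_qExpand, sec_coeff]
  have hp : (0 : ℤ) < p := by exact_mod_cast Nat.pos_of_ne_zero (NeZero.ne p)
  have hp' : (p : ℤ) ≠ 0 := hp.ne'
  have hlt : (m % p).toNat < p := by
    have h1 := Int.emod_nonneg m hp'
    have h2 := Int.emod_lt_of_pos m hp
    omega
  rw [Finset.sum_eq_single (⟨(m % p).toNat, hlt⟩ : Fin p)]
  · have h1 := Int.emod_nonneg m hp'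
    have hcast : (((m % p).toNat : ℕ) : ℤ) = m % p := Int.toNat_of_nonneg h1
    have hsub : m - m % p = (p : ℤ) * (m / p) := by
      have := Int.mul_ediv_add_emod m p
      linarith
    have hdvd : (p : ℤ) ∣ m - ((⟨(m % p).toNat, hlt⟩ : Fin p) : ℕ) := by
      show (p : ℤ) ∣ m - (((m % p).toNat : ℕ) : ℤ)
      rw [hcast, hsub]
      exact dvd_mul_right _ _
    rw [if_pos hdvd]
    congr 1
    show m = (p : ℤ) * ((m - (((m % p).toNat : ℕ) : ℤ)) / p) + (((m % p).toNat : ℕ) : ℤ)
    rw [hcast, hsub, Int.mul_ediv_cancel_left _ hp']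
    linarith
  · intro j _ hj
    rw [if_neg]
    intro hdvd
    apply hj
    apply Fin.ext
    show (j : ℕ) = (m % p).toNat
    have h1 := Int.emod_nonneg m hp'
    have hj2 : ((j : ℕ) : ℤ) < p := by exact_mod_cast j.2
    have hj0 : (0 : ℤ) ≤ ((j : ℕ) : ℤ) := Int.natCast_nonneg _
    have hmod : m % p = ((j : ℕ) : ℤ) := by
      obtain ⟨c, hc⟩ := hdvd
      have : m = ((j : ℕ) : ℤ) + p * c := by linarith
      rw [this, Int.add_mul_emod_self_left, Int.emod_eq_of_lt hj0 hj2]
    rw [hmod, Int.toNat_natCast]
  · intro h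
    exact absurd (Finset.mem_univ _) h

end Sections

section AnnPoly

variable {R : Type*} [CommRing R] (p : ℕ) [NeZero p]

/-- The matrix of multiplication by `f` on `1, q, …, q^(p-1)` over `V (R((q)))`
(entries are the preimages under `V`). -/
def mulMatrix (f : LaurentSeries R) : Matrix (Fin p) (Fin p) (LaurentSeries R) :=
  fun i j => sec p i (f * single ((j : ℕ) : ℤ) (1 : R))

/-- The monic annihilating polynomial of degree `p` of `f` over `V (R((q)))`
(with coefficients pulled back along `V`). -/
def annPoly (f : LaurentSeries R) : (LaurentSeries R)[X] := (mulMatrix p f).charpoly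

theorem annPoly_monic (f : LaurentSeries R) : (annPoly p f).Monic :=
  charpoly_monic _

theorem annPoly_natDegree [Nontrivial R] (f : LaurentSeries R) : (annPoly p f).natDegree = p := by
  rw [annPoly, charpoly_natDegree_eq_dim, Fintype.card_fin]

/-- The determinant trick: `V (annPoly p f)` kills `f`. -/
theorem eval_map_annPoly (f : LaurentSeries R) :
    ((annPoly p f).map (qExpand R p)).eval f = 0 := by
  classical
  set A : Matrix (Fin p) (Fin p) (LaurentSeries R) := ((mulMatrix p f).map (qExpand R p))ᵀ with hA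
  set v : Fin p → LaurentSeries R := fun i => single ((i : ℕ) : ℤ) (1 : R) with hv
  have hAv : A.mulVec v = f • v := by
    funext j
    rw [mulVec, dotProduct]
    simp only [hA, transpose_apply, map_apply, Pi.smul_apply, smul_eq_mul, hv, mulMatrix]
    rw [eq_sum_sec p (f * single ((j : ℕ) : ℤ) (1 : R))]
    refine Finset.sum_congr rfl fun i _ => ?_
    rw [← eq_sum_sec p (f * single ((j : ℕ) : ℤ) (1 : R))]
    ring
  have hB : (Matrix.scalar (Fin p) f - A).mulVec v = 0 := by
    rw [sub_mulVec, hAv]
    funext j
    simp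
  have hdet : (Matrix.scalar (Fin p) f - A).det • v = 0 := by
    have h1 : ((Matrix.scalar (Fin p) f - A).adjugate * (Matrix.scalar (Fin p) f - A)).mulVec v
        = 0 := by
      rw [← mulVec_mulVec, hB, mulVec_zero]
    rw [adjugate_mul, smul_mulVec, one_mulVec] at h1
    exact h1
  have h0 : (Matrix.scalar (Fin p) f - A).det = 0 := by
    have hp : 0 < p := Nat.pos_of_ne_zero (NeZero.ne p)
    have := congrFun hdet ⟨0, hp⟩
    simpa [hv] using this
  rw [annPoly, ← charpoly_map, ← charpoly_transpose, eval_charpoly]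
  exact h0

end AnnPoly

section CoeffMap

variable {R S : Type*} [CommRing R] [CommRing S] (p : ℕ) [NeZero p] (φ : R →+* S)

theorem coeffMap_sec (i : ℕ) (f : LaurentSeries R) :
    coeffMap φ (sec p i f) = sec p i (coeffMap φ f) := by
  ext n
  rw [coeffMap_coeff, sec_coeff, sec_coeff, coeffMap_coeff]

theorem map_mulMatrix (f : LaurentSeries R) :
    (mulMatrix p f).map (coeffMap φ) = mulMatrix p (coeffMap φ f) := by
  ext i j
  rw [map_apply, mulMatrix, mulMatrix, coeffMap_sec, map_mul, coeffMap_single, map_one]

/-- `annPoly` commutes with coefficient maps. -/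
theorem map_annPoly (f : LaurentSeries R) :
    (annPoly p f).map (coeffMap φ) = annPoly p (coeffMap φ f) := by
  rw [annPoly, annPoly, ← charpoly_map, map_mulMatrix]

end CoeffMap

section Unique

variable {k : Type*} [Field k] (p : ℕ) [NeZero p]

/-- **Uniqueness** (from Lemma (C)): over a field, for `f` of order `-1`, a monic polynomial of
degree `p` over `k((q))` whose image under `V` kills `f` is `annPoly p f`. -/
theorem eq_annPoly_of_monic {f : LaurentSeries k} (hf : f.order = -1)
    (G : (LaurentSeries k)[X]) (hG : G.Monic) (hdeg : G.natDegree = p)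
    (h0 : (G.map (qExpand k p)).eval f = 0) : G = annPoly p f := by
  by_contra hne
  have hsub : G - annPoly p f ≠ 0 := sub_ne_zero.2 hne
  have hdeg2 : (G - annPoly p f).natDegree < p := by
    have h1 : (G - annPoly p f).degree < G.degree := by
      apply degree_sub_lt_left
      · rw [degree_eq_natDegree hG.ne_zero, degree_eq_natDegree (annPoly_monic p f).ne_zero,
          hdeg, annPoly_natDegree]
      · exact hG.ne_zero
      · rw [hG.leadingCoeff, (annPoly_monic p f).leadingCoeff]
    rw [degree_eq_natDegree hG.ne_zero, hdeg, degree_eq_natDegree hsub] at h1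
    exact_mod_cast h1
  refine Fermat.Agent.IG.PR.RamDeg25.eval_map_qExpand_ne_zero_of_order hf _ hsub hdeg2 ?_
  rw [Polynomial.map_sub, eval_sub, h0, eval_map_annPoly, sub_zero]

end Unique

end Fermat.Agent.IG.AN.SectionKit3
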