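/-
Program G (S28), chapter IG/AN — helper23.
(DEG): `[FF_N : ℚ(j)] ≤ ψ(N)` for the RATIONAL function field `modularFunctionFieldFull N ⊂ ℚ((q))`,
deduced from the X0 library (`[ℚbar(x_d) : ℚbar(j)] = ψ(N)`) by linear disjointness of `ℚ((q))`
and `ℚbar` over `ℚ` (coefficientwise `ℚ`-linear functionals `ℚbar → ℚ`).
-/
import Mathlib
import Fermat.Prelude.Def_ModularCurve_LaurentCoeff
import Fermat.Prelude.Def_ModularCurve_IgusaScheme
import Fermat.Agent.X0.Degree
import Fermat.Agent.X0.RealizeData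
import Fermat.Agent.X0.CuspExpand

set_option autoImplicit false
set_option linter.unusedSectionVars false

open ModularCurve IntermediateField Polynomial

noncomputable section

namespace Fermat.Agent.IG.AN.DegLe23

section Core

variable {L : Type*} [Field L] [Algebra ℚ L]

/-- Coefficientwise application of a `ℚ`-linear functional `L → ℚ`. -/
def coeffFun (φ : L →ₗ[ℚ] ℚ) : LaurentSeries L →+ LaurentSeries ℚ where
  toFun c := c.map φ
  map_zero' := by ext n; simp
  map_add' x y := by ext n; simp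

@[simp] theorem coeffFun_coeff (φ : L →ₗ[ℚ] ℚ) (c : LaurentSeries L) (n : ℤ) :
    (coeffFun φ c).coeff n = φ (c.coeff n) := rfl

theorem support_coeffEmb_subset (f : LaurentSeries ℚ) :
    (coeffEmb L f).support ⊆ f.support := by
  intro n hn
  rw [HahnSeries.mem_support] at hn ⊢
  intro h
  apply hn
  rw [coeffEmb_coeff, h, map_zero]

/-- `coeffFun φ` is `ℚ((q))`-linear. -/
theorem coeffFun_mul_coeffEmb (φ : L →ₗ[ℚ] ℚ) (c : LaurentSeries L) (f : LaurentSeries ℚ) :
    coeffFun φ (c * coeffEmb L f) = coeffFun φ c * f := by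
  ext n
  rw [coeffFun_coeff, HahnSeries.coeff_mul_right' f.isPWO_support (support_coeffEmb_subset f),
    HahnSeries.coeff_mul_left' c.isPWO_support
      (show (coeffFun φ c).support ⊆ c.support from fun m hm => by
        rw [HahnSeries.mem_support] at hm ⊢
        intro h
        apply hm
        rw [coeffFun_coeff, h, map_zero]),
    map_sum]
  refine Finset.sum_congr rfl fun ij _ => ?_
  rw [coeffFun_coeff, coeffEmb_coeff, mul_comm, ← Algebra.smul_def, map_smul, smul_eq_mul, mul_comm]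

theorem coeffFun_algebraMap (φ : L →ₗ[ℚ] ℚ) (a : L) :
    coeffFun φ (algebraMap L (LaurentSeries L) a) = algebraMap ℚ (LaurentSeries ℚ) (φ a) := by
  rw [algebraMap_laurentSeries_eq_single, algebraMap_laurentSeries_eq_single]
  ext n
  rw [coeffFun_coeff, HahnSeries.coeff_single, HahnSeries.coeff_single]
  split_ifs <;> simp

theorem coeffFun_eq_zero_of_forall {c : LaurentSeries L}
    (h : ∀ φ : L →ₗ[ℚ] ℚ, coeffFun φ c = 0) : c = 0 := by
  ext n
  rw [HahnSeries.coeff_zero]
  refine (Module.forall_dual_apply_eq_zero_iff ℚ (c.coeff n)).mp fun φ => ?_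
  have := congrArg (fun x => x.coeff n) (h φ)
  simpa using this

/-- `coeffFun φ` maps `L[T]` into `ℚ(t)`. -/
theorem coeffFun_aeval_mem (φ : L →ₗ[ℚ] ℚ) (t : LaurentSeries ℚ) (P : L[X]) :
    coeffFun φ (aeval (coeffEmb L t) P) ∈ ℚ⟮t⟯ := by
  rw [aeval_eq_sum_range, map_sum]
  refine sum_mem fun k _ => ?_
  rw [Algebra.smul_def, ← map_pow, coeffFun_mul_coeffEmb, coeffFun_algebraMap]
  exact mul_mem (IntermediateField.algebraMap_mem _ _) (pow_mem (mem_adjoin_simple_self ℚ t) k)

/-- **Linear disjointness, explicit form.** -/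
theorem core {I : Type*} (s : Finset I) (e : I → LaurentSeries ℚ) (t : LaurentSeries ℚ)
    (hli : ∀ a : I → LaurentSeries ℚ, (∀ i, a i ∈ ℚ⟮t⟯) → ∑ i ∈ s, a i * e i = 0 →
      ∀ i ∈ s, a i = 0)
    (P : I → L[X])
    (h : ∑ i ∈ s, aeval (coeffEmb L t) (P i) * coeffEmb L (e i) = 0) :
    ∀ i ∈ s, aeval (coeffEmb L t) (P i) = 0 := by
  intro i hi
  refine coeffFun_eq_zero_of_forall fun φ => ?_
  have h1 := congrArg (coeffFun φ) h
  rw [map_sum, map_zero] at h1
  simp only [coeffFun_mul_coeffEmb] at h1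
  exact hli (fun i => coeffFun φ (aeval (coeffEmb L t) (P i)))
    (fun i => coeffFun_aeval_mem φ t (P i)) h1 i hi

end Core

section Level

open Fermat.Agent.X0
open scoped IntermediateField.algebraAdjoinAdjoin

variable (N : ℕ) [NeZero N]

omit [NeZero N] in
theorem coe_jF : ((jF N : FF N) : LaurentSeries Kbar) = coeffEmb Kbar jq := by
  show coeffEmb Kbar (qExpand ℚ 1 jq) = coeffEmb Kbar jq
  rw [qExpand_one_apply]

omit [NeZero N] in
theorem coe_aeval_FF (x : FF N) (P : Kbar[X]) :
    aeval (x : LaurentSeries Kbar) P = ((aeval x P : FF N) : LaurentSeries Kbar) :=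
  aeval_algHom_apply (modularFunctionFieldBar N).val x P

/-- **(DEG), family form.** A finite family of elements of the rational function field
`FF_N = ℚ(j(q^d) : d ∣ N) ⊂ ℚ((q))` which is linearly independent over `ℚ(j)` has at most
`ψ(N)` members. -/
theorem card_le_psi {I : Type*} [Fintype I] (e : I → LaurentSeries ℚ)
    (he : ∀ i, e i ∈ modularFunctionFieldFull N) (hli : LinearIndependent ℚ⟮jq⟯ e) :
    Fintype.card I ≤ dedekindPsi N := by
  classical
  set v : I → FF N := fun i =>
    ⟨coeffEmb Kbar (e i), coeffEmb_mem_laurentBaseChange Kbar (he i)⟩ with hv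
  have hli' : ∀ (s : Finset I) (a : I → LaurentSeries ℚ), (∀ i, a i ∈ ℚ⟮jq⟯) →
      ∑ i ∈ s, a i * e i = 0 → ∀ i ∈ s, a i = 0 := by
    intro s a ha h i hi
    have := linearIndependent_iff'.mp hli s (fun i => ⟨a i, ha i⟩) (by
      simpa [IntermediateField.smul_def] using h) i hi
    simpa using congrArg Subtype.val this
  have hvli : LinearIndependent Kbar⟮jF N⟯ v := by
    rw [← LinearIndependent.iff_fractionRing (Algebra.adjoin Kbar {jF N}) Kbar⟮jF N⟯]
    rw [linearIndependent_iff']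
    intro s g hg i hi
    have hex : ∀ i, ∃ P : Kbar[X], aeval (jF N) P = (g i : FF N) := by
      intro i
      have h0 : (g i : FF N) ∈ (aeval (R := Kbar) (jF N)).range := by
        rw [← Algebra.adjoin_singleton_eq_range_aeval]
        exact (g i).2
      exact h0
    choose P hP using hex
    have h1 : ∑ i ∈ s, aeval (coeffEmb Kbar jq) (P i) * coeffEmb Kbar (e i) = 0 := by
      have h2 := congrArg (fun x : FF N => (x : LaurentSeries Kbar)) hg
      simp only [AddSubmonoidClass.coe_finsetSum, ZeroMemClass.coe_zero] at h2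
      rw [← h2]
      refine Finset.sum_congr rfl fun i _ => ?_
      rw [← coe_jF N, coe_aeval_FF, hP]
      rfl
    have h3 := core s e jq (hli' s) P h1 i hi
    rw [← coe_jF N, coe_aeval_FF, hP] at h3
    exact Subtype.ext (Subtype.ext h3)
  have hfd := Degree.finiteDimensional_adjoin N (realizeData N) (cuspData N)
  have := hvli.fintype_card_le_finrank
  rwa [Degree.finrank_adjoin N (realizeData N) (cuspData N)] at this

/-- **(DEG), submodule form**: a `ℚ(j)`-subspace of `ℚ((q))` contained in `FF_N` has rank `≤ ψ(N)`. -/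
theorem rank_submodule_le_psi (V : Submodule ℚ⟮jq⟯ (LaurentSeries ℚ))
    (hV : ∀ x ∈ V, x ∈ modularFunctionFieldFull N) :
    Module.rank ℚ⟮jq⟯ V ≤ (dedekindPsi N : Cardinal) := by
  refine rank_le fun s hs => ?_
  have h1 : LinearIndependent ℚ⟮jq⟯ (fun i : s => ((i : V) : LaurentSeries ℚ)) :=
    hs.map' V.subtype (Submodule.ker_subtype V)
  have := card_le_psi N (fun i : s => ((i : V) : LaurentSeries ℚ)) (fun i => hV _ (i : V).2) h1
  simpa using this

/-- **(DEG), intermediate-field form**: any field `E₁` between `ℚ(j)` and `FF_N` (given as an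
intermediate field of `ℚ((q))/ℚ(j)`, e.g. `IntermediateField.extendScalars _` or
`IntermediateField.adjoin ℚ⟮jq⟯ (divisorExpansions N)`) is finite over `ℚ(j)` of degree `≤ ψ(N)`. -/
theorem finrank_le_psi_of_le (E₁ : IntermediateField ℚ⟮jq⟯ (LaurentSeries ℚ))
    (hE : ∀ x ∈ E₁, x ∈ modularFunctionFieldFull N) :
    FiniteDimensional ℚ⟮jq⟯ E₁ ∧ Module.finrank ℚ⟮jq⟯ E₁ ≤ dedekindPsi N := by
  have h := rank_submodule_le_psi N E₁.toSubalgebra.toSubmodule hE
  have hfin : FiniteDimensional ℚ⟮jq⟯ E₁ := by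
    rw [FiniteDimensional, ← Module.rank_lt_aleph0_iff]
    exact lt_of_le_of_lt h Cardinal.natCast_lt_aleph0
  refine ⟨hfin, ?_⟩
  have h' : Module.rank ℚ⟮jq⟯ E₁ ≤ (dedekindPsi N : Cardinal) := h
  rw [← Module.finrank_eq_rank] at h'
  exact_mod_cast h'

theorem adjoin_jq_le_full : ℚ⟮jq⟯ ≤ modularFunctionFieldFull N :=
  (adjoin_jq_le N).trans (modularFunctionField_le_full N)

/-- **(DEG)** for `FF_N` regarded as an intermediate field over `ℚ(j)` via `extendScalars`. -/
theorem finrank_extendScalars_le_psi :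
    FiniteDimensional ℚ⟮jq⟯ (IntermediateField.extendScalars (adjoin_jq_le_full N)) ∧
      Module.finrank ℚ⟮jq⟯ (IntermediateField.extendScalars (adjoin_jq_le_full N))
        ≤ dedekindPsi N :=
  finrank_le_psi_of_le N _ fun _ hx => hx

section AnyAlgebra

open ModularCurve.IgusaScheme

/-! The field `FF_N = ↥(modularFunctionFieldFull N)` carries two (propositionally equal, not
reducibly defeq) `ℚ`-algebra structures (`DivisionRing.toRatAlgebra` and
`IntermediateField.algebra'`); we prove the statements for an ARBITRARY instance. -/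

variable [inst : Algebra ℚ ↥(modularFunctionFieldFull N)]

theorem coe_algebraMap_rat (r : ℚ) :
    ((algebraMap ℚ ↥(modularFunctionFieldFull N) r : ↥(modularFunctionFieldFull N)) :
      LaurentSeries ℚ) = algebraMap ℚ (LaurentSeries ℚ) r := by
  have : (modularFunctionFieldFull N).toSubfield.subtype.comp
      (algebraMap ℚ ↥(modularFunctionFieldFull N)) = algebraMap ℚ (LaurentSeries ℚ) :=
    Subsingleton.elim _ _
  exact congrArg (fun f => f r) this

/-- The image of `ℚ(jFull N) ⊂ FF_N` in `ℚ((q))` is contained in `ℚ(jq)`. -/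
theorem coe_mem_adjoin_jq {b : ↥(modularFunctionFieldFull N)} (hb : b ∈ ℚ⟮jFull N⟯) :
    (b : LaurentSeries ℚ) ∈ ℚ⟮jq⟯ := by
  induction hb using IntermediateField.adjoin_induction with
  | mem x hx =>
    rw [Set.mem_singleton_iff] at hx
    subst hx
    exact mem_adjoin_simple_self ℚ jq
  | algebraMap r =>
    rw [coe_algebraMap_rat]
    exact IntermediateField.algebraMap_mem _ _
  | add x y _ _ hx hy => exact add_mem hx hy
  | inv x _ hx => exact inv_mem hx
  | mul x y _ _ hx hy => exact mul_mem hx hy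

/-- Every element of `ℚ(jq)` comes from `ℚ(jFull N) ⊂ FF_N`. -/
theorem exists_of_mem_adjoin_jq {x : LaurentSeries ℚ} (hx : x ∈ ℚ⟮jq⟯) :
    ∃ b : ↥(modularFunctionFieldFull N), b ∈ ℚ⟮jFull N⟯ ∧ (b : LaurentSeries ℚ) = x := by
  induction hx using IntermediateField.adjoin_induction with
  | mem x hx =>
    rw [Set.mem_singleton_iff] at hx
    subst hx
    exact ⟨jFull N, mem_adjoin_simple_self ℚ _, rfl⟩
  | algebraMap r =>
    exact ⟨algebraMap ℚ _ r, IntermediateField.algebraMap_mem _ _, coe_algebraMap_rat N r⟩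
  | add x y _ _ hx hy =>
    obtain ⟨a, ha, rfl⟩ := hx
    obtain ⟨b, hb, rfl⟩ := hy
    exact ⟨a + b, add_mem ha hb, rfl⟩
  | inv x _ hx =>
    obtain ⟨a, ha, rfl⟩ := hx
    exact ⟨a⁻¹, inv_mem ha, rfl⟩
  | mul x y _ _ hx hy =>
    obtain ⟨a, ha, rfl⟩ := hx
    obtain ⟨b, hb, rfl⟩ := hy
    exact ⟨a * b, mul_mem ha hb, rfl⟩

/-- Transport of linear independence from `ℚ(jFull N) ⊂ FF_N` to `ℚ(jq) ⊂ ℚ((q))`. -/
theorem linearIndependent_coe {I : Type*} (w : I → ↥(modularFunctionFieldFull N))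
    (hw : LinearIndependent ℚ⟮jFull N⟯ w) :
    LinearIndependent ℚ⟮jq⟯ (fun i => ((w i : ↥(modularFunctionFieldFull N)) : LaurentSeries ℚ)) := by
  refine hw.map_of_surjective_injective
    (fun b => (⟨((b : ↥(modularFunctionFieldFull N)) : LaurentSeries ℚ),
      coe_mem_adjoin_jq N b.2⟩ : ℚ⟮jq⟯))
    (modularFunctionFieldFull N).toSubfield.subtype.toAddMonoidHom ?_ ?_ ?_
  · rintro ⟨a, ha⟩
    obtain ⟨b, hb, rfl⟩ := exists_of_mem_adjoin_jq N ha
    exact ⟨⟨b, hb⟩, rfl⟩
  · intro m hm
    exact Subtype.ext hm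
  · intro r m
    rfl

/-- **(DEG), rank form**: `rank_{ℚ(j)} FF_N ≤ ψ(N)`. -/
theorem rank_le_psi' :
    Module.rank ℚ⟮jFull N⟯ ↥(modularFunctionFieldFull N) ≤ (dedekindPsi N : Cardinal) := by
  refine rank_le fun s hs => ?_
  have := card_le_psi N (fun i : s => (((i : ↥(modularFunctionFieldFull N))) : LaurentSeries ℚ))
    (fun i => (i : ↥(modularFunctionFieldFull N)).2) (linearIndependent_coe N _ hs)
  simpa using this

/-- `FF_N` is finite over `ℚ(j)`. -/
theorem finiteDimensional_jFull' :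
    FiniteDimensional ℚ⟮jFull N⟯ ↥(modularFunctionFieldFull N) := by
  rw [FiniteDimensional, ← Module.rank_lt_aleph0_iff]
  exact lt_of_le_of_lt (rank_le_psi' N) (Cardinal.natCast_lt_aleph0)

/-- **(DEG)**: `[FF_N : ℚ(j)] ≤ ψ(N)`. -/
theorem finrank_le_psi' :
    Module.finrank ℚ⟮jFull N⟯ ↥(modularFunctionFieldFull N) ≤ dedekindPsi N := by
  have := finiteDimensional_jFull' N
  have h := rank_le_psi' N
  rw [← Module.finrank_eq_rank] at h
  exact_mod_cast h

end AnyAlgebra

open ModularCurve.IgusaScheme in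
/-- `FF_N` is finite over `ℚ(j)` (default `ℚ`-algebra instance on `FF_N`). -/
theorem finiteDimensional_jFull :
    FiniteDimensional ℚ⟮jFull N⟯ ↥(modularFunctionFieldFull N) :=
  finiteDimensional_jFull' N

open ModularCurve.IgusaScheme in
/-- **(DEG)**: `[FF_N : ℚ(j)] ≤ ψ(N)` (default `ℚ`-algebra instance on `FF_N`). -/
theorem finrank_le_psi :
    Module.finrank ℚ⟮jFull N⟯ ↥(modularFunctionFieldFull N) ≤ dedekindPsi N :=
  finrank_le_psi' N

end Level

end Fermat.Agent.IG.AN.DegLe23
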