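/-
Program G (S28), chapter IG/AN — helper23.
Bridge: (DEG) in the literal shape `ValInterface8.DegLe N` consumed by chapter IG/VAL.
-/
import Fermat.Agent.IG.AN.DegLe23
import Fermat.Agent.IG.VAL.ValInterface8

set_option autoImplicit false

namespace Fermat.Agent.IG.AN.DegLeVal23

open Fermat.Agent.IG.VAL

/-- **(DEG)** in the shape of the VAL interface, unconditional, for every level `N`. -/
theorem degLe (N : ℕ) [NeZero N] : ValInterface8.DegLe N := fun n c hc hli => by
  simpa using DegLe23.card_le_psi N c hc hli

/-- The form in which `ValInterface8.ValMain` consumes it. -/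
theorem degLe_all (N : ℕ) : ∀ M : ℕ, M ∣ N → ∀ _ : NeZero M, ValInterface8.DegLe M :=
  fun M _ _ => degLe M

end Fermat.Agent.IG.AN.DegLeVal23
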