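import Mathlib
import Fermat.Prelude.Def_ModularCurve_JqCoeff
import Fermat.Prelude.Def_ModularCurve_X0ModL
import Fermat.Agent.X0.JQExp
import Fermat.Agent.X0.Ramanujan
import Fermat.Agent.X0.JOrder
import Fermat.Agent.IG.PR.Interface20

/-!
# Program G (Igusa), chapter IG/AN, piece (P1): the formal identities for `j` (helper10)

Over every commutative ring `R`, with `x = jqModC R` (the formal `q`-expansion of `j`),
`Interface20.E4q R` (the formal `E₄`) and `Theta20.theta = q d/dq` on `LaurentSeries R`: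

* `theta_jq_sq : (theta x) ^ 2 = E4q R * x * (x - 1728)`;
* `p1 : Interface20.P1` (the case `R = ℤ`, input (P1) of chapter IG/PR).

The identity is proved analytically (`D j = -E₄² E₆ / Δ` and `1728 Δ = E₄³ - E₆²`, from
`X0/JOrder`), transferred to Taylor series on the unit disc, descended to `ℤ⟦X⟧` and mapped to `R`.
-/

set_option autoImplicit false

open UpperHalfPlane hiding I
open Real Complex Filter Function
open scoped Manifold MatrixGroups ModularForm Topology

namespace Fermat.Agent.IG.AN.FormalJ10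

open Derivative EisensteinSeries ModularForm Fermat.Agent.X0 Fermat.Agent.X0.Ramanujan
  Fermat.Agent.X0.JOrder Fermat.Agent.X0.JQExp

noncomputable section

local notation "𝕢" => Periodic.qParam
local notation "Δ" => ModularForm.discriminant

/-! ### Part A: the analytic identity on the unit disc -/

/-- Chain rule for the normalised derivative: if `F = G ∘ q` then `D F = q * G'(q)`. -/
theorem D_eq_of_comp_qParam {F : ℍ → ℂ} {G : ℂ → ℂ} (τ : ℍ)
    (hG : DifferentiableAt ℂ G (𝕢 1 τ)) (hFG : ∀ τ' : ℍ, F τ' = G (𝕢 1 τ')) :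
    D F τ = 𝕢 1 τ * deriv G (𝕢 1 τ) := by
  have hqd : HasDerivAt (𝕢 1) (2 * π * I * 𝕢 1 (τ : ℂ)) (τ : ℂ) := by
    have h1 : HasDerivAt (fun z : ℂ => 2 * π * I * z / ((1 : ℝ) : ℂ)) (2 * π * I) (τ : ℂ) := by
      simpa using ((hasDerivAt_id (τ : ℂ)).const_mul (2 * π * I)).div_const ((1 : ℝ) : ℂ)
    have h2 := h1.cexp
    have h3 : (fun z : ℂ => cexp (2 * π * I * z / ((1 : ℝ) : ℂ))) = 𝕢 1 := by
      funext z; simp [Periodic.qParam]
    rw [h3] at h2
    have h4 : cexp (2 * π * I * (τ : ℂ) / ((1 : ℝ) : ℂ)) * (2 * π * I) =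
        2 * π * I * 𝕢 1 (τ : ℂ) := by
      rw [mul_comm]; rfl
    rw [h4] at h2
    exact h2
  have hcomp : HasDerivAt (G ∘ 𝕢 1)
      (deriv G (𝕢 1 τ) * (2 * π * I * 𝕢 1 (τ : ℂ))) (τ : ℂ) :=
    hG.hasDerivAt.comp (τ : ℂ) hqd
  have heq : (F ∘ ofComplex) =ᶠ[𝓝 (τ : ℂ)] (G ∘ 𝕢 1) := by
    filter_upwards [isOpen_upperHalfPlaneSet.mem_nhds τ.im_pos] with w hw
    simp only [Function.comp_apply]
    rw [ofComplex_apply_of_im_pos hw, hFG]
  have hderiv : deriv (F ∘ ofComplex) (τ : ℂ) =
      deriv G (𝕢 1 τ) * (2 * π * I * 𝕢 1 (τ : ℂ)) :=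
    (hcomp.congr_of_eventuallyEq heq).deriv
  have h2pi : (2 * π * I : ℂ) ≠ 0 := by
    simp [Real.pi_ne_zero, I_ne_zero]
  rw [normalizedDerivOfComplex, hderiv]
  field_simp

theorem qParam_ne_zero' (τ : ℍ) : 𝕢 1 (τ : ℂ) ≠ 0 := Function.Periodic.qParam_ne_zero _

theorem norm_qParam_lt (τ : ℍ) : ‖𝕢 1 (τ : ℂ)‖ < 1 := by simpa using norm_qParam_lt_one 1 τ

theorem differentiableAt_jDisc {q : ℂ} (hq : ‖q‖ < 1) : DifferentiableAt ℂ jDisc q :=
  differentiableOn_jDisc.differentiableAt (Metric.isOpen_ball.mem_nhds (mem_ball_zero_iff.mpr hq))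

theorem jFun_eq_jDisc_div (τ : ℍ) : jFun τ = jDisc (𝕢 1 τ) / 𝕢 1 τ := by
  have hq0 := qParam_ne_zero' τ
  rw [jDisc_qParam, jFun]
  field_simp

/-- `q J'(q) - J(q) = q * D j`, where `J = q j` on the disc. -/
theorem q_mul_deriv_jDisc_sub (τ : ℍ) :
    𝕢 1 τ * deriv jDisc (𝕢 1 τ) - jDisc (𝕢 1 τ) = 𝕢 1 τ * D jFun τ := by
  have hq0 := qParam_ne_zero' τ
  have hJ := differentiableAt_jDisc (norm_qParam_lt τ)
  have hG : DifferentiableAt ℂ (fun w : ℂ => jDisc w / w) (𝕢 1 τ) :=
    hJ.div differentiableAt_id hq0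
  have h := D_eq_of_comp_qParam (F := jFun) (G := fun w : ℂ => jDisc w / w) τ hG
    (fun τ' => jFun_eq_jDisc_div τ')
  have hd : deriv (fun w : ℂ => jDisc w / w) (𝕢 1 τ) =
      (deriv jDisc (𝕢 1 τ) * 𝕢 1 τ - jDisc (𝕢 1 τ) * 1) / (𝕢 1 τ) ^ 2 := by
    have := (hJ.hasDerivAt.div (hasDerivAt_id (𝕢 1 (τ : ℂ))) hq0).deriv
    rw [show (fun w : ℂ => jDisc w / w) = jDisc / id from rfl]
    simpa using this
  rw [h, hd]
  field_simp

/-- The analytic identity at the points `q = e^{2πiτ}` of the punctured disc. -/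
theorem disc_identity_qParam (τ : ℍ) :
    (𝕢 1 τ * deriv jDisc (𝕢 1 τ) - jDisc (𝕢 1 τ)) ^ 2 =
      e4Fun (𝕢 1 τ) * jDisc (𝕢 1 τ) * (jDisc (𝕢 1 τ) - 1728 * 𝕢 1 τ) := by
  have hΔ := discriminant_ne_zero τ
  have h := discriminant_mul τ
  rw [q_mul_deriv_jDisc_sub, D_jFun, jDisc_qParam, e4Fun_qParam]
  field_simp
  linear_combination ((𝕢 1 (τ : ℂ)) ^ 2 * E₄ τ ^ 4) * h


theorem e4Fun_zero : e4Fun 0 = 1 := by
  have h := congrArg (PowerSeries.coeff 0) tps_e4Fun
  rw [tps_coeff, PowerSeries.coeff_map, PowerSeries.coeff_zero_eq_constantCoeff_apply,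
    ModularCurve.constantCoeff_eisenstein4] at h
  simpa using h

/-- The analytic identity on the whole unit disc. -/
theorem disc_identity {q : ℂ} (hq : ‖q‖ < 1) :
    (q * deriv jDisc q - jDisc q) ^ 2 = e4Fun q * jDisc q * (jDisc q - 1728 * q) := by
  rcases eq_or_ne q 0 with rfl | hq0
  · rw [jDisc_zero, e4Fun_zero]; ring
  · have hτ : 0 < (Periodic.invQParam 1 q).im :=
      Periodic.im_invQParam_pos_of_norm_lt_one one_pos hq hq0
    have hqq : 𝕢 1 (Periodic.invQParam 1 q) = q := Periodic.qParam_right_inv one_ne_zero hq0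
    have h := disc_identity_qParam ⟨Periodic.invQParam 1 q, hτ⟩
    simpa only [UpperHalfPlane.coe_mk, hqq] using h

/-! ### Part B: Taylor series -/

/-- The formal operator `X d/dX` on power series. -/
def psTheta {R : Type*} [CommRing R] (P : PowerSeries R) : PowerSeries R :=
  PowerSeries.mk fun n => (n : R) * PowerSeries.coeff n P

@[simp]
theorem coeff_psTheta {R : Type*} [CommRing R] (P : PowerSeries R) (n : ℕ) :
    PowerSeries.coeff n (psTheta P) = (n : R) * PowerSeries.coeff n P := by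
  simp [psTheta]

theorem psTheta_map {R S : Type*} [CommRing R] [CommRing S] (f : R →+* S) (P : PowerSeries R) :
    psTheta (P.map f) = (psTheta P).map f := by
  ext n
  simp

theorem tps_id : tps (fun q : ℂ => q) = PowerSeries.X := by
  simpa using tps_monomial 1

theorem tps_q_mul_deriv {f : ℂ → ℂ} (hf : AnalyticAt ℂ f 0) :
    tps (fun q => q * deriv f q) = psTheta (tps f) := by
  have hid : AnalyticAt ℂ (fun q : ℂ => q) 0 := analyticAt_id
  have h1 : tps ((fun q : ℂ => q) * deriv f) = tps (fun q : ℂ => q) * tps (deriv f) :=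
    tps_mul hid hf.deriv
  have h2 : (fun q => q * deriv f q) = (fun q : ℂ => q) * deriv f := rfl
  rw [h2, h1, tps_id]
  ext n
  rw [coeff_psTheta]
  rcases n with _ | m
  · simp
  · rw [PowerSeries.coeff_succ_X_mul, tps_coeff, tps_coeff, ← iteratedDeriv_succ',
      Nat.factorial_succ]
    have hm : ((Nat.factorial m : ℕ) : ℂ) ≠ 0 := by exact_mod_cast Nat.factorial_ne_zero m
    have hm1 : ((m + 1 : ℕ) : ℂ) ≠ 0 := by exact_mod_cast Nat.succ_ne_zero m
    push_cast
    field_simp

theorem analyticAt_jDisc_zero : AnalyticAt ℂ jDisc 0 :=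
  analyticAt_of_differentiableOn_ball differentiableOn_jDisc (by simp)

theorem analyticAt_e4Fun_zero : AnalyticAt ℂ e4Fun 0 :=
  analyticAt_of_differentiableOn_ball differentiableOn_e4Fun (by simp)

/-- The formal identity over `ℂ`. -/
theorem formal_identity_complex :
    (psTheta (PowerSeries.map (Int.castRingHom ℂ) ModularCurve.jNum) -
        PowerSeries.map (Int.castRingHom ℂ) ModularCurve.jNum) ^ 2 =
      PowerSeries.map (Int.castRingHom ℂ) ModularCurve.eisenstein4 *
        PowerSeries.map (Int.castRingHom ℂ) ModularCurve.jNum *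
        (PowerSeries.map (Int.castRingHom ℂ) ModularCurve.jNum - 1728 * PowerSeries.X) := by
  have hJ := analyticAt_jDisc_zero
  have hE := analyticAt_e4Fun_zero
  have hid : AnalyticAt ℂ (fun q : ℂ => q) 0 := analyticAt_id
  have hqd : AnalyticAt ℂ (fun q => q * deriv jDisc q) 0 := hid.mul hJ.deriv
  have hfun : ((fun q => q * deriv jDisc q) - jDisc) ^ 2 =ᶠ[𝓝 0]
      e4Fun * jDisc * (jDisc - (fun _ : ℂ => (1728 : ℂ)) * (fun q : ℂ => q)) := by
    filter_upwards [Metric.ball_mem_nhds (0 : ℂ) one_pos] with q hq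
    have := disc_identity (mem_ball_zero_iff.mp hq)
    simpa using this
  have h := tps_congr hfun
  have hl : tps (((fun q => q * deriv jDisc q) - jDisc) ^ 2) =
      (psTheta (tps jDisc) - tps jDisc) ^ 2 := by
    rw [tps_pow (hqd.sub hJ), tps_sub hqd hJ, tps_q_mul_deriv hJ]
  have hr : tps (e4Fun * jDisc * (jDisc - (fun _ : ℂ => (1728 : ℂ)) * (fun q : ℂ => q))) =
      tps e4Fun * tps jDisc * (tps jDisc - 1728 * PowerSeries.X) := by
    have hc : AnalyticAt ℂ (fun _ : ℂ => (1728 : ℂ)) 0 := analyticAt_const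
    rw [tps_mul (hE.mul hJ) (hJ.sub (hc.mul hid)), tps_mul hE hJ,
      tps_sub hJ (hc.mul hid), tps_mul hc hid, tps_const, tps_id, map_ofNat]
  rw [hl, hr, tps_jDisc, tps_e4Fun] at h
  exact h

/-! ### Part C: descent to `ℤ⟦X⟧` and base change -/

theorem map_intCast_injective :
    Function.Injective (PowerSeries.map (Int.castRingHom ℂ)) := by
  intro P Q h
  ext n
  have := congrArg (PowerSeries.coeff n) h
  simpa using this

/-- The formal identity `(X J' - J)² = E₄ J (J - 1728 X)` for `J = q j ∈ ℤ⟦X⟧`. -/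
theorem formal_identity_int :
    (psTheta ModularCurve.jNum - ModularCurve.jNum) ^ 2 =
      ModularCurve.eisenstein4 * ModularCurve.jNum *
        (ModularCurve.jNum - 1728 * PowerSeries.X) := by
  apply map_intCast_injective
  have h := formal_identity_complex
  rw [psTheta_map] at h
  simpa only [map_pow, map_sub, map_mul, map_ofNat, PowerSeries.map_X] using h

/-- The formal identity over an arbitrary commutative ring. -/
theorem formal_identity (R : Type*) [CommRing R] :
    (psTheta (ModularCurve.jNum.map (Int.castRingHom R)) -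
        ModularCurve.jNum.map (Int.castRingHom R)) ^ 2 =
      ModularCurve.eisenstein4.map (Int.castRingHom R) *
        ModularCurve.jNum.map (Int.castRingHom R) *
        (ModularCurve.jNum.map (Int.castRingHom R) - 1728 * PowerSeries.X) := by
  have h := congrArg (PowerSeries.map (Int.castRingHom R)) formal_identity_int
  rw [psTheta_map]
  simpa only [map_pow, map_sub, map_mul, map_ofNat, PowerSeries.map_X] using h


/-! ### Part D: Laurent series over an arbitrary commutative ring -/

section Laurent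

open Fermat.Agent.IG.PR.Theta20 Fermat.Agent.IG.PR.Interface20

variable (R : Type*) [CommRing R]

variable {R} in
theorem coeff_single_neg_one_mul (x : LaurentSeries R) (n : ℤ) :
    (HahnSeries.single (-1 : ℤ) (1 : R) * x).coeff n = x.coeff (n + 1) := by
  have h := HahnSeries.coeff_single_mul_add (r := (1 : R)) (x := x) (a := n + 1) (b := (-1 : ℤ))
  rw [one_mul] at h
  rw [← h]
  congr 1
  ring

variable {R} in
/-- `θ (q⁻¹ P) = q⁻¹ (X P' - P)` for a power series `P`. -/
theorem theta_single_neg_one_mul (P : PowerSeries R) :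
    theta (HahnSeries.single (-1 : ℤ) (1 : R) * HahnSeries.ofPowerSeries ℤ R P) =
      HahnSeries.single (-1 : ℤ) (1 : R) * HahnSeries.ofPowerSeries ℤ R (psTheta P - P) := by
  ext n
  rw [theta_coeff, coeff_single_neg_one_mul, coeff_single_neg_one_mul]
  rcases le_or_gt 0 (n + 1) with hn | hn
  · obtain ⟨k, hk⟩ := Int.eq_ofNat_of_zero_le hn
    rw [hk, HahnSeries.ofPowerSeries_apply_coeff, HahnSeries.ofPowerSeries_apply_coeff,
      map_sub, coeff_psTheta]
    have hn' : (n : R) = (k : R) - 1 := by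
      have : n = (k : ℤ) - 1 := by omega
      rw [this]; push_cast; ring
    rw [hn']
    ring
  · rw [ModularCurve.ofPowerSeries_coeff_of_neg _ hn, ModularCurve.ofPowerSeries_coeff_of_neg _ hn,
      mul_zero]

/-- `θ j = q⁻¹ (X J' - J)` with `J = q j`. -/
theorem theta_jq :
    theta (ModularCurve.jqModC R) = HahnSeries.single (-1 : ℤ) (1 : R) *
      HahnSeries.ofPowerSeries ℤ R (psTheta (ModularCurve.jNum.map (Int.castRingHom R)) -
        ModularCurve.jNum.map (Int.castRingHom R)) := by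
  rw [ModularCurve.jqModC, theta_single_neg_one_mul]

/-- **(P1) over any commutative ring**: `(θ j)² = E₄ j (j - 1728)` in `R((q))`,
with `Theta20.theta` and `Interface20.E4q`. -/
theorem theta_jq_sq :
    theta (ModularCurve.jqModC R) ^ 2 =
      E4q R * ModularCurve.jqModC R * (ModularCurve.jqModC R - 1728) := by
  have h1 : HahnSeries.single (-1 : ℤ) (1 : R) * HahnSeries.single (1 : ℤ) (1 : R) = 1 := by
    rw [HahnSeries.single_mul_single]
    simp
  have hX : HahnSeries.ofPowerSeries ℤ R (PowerSeries.X : PowerSeries R) =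
      HahnSeries.single (1 : ℤ) (1 : R) := HahnSeries.ofPowerSeries_X
  have hsub : ModularCurve.jqModC R - 1728 = HahnSeries.single (-1 : ℤ) (1 : R) *
      HahnSeries.ofPowerSeries ℤ R
        (ModularCurve.jNum.map (Int.castRingHom R) - 1728 * PowerSeries.X) := by
    rw [map_sub, map_mul, map_ofNat, hX, mul_sub, ModularCurve.jqModC]
    congr 1
    rw [mul_left_comm, h1, mul_one]
  rw [theta_jq, mul_pow, ← map_pow (HahnSeries.ofPowerSeries ℤ R), formal_identity R, hsub,
    map_mul, map_mul, E4q, ModularCurve.jqModC]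
  ring

/-- **(P1)** in the shape of `IG/PR/Interface20`. -/
theorem p1 : P1 := theta_jq_sq ℤ

/-- The coefficient of `q⁻¹` in `θ j` is `-1` (so `θ j ≠ 0` over every nontrivial ring). -/
theorem coeff_theta_jq_neg_one : (theta (ModularCurve.jqModC R)).coeff (-1) = -1 := by
  rw [theta_coeff, ModularCurve.coeff_jqModC_neg_one]
  simp

theorem theta_jq_ne_zero [Nontrivial R] : theta (ModularCurve.jqModC R) ≠ 0 := fun h => by
  have := coeff_theta_jq_neg_one R
  rw [h] at this
  simp at this

end Laurent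

end

end Fermat.Agent.IG.AN.FormalJ10
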