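/-
Program G (S28, Igusa) / chapter IG/AN / helper3.

`ModPoly3`: (P0) the modular equation of prime level `p` over `ℤ`, in the literal shape
`Fermat.Agent.IG.PR.Interface20.P0 p`.

`Ψ_ℤ := (X - j(q^p)) * annPoly p j ∈ ℤ((q))[X]` (`SectionKit3.annPoly`: the monic degree-`p`
annihilator of `j(q)` over `ℤ((q^p))`, pulled back along `q ↦ q^p`) visibly satisfies
`Ψ_ℤ(j(q^p)) = 0` and `(V Ψ_ℤ)(j(q)) = 0`.  The analytic input (`X0.integrality` for `N = p`,
`u = j_p`, plus the identification of the two cusp expansions `T_1 j_p = j(t^{p²})`, `T_S j_p = j(t)`)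
shows that over `ℚbar` the norm polynomial `∏_x (X - T_x j_p)` is `V(Ψ_ℤ ⊗ ℚbar)` (uniqueness of the
monic degree-`p` annihilator, `SectionKit3.eq_annPoly_of_monic`), so that the coefficients of `Ψ_ℤ`
are polynomials in `j(q)`, with integer coefficients by `lor_exists_aeval_eq`.
-/
import Mathlib
import Fermat.Agent.X0.Integrality
import Fermat.Agent.X0.CuspExpand
import Fermat.Agent.X0.G1Index
import Fermat.Agent.X0.GNPsi
import Fermat.Agent.X0.RootsK
import Fermat.Agent.X0.JqExpansion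
import Fermat.Agent.IG.AN.SectionKit3
import Fermat.Agent.IG.PR.Interface20

set_option autoImplicit false

noncomputable section

namespace Fermat.Agent.IG.AN.ModPoly3

open HahnSeries Polynomial ModularCurve UpperHalfPlane
open Fermat.Agent.X0 Fermat.Agent.X0.Analytic Fermat.Agent.IG.AN.SectionKit3
open scoped MatrixGroups

variable (p : ℕ) [NeZero p]

/-! ### The two cusp expansions of `j_p` -/

/-- `j_p = j(p ·)` as an element of `R = ℚbar[j_d : d ∣ p]`. -/
def jp : Rsub p := jdR p p dvd_rfl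

theorem theta_jp : (realizeData p).Θ (jp p) = jdFun p := (realizeData p).jd_eq p dvd_rfl

/-- At the cusp `∞`: `T_1 j_p = j(t^{p²})`. -/
theorem T_one_jp :
    (cuspData p).T 1 ((jp p : Rsub p) : FF p) = qExpand Kbar p (qExpand Kbar p jqK) := by
  apply intg_T_eq_of_qn p (realizeData p) (cuspData p) 1 (jp p)
  rw [theta_jp]
  have h1 : compSL (jdFun p) 1 = jdFun p := by
    funext z
    show jdFun p ((1 : SL(2, ℤ)) • z) = jdFun p z
    rw [one_smul]
  rw [h1]
  have h2 : toC (qExpand Kbar p (qExpand Kbar p jqK)) = qExpand ℂ p (qExpand ℂ p (jqModC ℂ)) := by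
    rw [toC, Analytic.coeffMap_qExpand]
    congr 1
    exact intg_toC_jN p
  rw [h2]
  exact (hasQExp_jqModC.qExpand p).qExpand p

/-- `p · S(p z) = S z`. -/
theorem scaleH_S_smul_scaleH (z : ℍ) :
    scaleH p (ModularGroup.S • scaleH p z) = ModularGroup.S • z := by
  apply UpperHalfPlane.ext
  rw [coe_scaleH, modular_S_smul, modular_S_smul]
  show (p : ℂ) * (-((scaleH p z : ℂ)))⁻¹ = (-((z : ℂ)))⁻¹
  rw [coe_scaleH]
  have hp : (p : ℂ) ≠ 0 := by exact_mod_cast NeZero.ne p
  have hz : (z : ℂ) ≠ 0 := ne_zero z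
  field_simp

/-- At the cusp `0`: `T_S j_p = j(t)`. -/
theorem T_S_jp :
    (cuspData p).T ModularGroup.S ((jp p : Rsub p) : FF p) = jqK := by
  apply intg_T_eq_of_qn p (realizeData p) (cuspData p) ModularGroup.S (jp p)
  rw [theta_jp]
  have h1 : (fun z => compSL (jdFun p) ModularGroup.S (scaleH p z)) = jFun := by
    funext z
    show jFun (scaleH p (ModularGroup.S • scaleH p z)) = jFun z
    rw [scaleH_S_smul_scaleH, jFun_smul]
  show HasQExp (toC jqK) (fun z => compSL (jdFun p) ModularGroup.S (scaleH p z))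
  rw [h1, show toC jqK = jqModC ℂ from toC_coeffEmb_jq]
  exact hasQExp_jqModC

/-! ### The norm polynomial over `ℚbar` -/

/-- `T_γ u` only depends on the coset `Γ₀(p) γ`. -/
theorem T_mul_left (γ₀ γ : SL(2, ℤ)) (hγ₀ : γ₀ ∈ CongruenceSubgroup.Gamma0 p) (u : Rsub p) :
    (cuspData p).T (γ₀ * γ) (u : FF p) = (cuspData p).T γ (u : FF p) := by
  apply intg_T_eq_of_qn p (realizeData p) (cuspData p) (γ₀ * γ) u
  have h1 : compSL ((realizeData p).Θ u) (γ₀ * γ) = compSL ((realizeData p).Θ u) γ := by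
    funext z
    show (realizeData p).Θ u ((γ₀ * γ) • z) = (realizeData p).Θ u (γ • z)
    rw [mul_smul]
    exact congrFun ((realizeData p).invariant u γ₀ hγ₀) (γ • z)
  rw [h1]
  exact intg_T_spec p (realizeData p) (cuspData p) γ u

/-- Coset representatives. -/
def rep (x : SL(2, ℤ) ⧸ CongruenceSubgroup.Gamma0 p) : SL(2, ℤ) := Quotient.out x

omit [NeZero p] in
theorem rep_spec (x : SL(2, ℤ) ⧸ CongruenceSubgroup.Gamma0 p) :
    ((rep p x : SL(2, ℤ)) : SL(2, ℤ) ⧸ CongruenceSubgroup.Gamma0 p) = x :=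
  Quotient.out_eq' x

/-- Every `T_γ u` occurs among the `T_{(rep x)⁻¹} u`. -/
theorem exists_rep_T (γ : SL(2, ℤ)) (u : Rsub p) :
    ∃ x : SL(2, ℤ) ⧸ CongruenceSubgroup.Gamma0 p,
      (cuspData p).T (rep p x)⁻¹ (u : FF p) = (cuspData p).T γ (u : FF p) := by
  refine ⟨((γ⁻¹ : SL(2, ℤ)) : SL(2, ℤ) ⧸ CongruenceSubgroup.Gamma0 p), ?_⟩
  set r := rep p ((γ⁻¹ : SL(2, ℤ)) : SL(2, ℤ) ⧸ CongruenceSubgroup.Gamma0 p) with hr
  have hmem : r⁻¹ * γ⁻¹ ∈ CongruenceSubgroup.Gamma0 p :=
    QuotientGroup.eq.mp (rep_spec p _)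
  have h : r⁻¹ = (r⁻¹ * γ⁻¹) * γ := by group
  rw [h]
  exact T_mul_left p _ γ hmem u

/-! ### Basic facts on the formal `j` -/

theorem order_jqModC (k : Type*) [Field k] : (jqModC k).order = -1 := by
  have hne : jqModC k ≠ 0 := jqModC_ne_zero_of_nontrivial k
  apply le_antisymm
  · exact order_le_of_coeff_ne_zero (by rw [coeff_jqModC_neg_one]; exact one_ne_zero)
  · by_contra hlt
    rw [not_le] at hlt
    exact (coeff_order_eq_zero.not.2 hne) (coeff_jqModC_of_lt k hlt)

theorem jqModC_int_eq_laurentOf :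
    jqModC ℤ = laurentOf 1 (jNum.map (Int.castRingHom ℤ)) := by
  rw [jqModC, laurentOf]
  norm_num

theorem coeffMap_intCast_jqModC : coeffMap (Int.castRingHom Kbar) (jqModC ℤ) = jqK := by
  rw [coeffMap_jqModC, jqK_eq_jqModC]

/-- `j(q) ≠ j(q^(p²))` for `p ≥ 2`. -/
theorem jqK_ne (hp : 2 ≤ p) : jqK ≠ qExpand Kbar p (qExpand Kbar p jqK) := by
  intro h
  have h1 : jqK.coeff (-1) = 1 := by rw [jqK_eq_jqModC]; exact coeff_jqModC_neg_one Kbar
  rw [h, qExpand_coeff_of_not_dvd] at h1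
  · exact zero_ne_one h1
  · intro hd
    have h2 : (p : ℤ) ∣ 1 := by simpa using hd
    have h3 : (p : ℤ) ≤ 1 := Int.le_of_dvd one_pos h2
    omega

/-! ### The integral polynomial -/

/-- `Ψ_ℤ = (X - j(q^p)) * annPoly p j ∈ ℤ((q))[X]`. -/
def PsiZ : (LaurentSeries ℤ)[X] :=
  (X - Polynomial.C (qExpand ℤ p (jqModC ℤ))) * annPoly p (jqModC ℤ)

theorem PsiZ_monic : (PsiZ p).Monic :=
  (monic_X_sub_C _).mul (annPoly_monic p _)

theorem PsiZ_natDegree : (PsiZ p).natDegree = p + 1 := by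
  rw [PsiZ, (monic_X_sub_C _).natDegree_mul (annPoly_monic p _), natDegree_X_sub_C,
    annPoly_natDegree, add_comm]

theorem PsiZ_eval : (PsiZ p).eval (qExpand ℤ p (jqModC ℤ)) = 0 := by
  rw [PsiZ, eval_mul, eval_sub, eval_X, eval_C, sub_self, zero_mul]

theorem PsiZ_map_eval : ((PsiZ p).map (qExpand ℤ p)).eval (jqModC ℤ) = 0 := by
  rw [PsiZ, Polynomial.map_mul, eval_mul, eval_map_annPoly, mul_zero]

/-! ### The analytic norm polynomial and the comparison -/

section Compare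

variable (hp : p.Prime)

/-- The base change of `Ψ_ℤ` to `ℚbar`. -/
theorem PsiZ_map_coeffMap :
    (PsiZ p).map (coeffMap (Int.castRingHom Kbar)) =
      (X - Polynomial.C (qExpand Kbar p jqK)) * annPoly p jqK := by
  rw [PsiZ, Polynomial.map_mul, Polynomial.map_sub, map_X, Polynomial.map_C, map_annPoly,
    Analytic.coeffMap_qExpand, coeffMap_intCast_jqModC]

include hp in
/-- **Key comparison**: every coefficient of `Ψ_ℤ ⊗ ℚbar` is a polynomial in `j` over `ℚbar`. -/
theorem exists_aeval_eq_coeff (k : ℕ) :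
    ∃ P : Kbar[X], aeval jqK P = coeffMap (Int.castRingHom Kbar) ((PsiZ p).coeff k) := by
  classical
  let _ : Fintype (SL(2, ℤ) ⧸ CongruenceSubgroup.Gamma0 p) := Fintype.ofFinite _
  set V : LaurentSeries Kbar →+* LaurentSeries Kbar := qExpand Kbar p with hV
  have hVinj : Function.Injective V := qExpand_injective p
  -- the analytic norm polynomial
  set Ψ : (LaurentSeries Kbar)[X] :=
    ∏ x : SL(2, ℤ) ⧸ CongruenceSubgroup.Gamma0 p,
      (X - Polynomial.C ((cuspData p).T (rep p x)⁻¹ ((jp p : Rsub p) : FF p))) with hΨ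
  have hΨmonic : Ψ.Monic := monic_prod_of_monic _ _ fun x _ => monic_X_sub_C _
  have hcard : Fintype.card (SL(2, ℤ) ⧸ CongruenceSubgroup.Gamma0 p) = p + 1 := by
    rw [← Nat.card_eq_fintype_card, G1Index.g1_card]
    have := GNPsi.gnp_dedekindPsi_prime_pow hp 0
    simpa using this
  have hΨdeg : Ψ.natDegree = p + 1 := by
    rw [hΨ, natDegree_prod_of_monic _ _ fun x _ => monic_X_sub_C _]
    simp only [natDegree_X_sub_C, Finset.sum_const, Finset.card_univ, smul_eq_mul, mul_one]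
    exact hcard
  -- its coefficients are polynomials in `j(t^p)`
  have hcoef : ∀ n : ℕ, ∃ P : Kbar[X], Ψ.coeff n = V (aeval jqK P) := by
    intro n
    obtain ⟨P, hP, -⟩ := integrality p (realizeData p) (cuspData p) (rep p) (rep_spec p) (jp p) n
    refine ⟨P, ?_⟩
    rw [hΨ, hP, intg_T_aeval_jF]
    exact (Polynomial.aeval_algHom_apply (qExpandAlgHomC Kbar p) jqK P)
  -- the two known roots
  have hroot : ∀ γ : SL(2, ℤ), Ψ.eval ((cuspData p).T γ ((jp p : Rsub p) : FF p)) = 0 := by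
    intro γ
    obtain ⟨x, hx⟩ := exists_rep_T p γ (jp p)
    rw [hΨ, eval_prod]
    refine Finset.prod_eq_zero (Finset.mem_univ x) ?_
    rw [eval_sub, eval_X, eval_C, hx, sub_self]
  -- descend along `V`
  have hl : Ψ ∈ Polynomial.lifts V := by
    rw [Polynomial.lifts_iff_coeff_lifts]
    intro n
    obtain ⟨P, hP⟩ := hcoef n
    exact ⟨aeval jqK P, hP.symm⟩
  obtain ⟨Ψ₀, hmap, hdeg, hmonic⟩ := Polynomial.lifts_and_natDegree_eq_and_monic hl hΨmonic
  -- `Ψ₀` has the root `V j`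
  have h1 : Ψ₀.eval (V jqK) = 0 := by
    apply hVinj
    rw [map_zero, ← Polynomial.eval₂_at_apply, ← Polynomial.eval_map, hmap]
    have := hroot 1
    rwa [T_one_jp] at this
  have hfac : (X - Polynomial.C (V jqK)) * (Ψ₀ /ₘ (X - Polynomial.C (V jqK))) = Ψ₀ :=
    mul_divByMonic_eq_iff_isRoot.2 h1
  set G₁ := Ψ₀ /ₘ (X - Polynomial.C (V jqK)) with hG₁
  have hG₁monic : G₁.Monic := by
    have : ((X - Polynomial.C (V jqK)) * G₁).Monic := by rw [hfac]; exact hmonic
    exact (monic_X_sub_C _).of_mul_monic_left this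
  have hG₁deg : G₁.natDegree = p := by
    have h2 := (monic_X_sub_C (V jqK)).natDegree_mul hG₁monic
    rw [hfac, hdeg, hΨdeg, natDegree_X_sub_C] at h2
    omega
  -- `V G₁` kills `j`
  have h3 : (G₁.map V).eval jqK = 0 := by
    have h4 : (Ψ₀.map V).eval jqK = 0 := by
      rw [hmap]
      have := hroot ModularGroup.S
      rwa [T_S_jp] at this
    rw [← hfac, Polynomial.map_mul, eval_mul, Polynomial.map_sub, map_X, Polynomial.map_C, eval_sub, eval_X,
      eval_C] at h4
    rcases mul_eq_zero.1 h4 with h5 | h5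
    · exact absurd (sub_eq_zero.1 h5) (jqK_ne p hp.two_le)
    · exact h5
  -- uniqueness
  have hjord : jqK.order = -1 := by rw [jqK_eq_jqModC]; exact order_jqModC Kbar
  have h6 : G₁ = annPoly p jqK := eq_annPoly_of_monic p hjord G₁ hG₁monic hG₁deg h3
  have h7 : Ψ₀ = (PsiZ p).map (coeffMap (Int.castRingHom Kbar)) := by
    rw [PsiZ_map_coeffMap, ← h6, hfac]
  -- conclusion
  obtain ⟨P, hP⟩ := hcoef k
  refine ⟨P, ?_⟩
  apply hVinj
  rw [← hP, ← hmap, coeff_map, h7, coeff_map]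

include hp in
/-- Every coefficient of `Ψ_ℤ` is an integral polynomial in `j`. -/
theorem exists_int_aeval_eq_coeff (k : ℕ) :
    ∃ P : ℤ[X], (PsiZ p).coeff k = Fermat.Agent.IG.PR.Interface20.evalAt ℤ (jqModC ℤ) P := by
  obtain ⟨P, hP⟩ := exists_aeval_eq_coeff p hp k
  have hinj : Function.Injective (Int.castRingHom Kbar) := Int.cast_injective
  have hU0 : PowerSeries.constantCoeff (jNum.map (Int.castRingHom ℤ)) = 1 := by
    rw [← PowerSeries.coeff_zero_eq_constantCoeff_apply, PowerSeries.coeff_map,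
      PowerSeries.coeff_zero_eq_constantCoeff_apply, constantCoeff_jNum, map_one]
  have h : aeval (coeffMap (Int.castRingHom Kbar) (laurentOf 1 (jNum.map (Int.castRingHom ℤ)))) P
      = coeffMap (Int.castRingHom Kbar) ((PsiZ p).coeff k) := by
    rw [← jqModC_int_eq_laurentOf, coeffMap_intCast_jqModC]
    exact hP
  obtain ⟨P', -, hP'⟩ := lor_exists_aeval_eq (Int.castRingHom Kbar) hinj 1 one_pos
    (jNum.map (Int.castRingHom ℤ)) hU0 P ((PsiZ p).coeff k) h
  refine ⟨P', ?_⟩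
  rw [hP', ← jqModC_int_eq_laurentOf, Fermat.Agent.IG.PR.Interface20.evalAt, aeval_def,
    Polynomial.coe_eval₂RingHom]
  congr 1
  exact RingHom.ext_int _ _

include hp in
/-- **(P0)**: the modular equation of prime level `p` over `ℤ`, both vanishing identities. -/
theorem p0 : Fermat.Agent.IG.PR.Interface20.P0 p := by
  have hl : PsiZ p ∈ Polynomial.lifts (Fermat.Agent.IG.PR.Interface20.evalAt ℤ (jqModC ℤ)) := by
    rw [Polynomial.lifts_iff_coeff_lifts]
    intro n
    obtain ⟨P, hP⟩ := exists_int_aeval_eq_coeff p hp n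
    exact ⟨P, hP.symm⟩
  obtain ⟨Φ, hmap, hdeg, hmonic⟩ :=
    Polynomial.lifts_and_natDegree_eq_and_monic hl (PsiZ_monic p)
  refine ⟨Φ, hmonic, by rw [hdeg, PsiZ_natDegree], ?_, ?_⟩
  · rw [← Polynomial.eval_map, hmap]
    exact PsiZ_eval p
  · have hcomp : Fermat.Agent.IG.PR.Interface20.evalAt ℤ (qExpand ℤ p (jqModC ℤ)) =
        (qExpand ℤ p).comp (Fermat.Agent.IG.PR.Interface20.evalAt ℤ (jqModC ℤ)) := by
      apply Polynomial.ringHom_ext
      · intro a
        simp [Fermat.Agent.IG.PR.Interface20.evalAt]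
      · simp [Fermat.Agent.IG.PR.Interface20.evalAt]
    rw [hcomp, ← Polynomial.eval_map, ← Polynomial.map_map, hmap]
    exact PsiZ_map_eval p

end Compare

end Fermat.Agent.IG.AN.ModPoly3
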