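/-
Program G (S28, Igusa), chapter IG/AN, helper11.

`DeltaAffineBridge11`: the expansions of `DeltaAffine11` restated for the functions of
`DeltaQuot19` (`deltaAff` is definitionally `DeltaAffine11.dAff`), including the expansions of
`deltaQuot p` itself and of `compSL (deltaQuot p) S`.
-/
import Mathlib
import Fermat.Agent.IG.AN.DeltaAffine11
import Fermat.Agent.IG.AN.DeltaQuot19

set_option autoImplicit false

noncomputable section

namespace Fermat.Agent.IG.AN.DeltaAffineBridge11

open Fermat.Agent.X0 Fermat.Agent.X0.Analytic Fermat.Agent.X0.Hermite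
open UpperHalfPlane ModularCurve
open Fermat.Agent.IG.PR.Interface20 Fermat.Agent.IG.AN.DeltaAffine11 Fermat.Agent.IG.AN.DeltaQuot19

theorem deltaAff_eq_dAff (a e : ℕ) (b : ℤ) (ha : 0 < a) (he : 0 < e) :
    deltaAff a e b ha he = dAff a e b ha he := rfl

variable (p : ℕ) [NeZero p]

/-- (A2) for `DeltaQuot19.deltaAff`. -/
theorem exists_expansion_deltaAff (a e : ℕ) (b : ℤ) (ha : 0 < a) (he : 0 < e) (hae : a * e = p) :
    ∃ T : LaurentSeries Kbar, IntgQN p (deltaAff a e b ha he) (toC T) ∧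
      ∀ n, T.coeff n ∈ Subring.closure {zetaK p} :=
  exists_expansion p a e b ha he hae

/-- (A3)/(iii): the expansion of `deltaQuot p = Δ(p z)/Δ(z)`. -/
theorem expansion_one :
    IntgQN p (deltaQuot p)
      (toC (qExpand Kbar p (coeffMap (Int.castRingHom Kbar) (uq ℤ p)))) := by
  rw [deltaQuot_eq_deltaAff]
  exact expansion_top p

/-- (A4) for `DeltaQuot19.deltaAff`. -/
theorem expansion_bot_deltaAff :
    IntgQN p (deltaAff 1 p 0 one_pos (Nat.pos_of_ne_zero (NeZero.ne p)))
      (toC (coeffMap (Int.castRingHom Kbar) (deltaq ℤ * qExpand ℤ p (deltaqInv ℤ)))) :=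
  expansion_bot p

/-- (iv): the expansion of `compSL (deltaQuot p) S = p^(-12) Δ(z/p)/Δ(z)`. -/
theorem expansion_S :
    IntgQN p (compSL (deltaQuot p) ModularGroup.S)
      (toC (HahnSeries.C (((p : Kbar)⁻¹) ^ 12) *
        coeffMap (Int.castRingHom Kbar) (deltaq ℤ * qExpand ℤ p (deltaqInv ℤ)))) := by
  rw [compSL_deltaQuot_S, map_mul]
  have hc : toC (HahnSeries.C (((p : Kbar)⁻¹) ^ 12)) = HahnSeries.C (((p : ℂ)⁻¹) ^ 12) := by
    ext n
    rw [toC_coeff, HahnSeries.C_apply, HahnSeries.C_apply, HahnSeries.coeff_single,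
      HahnSeries.coeff_single]
    split_ifs
    · simp
    · simp
  rw [hc]
  exact intg_qn_mul p (intg_qn_const p _) (expansion_bot_deltaAff p)

theorem toC_C (c : Kbar) : toC (HahnSeries.C c) = HahnSeries.C (iotaK c) := by
  ext n
  rw [toC_coeff, HahnSeries.C_apply, HahnSeries.C_apply, HahnSeries.coeff_single,
    HahnSeries.coeff_single]
  split_ifs
  · rfl
  · exact map_zero _

/-- (ii): every `SL(2,ℤ)`-conjugate of `deltaQuot p` has a `q_p`-expansion with coefficients in
`ℤ[ζ_p, 1/p]`. -/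
theorem exists_expansion_compSL (γ : Matrix.SpecialLinearGroup (Fin 2) ℤ) :
    ∃ T : LaurentSeries Kbar, IntgQN p (compSL (deltaQuot p) γ) (toC T) ∧
      ∀ n, T.coeff n ∈ Subring.closure {zetaK p, (p : Kbar)⁻¹} := by
  obtain ⟨a, e, b, ha, he, hae, -, -, hfun⟩ := compSL_deltaQuot p γ
  obtain ⟨T, hT, hTS⟩ := exists_expansion_deltaAff p a e b ha he hae
  refine ⟨HahnSeries.C (((e : Kbar)⁻¹) ^ 12) * T, ?_, fun n => ?_⟩
  · rw [hfun, map_mul, toC_C, map_pow, map_inv₀, map_natCast]
    exact intg_qn_mul p (intg_qn_const p _) hT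
  · rw [HahnSeries.C_mul_eq_smul, HahnSeries.coeff_smul, smul_eq_mul]
    have hle : Subring.closure {zetaK p} ≤ Subring.closure {zetaK p, (p : Kbar)⁻¹} :=
      Subring.closure_mono (by
        intro x hx
        rw [Set.mem_singleton_iff] at hx
        rw [hx]
        exact Set.mem_insert _ _)
    have hpinv : ((p : Kbar)⁻¹) ∈ Subring.closure {zetaK p, (p : Kbar)⁻¹} :=
      Subring.subset_closure (Set.mem_insert_of_mem _ rfl)
    have heinv : ((e : Kbar)⁻¹) ∈ Subring.closure {zetaK p, (p : Kbar)⁻¹} := by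
      have hp0 : (p : Kbar) ≠ 0 := by exact_mod_cast NeZero.ne p
      have he0 : (e : Kbar) ≠ 0 := by exact_mod_cast he.ne'
      have h : ((e : Kbar)⁻¹) = (a : Kbar) * (p : Kbar)⁻¹ := by
        have hcast : (a : Kbar) * (e : Kbar) = (p : Kbar) := by exact_mod_cast congrArg (Nat.cast : ℕ → Kbar) hae
        field_simp
        rw [← hcast]
        ring
      rw [h]
      exact Subring.mul_mem _ (natCast_mem _ a) hpinv
    exact Subring.mul_mem _ (Subring.pow_mem _ heinv 12) (hle (hTS n))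

end Fermat.Agent.IG.AN.DeltaAffineBridge11
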