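/-
IG/AN/P2Alg9 (helper9): the ALGEBRA half of (P2) of chapter IG/AN.

INPUT (to be supplied by `IG/AN/DeltaQuot19`): a finite family `g x` of holomorphic functions on the
upper half plane, permuted by `SL(2,ℤ)`, with `q_p`-expansions `T x` over `ℚbar` whose coefficients
lie in a subring `S ⊆ ℚbar` every element of which becomes integral over `ℤ` after multiplication by
a power of `p` (e.g. `S = ℤ[ζ_p, 1/p]`), one member of the family having the expansion of
`u = Δ(q^p)/Δ(q)`.

OUTPUT: `Interface20.P2 p` (verbatim): `u` is a root of some `P ∈ ℤ[Y][X]` (`Y := j(q)`) whose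
leading coefficient is the constant `p^m`.

Route: `X0.intg_core` (coefficients of `∏ (X - T x)` are polynomials `c_k` over `ℚbar` in
`j(q_p^p)`) + `X0.lor_coeff_mem_of_aeval_mem` (`c_k ∈ S[Y]`) + transitivity of integrality over
`ℤ[1/p][j]` + clearing denominators + descent `ℚbar((q)) → ℤ((q))` by injectivity of `coeffMap`.
-/
import Mathlib
import Fermat.Agent.X0.Integrality
import Fermat.Agent.X0.JqExpansion
import Fermat.Agent.X0.RootsK
import Fermat.Agent.X0.QExpRing
import Fermat.Agent.IG.PR.Interface20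

set_option autoImplicit false

noncomputable section

open Polynomial ModularCurve UpperHalfPlane
open scoped MatrixGroups

namespace Fermat.Agent.IG.AN.P2Alg9

open Fermat.Agent.X0 Fermat.Agent.X0.Analytic Fermat.Agent.IG.PR

/-! ### Generic algebra: integrality over `ψ(ℤ[Y])[1/p]` and clearing denominators -/

section Generic

variable {L : Type*} [Field L] (p : ℕ) (ψ : ℤ[X] →+* L)

/-- The subring `ψ(ℤ[Y])[1/p]` of `L`. -/
def denomSubring : Subring L where
  carrier := {r | ∃ (m : ℕ) (a : ℤ[X]), (p : L) ^ m * r = ψ a}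
  mul_mem' := by
    rintro r s ⟨m, a, ha⟩ ⟨n, b, hb⟩
    refine ⟨m + n, a * b, ?_⟩
    rw [map_mul, ← ha, ← hb, pow_add]; ring
  one_mem' := ⟨0, 1, by simp⟩
  add_mem' := by
    rintro r s ⟨m, a, ha⟩ ⟨n, b, hb⟩
    refine ⟨m + n, C ((p : ℤ) ^ n) * a + C ((p : ℤ) ^ m) * b, ?_⟩
    have hC : ∀ k : ℕ, ψ (C ((p : ℤ) ^ k)) = (p : L) ^ k := by
      intro k
      rw [← Int.cast_natCast (R := ℤ) p, ← Int.cast_pow]
      simp
    rw [map_add, map_mul, map_mul, ← ha, ← hb, hC, hC, pow_add]; ring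
  zero_mem' := ⟨0, 0, by simp⟩
  neg_mem' := by
    rintro r ⟨m, a, ha⟩
    exact ⟨m, -a, by rw [map_neg, ← ha]; ring⟩

theorem psi_C_pow (k : ℕ) : ψ (C ((p : ℤ) ^ k)) = (p : L) ^ k := by
  rw [← Int.cast_natCast (R := ℤ) p, ← Int.cast_pow]
  simp

theorem psi_mem_denomSubring (a : ℤ[X]) : ψ a ∈ denomSubring p ψ :=
  ⟨0, a, by simp⟩

theorem inv_mem_denomSubring (hp : (p : L) ≠ 0) : ((p : L))⁻¹ ∈ denomSubring p ψ :=
  ⟨1, 1, by rw [pow_one, mul_inv_cancel₀ hp, map_one]⟩

theorem isIntegral_denom_of_mem {x : L} (hx : x ∈ denomSubring p ψ) :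
    IsIntegral (denomSubring p ψ) x :=
  isIntegral_algebraMap (R := denomSubring p ψ) (A := L) (x := ⟨x, hx⟩)

theorem isIntegral_denom_of_int {x : L} (hx : IsIntegral ℤ x) :
    IsIntegral (denomSubring p ψ) x := by
  obtain ⟨f, hfm, hf⟩ := hx
  refine ⟨f.map (Int.castRingHom _), hfm.map _, ?_⟩
  rw [eval₂_map]
  have : (algebraMap (denomSubring p ψ) L).comp (Int.castRingHom _) = algebraMap ℤ L :=
    RingHom.ext_int _ _
  rw [this]
  exact hf

/-- If `p^m * x` is integral over `ℤ` then `x` is integral over `ψ(ℤ[Y])[1/p]`. -/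
theorem isIntegral_denom_of_pow_mul (hp : (p : L) ≠ 0) {x : L} {m : ℕ}
    (hx : IsIntegral ℤ ((p : L) ^ m * x)) : IsIntegral (denomSubring p ψ) x := by
  have h1 := isIntegral_denom_of_int p ψ hx
  have h2 : IsIntegral (denomSubring p ψ) (((p : L))⁻¹ ^ m) :=
    (isIntegral_denom_of_mem p ψ (inv_mem_denomSubring p ψ hp)).pow m
  have h3 := h2.mul h1
  have : ((p : L))⁻¹ ^ m * ((p : L) ^ m * x) = x := by
    rw [← mul_assoc, ← mul_pow, inv_mul_cancel₀ hp, one_pow, one_mul]
  rwa [this] at h3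

/-- Transitivity: a root of a monic polynomial with coefficients integral over `A` is integral
over `A`. -/
theorem isIntegral_of_monic_root {A : Type*} [CommRing A] [Algebra A L] (Q : L[X]) (hQ : Q.Monic)
    (hcoef : ∀ k, IsIntegral A (Q.coeff k)) (w : L) (hw : Q.eval w = 0) : IsIntegral A w := by
  have hl : Q ∈ Polynomial.lifts (algebraMap (integralClosure A L) L) := by
    rw [Polynomial.lifts_iff_coeff_lifts]
    intro k
    exact ⟨⟨Q.coeff k, hcoef k⟩, rfl⟩
  obtain ⟨q, hq, -, hqm⟩ := Polynomial.lifts_and_natDegree_eq_and_monic hl hQ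
  have hint : IsIntegral (integralClosure A L) w := by
    refine ⟨q, hqm, ?_⟩
    rw [← Polynomial.eval_map, hq, hw]
  exact isIntegral_trans (R := A) (A := integralClosure A L) w hint

/-- Clearing denominators: an element integral over `ψ(ℤ[Y])[1/p]` is a root (through `ψ`) of a
polynomial in `ℤ[Y][X]` with leading coefficient the constant `p^m`. -/
theorem exists_clear_denoms [NeZero p] (w : L) (hw : IsIntegral (denomSubring p ψ) w) :
    ∃ (m : ℕ) (P : ℤ[X][X]), P.leadingCoeff = C ((p : ℤ) ^ m) ∧ P.eval₂ ψ w = 0 := by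
  obtain ⟨G, hGm, hG⟩ := hw
  -- denominators of the coefficients
  have hmem : ∀ i : ℕ, ∃ (m : ℕ) (a : ℤ[X]), (p : L) ^ m * (G.coeff i : L) = ψ a :=
    fun i => (G.coeff i).2
  choose mi ai hai using hmem
  set n := G.natDegree with hn
  set M : ℕ := ∑ i ∈ Finset.range n, mi i with hM
  have hle : ∀ i ∈ Finset.range n, mi i ≤ M := fun i hi =>
    Finset.single_le_sum (f := mi) (fun _ _ => Nat.zero_le _) hi
  let b : Fin n → ℤ[X] := fun i => C ((p : ℤ) ^ (M - mi i)) * ai i
  have hb : ∀ i : Fin n, ψ (b i) = (p : L) ^ M * (G.coeff i : L) := by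
    intro i
    have := hle i (Finset.mem_range.mpr i.2)
    simp only [b]
    rw [map_mul, psi_C_pow, ← hai, ← mul_assoc, ← pow_add, Nat.sub_add_cancel this]
  set R : ℤ[X][X] := ∑ i : Fin n, C (b i) * X ^ (i : ℕ) with hR
  have hRdeg : R.degree < n := Polynomial.degree_sum_fin_lt b
  have hc0 : (C ((p : ℤ) ^ M) : ℤ[X]) ≠ 0 := by
    rw [Ne, Polynomial.C_eq_zero]
    exact pow_ne_zero _ (by exact_mod_cast NeZero.ne p)
  refine ⟨M, C (C ((p : ℤ) ^ M)) * X ^ n + R, ?_, ?_⟩
  · rw [Polynomial.leadingCoeff_add_of_degree_lt', Polynomial.leadingCoeff_C_mul_X_pow]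
    rw [Polynomial.degree_C_mul_X_pow n hc0]
    exact hRdeg
  · rw [Polynomial.eval₂_add, Polynomial.eval₂_mul, Polynomial.eval₂_C, Polynomial.eval₂_X_pow,
      psi_C_pow, hR, Polynomial.eval₂_finsetSum]
    simp only [Polynomial.eval₂_mul, Polynomial.eval₂_C, Polynomial.eval₂_X_pow, hb]
    -- `G(w) = w^n + ∑_{i<n} g_i w^i`
    have hGsum : (w ^ n + ∑ i : Fin n, (G.coeff i : L) * w ^ (i : ℕ)) = 0 := by
      rw [← hG]
      conv_rhs => rw [hGm.as_sum]
      rw [Polynomial.eval₂_add, Polynomial.eval₂_X_pow, Polynomial.eval₂_finsetSum,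
        ← Fin.sum_univ_eq_sum_range (fun i => Polynomial.eval₂ _ w (C (G.coeff i) * X ^ i))]
      simp only [Polynomial.eval₂_mul, Polynomial.eval₂_C, Polynomial.eval₂_X_pow]
      rfl
    calc (p : L) ^ M * w ^ n + ∑ i : Fin n, (p : L) ^ M * (G.coeff i : L) * w ^ (i : ℕ)
        = (p : L) ^ M * (w ^ n + ∑ i : Fin n, (G.coeff i : L) * w ^ (i : ℕ)) := by
          rw [mul_add, Finset.mul_sum]
          congr 1
          exact Finset.sum_congr rfl fun i _ => by ring
      _ = 0 := by rw [hGsum, mul_zero]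

end Generic

/-! ### Laurent series with coefficients in a subring -/

section CoeffSubring

variable {K : Type*} [CommRing K]

/-- The subring of `K((q))` of series all of whose coefficients lie in the subring `S ⊆ K`. -/
def coeffSubring (S : Subring K) : Subring (LaurentSeries K) where
  carrier := {f | ∀ n, f.coeff n ∈ S}
  mul_mem' := by
    intro f g hf hg n
    rw [HahnSeries.coeff_mul]
    exact S.sum_mem fun ij _ => S.mul_mem (hf _) (hg _)
  one_mem' := by
    intro n
    rw [HahnSeries.coeff_one]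
    split_ifs
    · exact S.one_mem
    · exact S.zero_mem
  add_mem' := by
    intro f g hf hg n
    rw [HahnSeries.coeff_add]
    exact S.add_mem (hf n) (hg n)
  zero_mem' := fun n => by
    rw [HahnSeries.coeff_zero]
    exact S.zero_mem
  neg_mem' := by
    intro f hf n
    rw [HahnSeries.coeff_neg]
    exact S.neg_mem (hf n)

theorem prod_X_sub_C_coeff_mem (S : Subring K) {ι : Type*} [Fintype ι] (T : ι → LaurentSeries K)
    (hT : ∀ x n, (T x).coeff n ∈ S) (k : ℕ) (n : ℤ) :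
    ((∏ x, (X - C (T x))).coeff k).coeff n ∈ S := by
  classical
  have h : (∏ x, (X - C (T x))) =
      (∏ x, (X - C (⟨T x, hT x⟩ : coeffSubring S))).map (coeffSubring S).subtype := by
    rw [Polynomial.map_prod]
    refine Finset.prod_congr rfl fun x _ => ?_
    rw [Polynomial.map_sub, Polynomial.map_X, Polynomial.map_C]
    rfl
  rw [h, Polynomial.coeff_map]
  exact ((∏ x, (X - C (⟨T x, hT x⟩ : coeffSubring S))).coeff k).2 n

end CoeffSubring

/-! ### The subring `ℤ[ζ, 1/p]` -/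

/-- Every element of `ℤ[ζ, 1/p]` (`ζ` integral over `ℤ`) becomes integral over `ℤ` after
multiplication by a power of `p`. -/
theorem exists_pow_mul_isIntegral {K : Type*} [Field K] (p : ℕ) (hp : (p : K) ≠ 0) (ζ : K)
    (hζ : IsIntegral ℤ ζ) :
    ∀ s ∈ Subring.closure ({ζ, ((p : K))⁻¹} : Set K), ∃ m : ℕ, IsIntegral ℤ ((p : K) ^ m * s) := by
  have hpint : ∀ k : ℕ, IsIntegral ℤ ((p : K) ^ k) := fun k => (isIntegral_natCast (R := ℤ) p).pow k
  intro s hs
  induction hs using Subring.closure_induction with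
  | mem x hx =>
    rcases hx with rfl | hx
    · exact ⟨0, by simpa using hζ⟩
    · rw [Set.mem_singleton_iff] at hx
      subst hx
      exact ⟨1, by rw [pow_one, mul_inv_cancel₀ hp]; exact isIntegral_one⟩
  | zero => exact ⟨0, by simpa using isIntegral_zero⟩
  | one => exact ⟨0, by simpa using isIntegral_one⟩
  | add x y _ _ hx hy =>
    obtain ⟨m, hm⟩ := hx
    obtain ⟨n, hn⟩ := hy
    refine ⟨m + n, ?_⟩
    have : (p : K) ^ (m + n) * (x + y) =
        (p : K) ^ n * ((p : K) ^ m * x) + (p : K) ^ m * ((p : K) ^ n * y) := by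
      rw [pow_add]; ring
    rw [this]
    exact ((hpint n).mul hm).add ((hpint m).mul hn)
  | neg x _ hx =>
    obtain ⟨m, hm⟩ := hx
    exact ⟨m, by rw [mul_neg]; exact hm.neg⟩
  | mul x y _ _ hx hy =>
    obtain ⟨m, hm⟩ := hx
    obtain ⟨n, hn⟩ := hy
    refine ⟨m + n, ?_⟩
    have : (p : K) ^ (m + n) * (x * y) = ((p : K) ^ m * x) * ((p : K) ^ n * y) := by
      rw [pow_add]; ring
    rw [this]
    exact hm.mul hn

/-! ### The main theorem -/

section Main

/-- The expansion of `j(q_p^p)` as `q_p^{-p} * U`. -/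
theorem qExpand_jqK_eq_laurentOf (p : ℕ) [NeZero p] :
    qExpand Kbar p jqK = laurentOf (1 * p) (jNumK.expand p (NeZero.ne p)) := by
  rw [jqK_eq_laurentOf, qExpand_laurentOf]

theorem coeff_jNumK_mem (S : Subring Kbar) (n : ℕ) : PowerSeries.coeff n jNumK ∈ S := by
  rw [jNumK, ModularCurve.jNumQ, PowerSeries.coeff_map, PowerSeries.coeff_map]
  simp only [eq_intCast, map_intCast]
  exact intCast_mem S _

theorem coeffMap_int_injective {K : Type*} [CommRing K] [CharZero K] :
    Function.Injective (coeffMap (Int.castRingHom K)) := by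
  intro x y hxy
  ext k
  have := congrArg (fun f => f.coeff k) hxy
  simp only [coeffMap_coeff] at this
  exact Int.cast_injective this

/-- **(P2), algebra half.** -/
theorem p2_of_family (p : ℕ) [NeZero p] {ι : Type*} [Fintype ι] (g : ι → ℍ → ℂ)
    (T : ι → LaurentSeries Kbar) (hhol : ∀ x, g x ∈ HolH)
    (hexp : ∀ x, IntgQN p (g x) (toC (T x)))
    (hperm : ∀ δ : SL(2, ℤ), ∃ σ : Equiv.Perm ι, ∀ x z, g x (δ • z) = g (σ x) z)
    (S : Subring Kbar) (hS : ∀ s ∈ S, ∃ m : ℕ, IsIntegral ℤ ((p : Kbar) ^ m * s))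
    (hTS : ∀ x n, (T x).coeff n ∈ S) (x₀ : ι)
    (hx₀ : T x₀ = qExpand Kbar p (coeffMap (Int.castRingHom Kbar) (Interface20.uq ℤ p))) :
    Interface20.P2 p := by
  classical
  set J : LaurentSeries Kbar := qExpand Kbar p jqK with hJ
  let ψ : ℤ[X] →+* LaurentSeries Kbar :=
    Polynomial.eval₂RingHom (Int.castRingHom (LaurentSeries Kbar)) J
  set Q : (LaurentSeries Kbar)[X] := ∏ x, (X - C (T x)) with hQ
  have hQm : Q.Monic := monic_prod_of_monic _ _ (fun x _ => monic_X_sub_C _)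
  have hroot : Q.eval (T x₀) = 0 := by
    rw [hQ, eval_prod]
    exact Finset.prod_eq_zero (Finset.mem_univ x₀) (by simp)
  have hpK : ((p : ℕ) : Kbar) ≠ 0 := Nat.cast_ne_zero.mpr (NeZero.ne p)
  have hpL : ((p : ℕ) : LaurentSeries Kbar) ≠ 0 := by
    rw [← map_natCast (algebraMap Kbar (LaurentSeries Kbar))]
    exact (map_ne_zero_iff _ (algebraMap Kbar (LaurentSeries Kbar)).injective).mpr hpK
  have hU0 : PowerSeries.constantCoeff (jNumK.expand p (NeZero.ne p)) = 1 := by
    rw [PowerSeries.constantCoeff_expand, ← PowerSeries.coeff_zero_eq_constantCoeff_apply, jNumK,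
      PowerSeries.coeff_map, PowerSeries.coeff_zero_eq_constantCoeff_apply,
      ModularCurve.constantCoeff_jNumQ, map_one]
  have hU : ∀ n, PowerSeries.coeff n (jNumK.expand p (NeZero.ne p)) ∈ S := by
    intro n
    rw [PowerSeries.coeff_expand]
    split_ifs
    · exact coeff_jNumK_mem S _
    · exact S.zero_mem
  have hJmem : J ∈ denomSubring p ψ := ⟨0, X, by simp [ψ]⟩
  have hcoef : ∀ k, IsIntegral (denomSubring p ψ) (Q.coeff k) := by
    intro k
    obtain ⟨c, hc, -⟩ := intg_core p g T hhol hexp hperm k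
    have hcS : ∀ i, c.coeff i ∈ S := by
      refine lor_coeff_mem_of_aeval_mem S (1 * p) (by have := NeZero.pos p; omega) _ hU0 hU c ?_
      intro n
      rw [← qExpand_jqK_eq_laurentOf, ← hc]
      exact prod_X_sub_C_coeff_mem S T hTS k n
    rw [hQ, hc, aeval_eq_sum_range]
    refine IsIntegral.sum _ (fun i _ => ?_)
    rw [Algebra.smul_def]
    refine IsIntegral.mul ?_ ((isIntegral_denom_of_mem p ψ hJmem).pow i)
    obtain ⟨m, hm⟩ := hS _ (hcS i)
    apply isIntegral_denom_of_pow_mul p ψ hpL (m := m)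
    have := map_isIntegral_int (algebraMap Kbar (LaurentSeries Kbar)) hm
    simpa only [map_mul, map_pow, map_natCast] using this
  have hint := isIntegral_of_monic_root Q hQm hcoef (T x₀) hroot
  obtain ⟨m, P, hlead, hP⟩ := exists_clear_denoms p ψ (T x₀) hint
  refine ⟨m, P, hlead, ?_⟩
  -- descent to `ℤ((q))`
  set κ : LaurentSeries ℤ →+* LaurentSeries Kbar :=
    (qExpand Kbar p).comp (coeffMap (Int.castRingHom Kbar)) with hκ
  have hκinj : Function.Injective κ :=
    (qExpand_injective (R := Kbar) p).comp coeffMap_int_injective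
  apply hκinj
  rw [map_zero, Polynomial.hom_eval₂]
  have h1 : κ.comp (Interface20.evalAt ℤ (jqModC ℤ)) = ψ := by
    apply Polynomial.ringHom_ext
    · intro a
      simp [ψ, Interface20.evalAt]
    · simp only [ψ, Interface20.evalAt, RingHom.comp_apply, Polynomial.coe_eval₂RingHom,
        Polynomial.eval₂_X, hκ, coeffMap_jqModC, hJ, jqK_eq_jqModC]
  have h2 : κ (Interface20.uq ℤ p) = T x₀ := by
    rw [hx₀]; rfl
  rw [h1, h2]
  exact hP

/-- Every element of `ℤ[ζ_p, 1/p] ⊆ ℚbar` becomes integral over `ℤ` after multiplication by a power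
of `p`. -/
theorem coeffRing_spec (p : ℕ) [NeZero p] :
    ∀ s ∈ Subring.closure ({zetaK p, ((p : Kbar))⁻¹} : Set Kbar),
      ∃ m : ℕ, IsIntegral ℤ ((p : Kbar) ^ m * s) := by
  refine exists_pow_mul_isIntegral p (Nat.cast_ne_zero.mpr (NeZero.ne p)) (zetaK p) ?_
  refine IsIntegral.of_pow (NeZero.pos p) ?_
  rw [zetaK_pow_self]
  exact isIntegral_one

/-- **(P2) from a `Γ₀(p)`-invariant function.** `F` holomorphic on `ℍ`, `Γ₀(p)`-invariant, every
`F ∘ γ` has a `q_p`-expansion over `ℚbar` with coefficients in `S`, and `F` itself has the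
expansion of `u = Δ(q^p)/Δ(q)`. -/
theorem p2_of_invariant (p : ℕ) [NeZero p] (F : ℍ → ℂ) (hF : F ∈ HolH)
    (hinv : ∀ γ : SL(2, ℤ), γ ∈ CongruenceSubgroup.Gamma0 p → compSL F γ = F)
    (S : Subring Kbar) (hS : ∀ s ∈ S, ∃ m : ℕ, IsIntegral ℤ ((p : Kbar) ^ m * s))
    (hexp : ∀ γ : SL(2, ℤ), ∃ T : LaurentSeries Kbar,
      IntgQN p (compSL F γ) (toC T) ∧ ∀ n, T.coeff n ∈ S)
    (hone : IntgQN p F
      (toC (qExpand Kbar p (coeffMap (Int.castRingHom Kbar) (Interface20.uq ℤ p))))) :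
    Interface20.P2 p := by
  classical
  have : Fintype (SL(2, ℤ) ⧸ CongruenceSubgroup.Gamma0 p) := Fintype.ofFinite _
  let rep : SL(2, ℤ) ⧸ CongruenceSubgroup.Gamma0 p → SL(2, ℤ) := Quotient.out
  have hrep : ∀ x, (rep x : SL(2, ℤ) ⧸ CongruenceSubgroup.Gamma0 p) = x := fun x =>
    QuotientGroup.out_eq' x
  choose T hT hTS using fun x : SL(2, ℤ) ⧸ CongruenceSubgroup.Gamma0 p => hexp (rep x)⁻¹
  let x₀ : SL(2, ℤ) ⧸ CongruenceSubgroup.Gamma0 p := ((1 : SL(2, ℤ)) : _)
  refine p2_of_family p (fun x => compSL F (rep x)⁻¹) T (fun x => compSL_mem_HolH hF _) hT ?_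
    S hS hTS x₀ ?_
  · -- the permutation of the cosets
    intro δ
    refine ⟨MulAction.toPerm δ⁻¹, fun x z => ?_⟩
    set a := rep x with ha
    set b := rep ((MulAction.toPerm δ⁻¹ : Equiv.Perm _) x) with hb
    have hcoset : ((b : SL(2, ℤ)) : SL(2, ℤ) ⧸ CongruenceSubgroup.Gamma0 p)
        = ((δ⁻¹ * a : SL(2, ℤ)) : SL(2, ℤ) ⧸ CongruenceSubgroup.Gamma0 p) := by
      rw [hb, hrep, MulAction.toPerm_apply]
      conv_lhs => rw [← hrep x]
      rfl
    have hmem : b⁻¹ * (δ⁻¹ * a) ∈ CongruenceSubgroup.Gamma0 p := QuotientGroup.eq.mp hcoset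
    have hmem' : (b⁻¹ * (δ⁻¹ * a))⁻¹ ∈ CongruenceSubgroup.Gamma0 p := inv_mem hmem
    have hinv' := hinv _ hmem'
    show F (a⁻¹ • δ • z) = F (b⁻¹ • z)
    have h1 : a⁻¹ • δ • z = (b⁻¹ * (δ⁻¹ * a))⁻¹ • (b⁻¹ • z) := by
      rw [← mul_smul, ← mul_smul]
      congr 1
      group
    rw [h1]
    exact congrFun hinv' (b⁻¹ • z)
  · -- the expansion at the trivial coset
    have hmem : (rep x₀)⁻¹ ∈ CongruenceSubgroup.Gamma0 p := by
      have h1 : ((rep x₀ : SL(2, ℤ)) : SL(2, ℤ) ⧸ CongruenceSubgroup.Gamma0 p)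
          = ((1 : SL(2, ℤ)) : _) := hrep x₀
      have h2 := QuotientGroup.eq.mp h1
      rwa [mul_one] at h2
    have h3 := hT x₀
    rw [hinv _ hmem] at h3
    exact toC_injective (intg_qn_unique p h3 hone)

end Main

end Fermat.Agent.IG.AN.P2Alg9
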