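/-
IG/AN/P2Final9 (helper9): `Interface20.P2 p` VERBATIM (no primality, only `[NeZero p]`).

Assembly of
* `DeltaQuot19` (helper19): `F(z) = Δ(pz)/Δ(z)` is holomorphic on `ℍ` and `Γ₀(p)`-invariant;
* `DeltaAffineBridge11` (helper11): every `F ∘ γ` has a `q_p`-expansion over `ℚbar` with coefficients
  in `ℤ[ζ_p, 1/p]`, and `F` itself has the expansion of `u = Δ(q^p)/Δ(q)`;
* `P2Alg9` (helper9): the algebra (integrality over `ℤ[1/p][j]`, clearing denominators, descent to
  `ℤ((q))`).
-/
import Mathlib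
import Fermat.Agent.IG.AN.P2Alg9
import Fermat.Agent.IG.AN.DeltaQuot19
import Fermat.Agent.IG.AN.DeltaAffineBridge11

set_option autoImplicit false

namespace Fermat.Agent.IG.AN.P2Final9

open Fermat.Agent.IG.PR Fermat.Agent.IG.AN

/-- **(P2)**: `u = Δ(q^p)/Δ(q)` is a root of a polynomial in `ℤ[Y][X]` (`Y := j(q)`) whose leading
coefficient is the constant `p^m`. -/
theorem p2 (p : ℕ) [NeZero p] : Interface20.P2 p :=
  P2Alg9.p2_of_invariant p (DeltaQuot19.deltaQuot p) (DeltaQuot19.deltaQuot_mem_HolH p)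
    (DeltaQuot19.deltaQuot_invariant p) _ (P2Alg9.coeffRing_spec p)
    (DeltaAffineBridge11.exists_expansion_compSL p) (DeltaAffineBridge11.expansion_one p)

end Fermat.Agent.IG.AN.P2Final9
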