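/-
Program G (S28, Igusa), chapter IG/AN (char-0 analytic inputs) — helper12 (chapter lead).

`Main12`: the ONE-FILE EXPORT of chapter IG/AN.  All four deliverables of the chapter, in the literal
shapes of the consumer interfaces (`IG/PR/Interface20`, `IG/VAL/ValInterface8`), unconditional:

* `p0 p`  : `Interface20.P0 p`  for every prime `p`            (helper3, `ModPoly3.p0`;
            packaging over `ℚbar` by helper26, `ModPolyBar26`);
* `p1`    : `Interface20.P1`                                   (helper10, `FormalJ10.p1`);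
* `p2 p`  : `Interface20.P2 p` for every `p ≥ 1`               (helper9, `P2Final9.p2`, on helper19's
            `DeltaQuot19/DeltaQuotExp19`, helper11's `DeltaAffine11`, helper14's `CosetFamily14`;
            an independent second proof is helper24's `UnitP2Final24.p2`);
* `degLe N` : `ValInterface8.DegLe N` for every level `N ≥ 1`  (helper23, `DegLe23/DegLeVal23`).
-/
import Fermat.Agent.IG.AN.ModPoly3
import Fermat.Agent.IG.AN.FormalJ10
import Fermat.Agent.IG.AN.P2Final9
import Fermat.Agent.IG.AN.DegLeVal23

set_option autoImplicit false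

namespace Fermat.Agent.IG.AN.Main12

open Fermat.Agent.IG.PR Fermat.Agent.IG.VAL

/-- **(P0)** the modular equation of prime level `p` over `ℤ`, with the symmetric relation. -/
theorem p0 (p : ℕ) [NeZero p] (hp : p.Prime) : Interface20.P0 p := ModPoly3.p0 p hp

/-- **(P0)**, `Fact` form. -/
theorem p0' (p : ℕ) [hp : Fact p.Prime] :
    haveI : NeZero p := ⟨hp.out.ne_zero⟩
    Interface20.P0 p :=
  haveI : NeZero p := ⟨hp.out.ne_zero⟩
  ModPoly3.p0 p hp.out

/-- **(P1)** `(θ j)² = E₄ · j · (j − 1728)` in `ℤ((q))`. -/
theorem p1 : Interface20.P1 := FormalJ10.p1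

/-- **(P2)** `Δ(q^p)/Δ(q)` is a root of a polynomial over `ℤ[j]` with leading coefficient `p^m`. -/
theorem p2 (p : ℕ) [NeZero p] : Interface20.P2 p := P2Final9.p2 p

/-- **(DEG)** `[FF_N : ℚ(j)] ≤ ψ(N)`, family form of the VAL interface. -/
theorem degLe (N : ℕ) [NeZero N] : ValInterface8.DegLe N := DegLeVal23.degLe N

end Fermat.Agent.IG.AN.Main12
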