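/-
Program G (S28, Igusa), chapter IG/AN, helper11: leaf (E1) of (P0).

For any interface pair `(D : RealizeData N) (C : CuspData N D)` of the `X0` library, every cusp
expansion `C.T γ j_d` (`d ∣ N`, `γ ∈ SL(2,ℤ)`) of the generator `j_d = j(q^d)` has all its
coefficients in `ℤ[ζ_N] ⊂ ℚbar`; in particular they are integral over `ℤ`.
-/
import Mathlib
import Fermat.Agent.X0.CuspGen
import Fermat.Agent.X0.CuspExpand
import Fermat.Agent.X0.Integrality
import Fermat.Agent.IG.AN.DeltaAffine11

set_option autoImplicit false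

noncomputable section

namespace Fermat.Agent.IG.AN.JAffine11

open Fermat.Agent.X0 Fermat.Agent.X0.Analytic Fermat.Agent.X0.Hermite Fermat.Agent.X0.QExpAffine
open UpperHalfPlane ModularCurve
open scoped MatrixGroups
open Fermat.Agent.IG.AN.DeltaAffine11

variable (N : ℕ) [NeZero N]

/-- The coefficients of `jNumK` are integers. -/
theorem coeff_jNumK_mem (S : Subring Kbar) (n : ℕ) : PowerSeries.coeff n jNumK ∈ S := by
  rw [jNumK, PowerSeries.coeff_map, jNumQ, PowerSeries.coeff_map]
  have h : algebraMap ℚ Kbar ((Int.castRingHom ℚ) (PowerSeries.coeff n jNum)) =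
      ((PowerSeries.coeff n jNum : ℤ) : Kbar) := by
    simp
  rw [h]
  exact intCast_mem S _

/-- **(E1)** The cusp expansions of the generators `j_d` have coefficients in `ℤ[ζ_N]`. -/
theorem coeff_T_jd_mem (D : RealizeData N) (C : CuspData N D) (d : ℕ) [NeZero d] (hd : d ∣ N)
    (γ : SL(2, ℤ)) (n : ℤ) :
    (C.T γ (jdF N d hd)).coeff n ∈ Subring.closure {zetaK N} := by
  obtain ⟨a, e, b, ζ, ha, he, hae, -, -, -, hζ, hQ, -⟩ :=
    CuspGen.exists_isQExp_compSL_jdFun N d hd γ
  have heN : e ∣ N := (Dvd.intro_left a hae).trans hd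
  have hζeq : ζ = zetaE N e := iotaK_injective (hζ.trans (iotaK_zetaE N he heN).symm)
  subst hζeq
  have hT : C.T γ (jdF N d hd) =
      laurentOf (a * (N / e)) (affQ jNumK 1 (a * (N / e)) b (zetaE N e)) := by
    have h1 : ((jdR N d hd : Rsub N) : FF N) = jdF N d hd := rfl
    rw [← h1]
    apply intg_T_eq_of_qn N D C γ (jdR N d hd)
    rw [D.jd_eq d hd, toC, Fermat.Agent.X0.coeffMap_laurentOf]
    exact intg_qn_of_isQExp N hQ
  rw [hT]
  refine coeff_laurentOf_mem _ _ (fun k => ?_) n
  rw [coeff_affQ]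
  split_ifs
  · exact Subring.mul_mem _ (coeff_jNumK_mem _ _)
      (zpow_mem_of_pow_eq_one _ (zetaE_mem N e) he (zetaE_pow N heN) _)
  · exact Subring.zero_mem _

/-- Elements of `ℤ[ζ_N]` are integral over `ℤ`. -/
theorem isIntegral_of_mem_closure {x : Kbar} (hx : x ∈ Subring.closure {zetaK N}) :
    IsIntegral ℤ x := by
  have hle : Subring.closure {zetaK N} ≤ (integralClosure ℤ Kbar).toSubring := by
    rw [Subring.closure_le]
    intro y hy
    rw [Set.mem_singleton_iff] at hy
    subst hy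
    show IsIntegral ℤ (zetaK N)
    exact IsIntegral.of_pow (Nat.pos_of_ne_zero (NeZero.ne N))
      (by rw [zetaK_pow_self]; exact isIntegral_one)
  exact hle hx

/-- The coefficients of the cusp expansions of `j_d` are algebraic integers. -/
theorem isIntegral_coeff_T_jd (D : RealizeData N) (C : CuspData N D) (d : ℕ) [NeZero d]
    (hd : d ∣ N) (γ : SL(2, ℤ)) (n : ℤ) : IsIntegral ℤ ((C.T γ (jdF N d hd)).coeff n) :=
  isIntegral_of_mem_closure N (coeff_T_jd_mem N D C d hd γ n)

/-- **(E1), literal shape**: for `D := realizeData p`, `C := cuspData p`. -/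
theorem coeff_T_jp_mem (p : ℕ) [NeZero p] (γ : SL(2, ℤ)) (n : ℤ) :
    ((cuspData p).T γ (jdF p p dvd_rfl)).coeff n ∈ Subring.closure {zetaK p} :=
  coeff_T_jd_mem p (realizeData p) (cuspData p) p dvd_rfl γ n

end Fermat.Agent.IG.AN.JAffine11
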