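/-
Program G (S28, Igusa), chapter IG/AN (helper14): the coset family of a `Γ₀(N)`-invariant
holomorphic function, in the shape consumed by `X0.intg_core`.

For `F : ℍ → ℂ` with `compSL F γ = F` for all `γ ∈ Γ₀(N)`, and a section `rep` of
`SL(2,ℤ) → SL(2,ℤ)/Γ₀(N)`, the family `g x := compSL F (rep x)⁻¹` is
* holomorphic (`cosetFam_mem_HolH`),
* permuted by `SL(2,ℤ)` (`cosetFam_perm`: the `hperm` hypothesis of `X0.intg_core`),
* independent of the section: `g ⟦γ⟧ = compSL F γ⁻¹` (`cosetFam_mk`), in particular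
  `g ⟦1⟧ = F` and `g ⟦γ⁻¹⟧ = compSL F γ`.
The index set has `ψ(N)` elements (`p + 1` for `N = p` prime).
-/
import Mathlib
import Fermat.Agent.X0.HolOrder
import Fermat.Agent.X0.G1Index

set_option autoImplicit false

open UpperHalfPlane
open scoped MatrixGroups

noncomputable section

namespace Fermat.Agent.IG.AN.CosetFamily14

open Fermat.Agent.X0

variable (N : ℕ)

/-- The canonical section `Quotient.out` of `SL(2,ℤ) → SL(2,ℤ)/Γ₀(N)`. -/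
def cosetRep (x : SL(2, ℤ) ⧸ CongruenceSubgroup.Gamma0 N) : SL(2, ℤ) := Quotient.out x

theorem cosetRep_spec (x : SL(2, ℤ) ⧸ CongruenceSubgroup.Gamma0 N) :
    (cosetRep N x : SL(2, ℤ) ⧸ CongruenceSubgroup.Gamma0 N) = x :=
  QuotientGroup.out_eq' x

/-- A `Fintype` structure on the coset space (use with `haveI`/`letI`). -/
@[reducible] def cosetFintype [NeZero N] : Fintype (SL(2, ℤ) ⧸ CongruenceSubgroup.Gamma0 N) :=
  Fintype.ofFinite _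

/-- The coset space has `ψ(N)` elements, for any `Fintype` structure. -/
theorem card_coset [NeZero N] [Fintype (SL(2, ℤ) ⧸ CongruenceSubgroup.Gamma0 N)] :
    Fintype.card (SL(2, ℤ) ⧸ CongruenceSubgroup.Gamma0 N) = ModularCurve.dedekindPsi N := by
  rw [← Nat.card_eq_fintype_card]
  exact G1Index.g1_card N

/-- `ψ(p) = p + 1`. -/
theorem dedekindPsi_prime {p : ℕ} (hp : p.Prime) : ModularCurve.dedekindPsi p = p + 1 := by
  have h := G1Index.g1i_psi_prime_pow hp one_pos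
  simpa using h

/-- For `p` prime the coset space has `p + 1` elements. -/
theorem card_coset_prime {p : ℕ} (hp : p.Prime)
    [Fintype (SL(2, ℤ) ⧸ CongruenceSubgroup.Gamma0 p)] :
    Fintype.card (SL(2, ℤ) ⧸ CongruenceSubgroup.Gamma0 p) = p + 1 := by
  have : NeZero p := ⟨hp.ne_zero⟩
  rw [card_coset, dedekindPsi_prime hp]

section general

variable {N}
variable (rep : SL(2, ℤ) ⧸ CongruenceSubgroup.Gamma0 N → SL(2, ℤ))

/-- The coset family of `F` with respect to a section `rep`. -/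
def cosetFamOf (F : ℍ → ℂ) (x : SL(2, ℤ) ⧸ CongruenceSubgroup.Gamma0 N) : ℍ → ℂ :=
  compSL F (rep x)⁻¹

theorem cosetFamOf_apply (F : ℍ → ℂ) (x : SL(2, ℤ) ⧸ CongruenceSubgroup.Gamma0 N) (z : ℍ) :
    cosetFamOf rep F x z = F ((rep x)⁻¹ • z) := rfl

theorem cosetFamOf_mem_HolH {F : ℍ → ℂ} (hF : F ∈ HolH)
    (x : SL(2, ℤ) ⧸ CongruenceSubgroup.Gamma0 N) : cosetFamOf rep F x ∈ HolH :=
  compSL_mem_HolH hF _

variable (hrep : ∀ x, (rep x : SL(2, ℤ) ⧸ CongruenceSubgroup.Gamma0 N) = x)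
include hrep

/-- Independence of the section: the member at the coset of `γ` is `F ∘ γ⁻¹`. -/
theorem cosetFamOf_mk {F : ℍ → ℂ}
    (hinv : ∀ γ ∈ CongruenceSubgroup.Gamma0 N, compSL F γ = F) (γ : SL(2, ℤ)) :
    cosetFamOf rep F (γ : SL(2, ℤ) ⧸ CongruenceSubgroup.Gamma0 N) = compSL F γ⁻¹ := by
  set a := rep (γ : SL(2, ℤ) ⧸ CongruenceSubgroup.Gamma0 N) with ha
  have hcoset : ((a : SL(2, ℤ)) : SL(2, ℤ) ⧸ CongruenceSubgroup.Gamma0 N)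
      = ((γ : SL(2, ℤ)) : SL(2, ℤ) ⧸ CongruenceSubgroup.Gamma0 N) := hrep _
  have hmem : a⁻¹ * γ ∈ CongruenceSubgroup.Gamma0 N := QuotientGroup.eq.mp hcoset
  have h := hinv _ hmem
  funext z
  show F (a⁻¹ • z) = F (γ⁻¹ • z)
  have h1 : a⁻¹ • z = (a⁻¹ * γ) • (γ⁻¹ • z) := by
    rw [← mul_smul]
    congr 1
    group
  rw [h1]
  exact congrFun h (γ⁻¹ • z)

theorem cosetFamOf_mk_inv {F : ℍ → ℂ}
    (hinv : ∀ γ ∈ CongruenceSubgroup.Gamma0 N, compSL F γ = F) (γ : SL(2, ℤ)) :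
    cosetFamOf rep F ((γ⁻¹ : SL(2, ℤ)) : SL(2, ℤ) ⧸ CongruenceSubgroup.Gamma0 N) = compSL F γ := by
  rw [cosetFamOf_mk rep hrep hinv, inv_inv]

theorem cosetFamOf_one {F : ℍ → ℂ}
    (hinv : ∀ γ ∈ CongruenceSubgroup.Gamma0 N, compSL F γ = F) :
    cosetFamOf rep F ((1 : SL(2, ℤ)) : SL(2, ℤ) ⧸ CongruenceSubgroup.Gamma0 N) = F := by
  rw [cosetFamOf_mk rep hrep hinv, inv_one]
  funext z
  show F ((1 : SL(2, ℤ)) • z) = F z
  rw [one_smul]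

/-- The family is permuted by `SL(2,ℤ)`: the `hperm` hypothesis of `X0.intg_core`. -/
theorem cosetFamOf_perm {F : ℍ → ℂ}
    (hinv : ∀ γ ∈ CongruenceSubgroup.Gamma0 N, compSL F γ = F) (δ : SL(2, ℤ)) :
    ∃ σ : Equiv.Perm (SL(2, ℤ) ⧸ CongruenceSubgroup.Gamma0 N), ∀ x z,
      cosetFamOf rep F x (δ • z) = cosetFamOf rep F (σ x) z := by
  refine ⟨MulAction.toPerm δ⁻¹, fun x z => ?_⟩
  set a := rep x with ha
  set b := rep ((MulAction.toPerm δ⁻¹ : Equiv.Perm _) x) with hb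
  have hcoset : ((b : SL(2, ℤ)) : SL(2, ℤ) ⧸ CongruenceSubgroup.Gamma0 N)
      = ((δ⁻¹ * a : SL(2, ℤ)) : SL(2, ℤ) ⧸ CongruenceSubgroup.Gamma0 N) := by
    rw [hb, hrep, MulAction.toPerm_apply]
    conv_lhs => rw [← hrep x]
    rfl
  have hmem : b⁻¹ * (δ⁻¹ * a) ∈ CongruenceSubgroup.Gamma0 N := QuotientGroup.eq.mp hcoset
  have hmem' : (b⁻¹ * (δ⁻¹ * a))⁻¹ ∈ CongruenceSubgroup.Gamma0 N := inv_mem hmem
  have h := hinv _ hmem'
  show F (a⁻¹ • δ • z) = F (b⁻¹ • z)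
  have h1 : a⁻¹ • δ • z = (b⁻¹ * (δ⁻¹ * a))⁻¹ • (b⁻¹ • z) := by
    rw [← mul_smul, ← mul_smul]
    congr 1
    group
  rw [h1]
  exact congrFun h (b⁻¹ • z)

/-- The permutation is the left translation by `δ⁻¹` on cosets (explicit form). -/
theorem cosetFamOf_smul {F : ℍ → ℂ}
    (hinv : ∀ γ ∈ CongruenceSubgroup.Gamma0 N, compSL F γ = F) (δ : SL(2, ℤ))
    (x : SL(2, ℤ) ⧸ CongruenceSubgroup.Gamma0 N) (z : ℍ) :
    cosetFamOf rep F x (δ • z) = cosetFamOf rep F (δ⁻¹ • x) z := by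
  obtain ⟨γ, rfl⟩ := QuotientGroup.mk_surjective x
  have h2 : δ⁻¹ • (γ : SL(2, ℤ) ⧸ CongruenceSubgroup.Gamma0 N)
      = ((δ⁻¹ * γ : SL(2, ℤ)) : SL(2, ℤ) ⧸ CongruenceSubgroup.Gamma0 N) := rfl
  rw [h2, cosetFamOf_mk rep hrep hinv, cosetFamOf_mk rep hrep hinv]
  show F (γ⁻¹ • δ • z) = F ((δ⁻¹ * γ)⁻¹ • z)
  rw [← mul_smul]
  congr 2
  group

end general

/-! ### The canonical family (section `Quotient.out`) -/

/-- The coset family `g x = F ∘ (rep x)⁻¹` for the canonical section. -/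
def cosetFam (F : ℍ → ℂ) (x : SL(2, ℤ) ⧸ CongruenceSubgroup.Gamma0 N) : ℍ → ℂ :=
  cosetFamOf (cosetRep N) F x

theorem cosetFam_apply (F : ℍ → ℂ) (x : SL(2, ℤ) ⧸ CongruenceSubgroup.Gamma0 N) (z : ℍ) :
    cosetFam N F x z = F ((cosetRep N x)⁻¹ • z) := rfl

theorem cosetFam_eq_compSL (F : ℍ → ℂ) (x : SL(2, ℤ) ⧸ CongruenceSubgroup.Gamma0 N) :
    cosetFam N F x = compSL F (cosetRep N x)⁻¹ := rfl

/-- `hhol` of `X0.intg_core`. -/
theorem cosetFam_mem_HolH {F : ℍ → ℂ} (hF : F ∈ HolH)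
    (x : SL(2, ℤ) ⧸ CongruenceSubgroup.Gamma0 N) : cosetFam N F x ∈ HolH :=
  cosetFamOf_mem_HolH _ hF x

/-- `hperm` of `X0.intg_core`. -/
theorem cosetFam_perm {F : ℍ → ℂ}
    (hinv : ∀ γ ∈ CongruenceSubgroup.Gamma0 N, compSL F γ = F) (δ : SL(2, ℤ)) :
    ∃ σ : Equiv.Perm (SL(2, ℤ) ⧸ CongruenceSubgroup.Gamma0 N), ∀ x z,
      cosetFam N F x (δ • z) = cosetFam N F (σ x) z :=
  cosetFamOf_perm _ (cosetRep_spec N) hinv δ

theorem cosetFam_smul {F : ℍ → ℂ}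
    (hinv : ∀ γ ∈ CongruenceSubgroup.Gamma0 N, compSL F γ = F) (δ : SL(2, ℤ))
    (x : SL(2, ℤ) ⧸ CongruenceSubgroup.Gamma0 N) (z : ℍ) :
    cosetFam N F x (δ • z) = cosetFam N F (δ⁻¹ • x) z :=
  cosetFamOf_smul _ (cosetRep_spec N) hinv δ x z

/-- The member at the coset of `γ` is `F ∘ γ⁻¹`. -/
theorem cosetFam_mk {F : ℍ → ℂ}
    (hinv : ∀ γ ∈ CongruenceSubgroup.Gamma0 N, compSL F γ = F) (γ : SL(2, ℤ)) :
    cosetFam N F (γ : SL(2, ℤ) ⧸ CongruenceSubgroup.Gamma0 N) = compSL F γ⁻¹ :=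
  cosetFamOf_mk _ (cosetRep_spec N) hinv γ

/-- The member at the coset of `γ⁻¹` is `F ∘ γ`. -/
theorem cosetFam_mk_inv {F : ℍ → ℂ}
    (hinv : ∀ γ ∈ CongruenceSubgroup.Gamma0 N, compSL F γ = F) (γ : SL(2, ℤ)) :
    cosetFam N F ((γ⁻¹ : SL(2, ℤ)) : SL(2, ℤ) ⧸ CongruenceSubgroup.Gamma0 N) = compSL F γ :=
  cosetFamOf_mk_inv _ (cosetRep_spec N) hinv γ

/-- The member at the trivial coset is `F` itself. -/
theorem cosetFam_one {F : ℍ → ℂ}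
    (hinv : ∀ γ ∈ CongruenceSubgroup.Gamma0 N, compSL F γ = F) :
    cosetFam N F ((1 : SL(2, ℤ)) : SL(2, ℤ) ⧸ CongruenceSubgroup.Gamma0 N) = F :=
  cosetFamOf_one _ (cosetRep_spec N) hinv

/-- Every member of the family is an `SL(2,ℤ)`-translate of `F`: `∃ γ, g x = F ∘ γ`. -/
theorem cosetFam_exists_compSL (F : ℍ → ℂ) (x : SL(2, ℤ) ⧸ CongruenceSubgroup.Gamma0 N) :
    ∃ γ : SL(2, ℤ), cosetFam N F x = compSL F γ :=
  ⟨(cosetRep N x)⁻¹, rfl⟩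

end Fermat.Agent.IG.AN.CosetFamily14
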