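/-
Program G (S28, Igusa), chapter IG/AN (helper14): the automorphy step for the modular unit
`F(z) = Δ(p z) / Δ(z)`:  for every `γ ∈ SL(2, ℤ)`, with the Hermite data `(a, e, b)` of
`diag(p, 1) γ` (`a e = p`),
  `F(γ • z) = e^(-12) * Δ((a z + b) / e) / Δ(z)`,
together with holomorphy of `F` and its `Γ₀(p)`-invariance.
-/
import Mathlib
import Fermat.Agent.X0.HermiteFull
import Fermat.Agent.X0.Analytic

set_option autoImplicit false

open UpperHalfPlane ModularForm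
open scoped MatrixGroups Manifold

noncomputable section

namespace Fermat.Agent.IG.AN.DeltaAutomorphy14

open Fermat.Agent.X0 Fermat.Agent.X0.Hermite

/-- The modular unit `F(z) = Δ(d z) / Δ(z)`. -/
def deltaQuot (d : ℕ) [NeZero d] : ℍ → ℂ :=
  fun z => discriminant (scaleH d z) / discriminant z

theorem deltaQuot_apply (d : ℕ) [NeZero d] (z : ℍ) :
    deltaQuot d z = discriminant (scaleH d z) / discriminant z := rfl

/-- The affine companions `Δ((a z + b)/e) / Δ(z)`. -/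
def dAff (a e : ℕ) (b : ℤ) (ha : 0 < a) (he : 0 < e) : ℍ → ℂ :=
  fun z => discriminant (affH a e b ha he z) / discriminant z

theorem dAff_apply (a e : ℕ) (b : ℤ) (ha : 0 < a) (he : 0 < e) (z : ℍ) :
    dAff a e b ha he z = discriminant (affH a e b ha he z) / discriminant z := rfl

theorem denom_eq (γ : SL(2, ℤ)) (z : ℍ) :
    denom γ z = ((γ 1 0 : ℤ) : ℂ) * z + ((γ 1 1 : ℤ) : ℂ) := by
  simp [denom]

/-- **Automorphy of the modular unit** (pointwise, raw form):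
`Δ(d γz)/Δ(γz) = e^(-12) Δ((a z + b)/e) / Δ(z)`. -/
theorem exists_discriminant_scaleH_smul (γ : SL(2, ℤ)) (d : ℕ) [NeZero d] :
    ∃ (a e : ℕ) (b : ℤ) (ha : 0 < a) (he : 0 < e), a * e = d ∧ 0 ≤ b ∧ b < e ∧
      (∀ n : ℤ, n ∣ (a : ℤ) → n ∣ b → n ∣ (e : ℤ) → IsUnit n) ∧
      ∀ z : ℍ, discriminant (scaleH d (γ • z)) / discriminant (γ • z) =
        ((e : ℂ) ^ 12)⁻¹ * (discriminant (affH a e b ha he z) / discriminant z) := by
  obtain ⟨δ, a, e, b, ha, he, hae, hb0, hbe, hprim, h3, h4, hz, -⟩ :=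
    HermiteFull.exists_hermite_full γ d
  refine ⟨a, e, b, ha, he, hae, hb0, hbe, hprim, fun z => ?_⟩
  have heC : (e : ℂ) ≠ 0 := by exact_mod_cast he.ne'
  have hΔ : discriminant z ≠ 0 := discriminant_ne_zero z
  have hdenγ : denom γ z ≠ 0 := denom_ne_zero γ z
  -- the two denominators
  have hden : denom δ (affH a e b ha he z) = denom γ z / e := by
    rw [denom_eq, denom_eq, coe_affH]
    have e3 : ((γ 1 0 : ℤ) : ℂ) = ((δ 1 0 : ℤ) : ℂ) * (a : ℂ) := by
      have := congrArg (Int.cast : ℤ → ℂ) h3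
      push_cast at this
      exact this
    have e4 : ((γ 1 1 : ℤ) : ℂ) = ((δ 1 0 : ℤ) : ℂ) * (b : ℂ) + ((δ 1 1 : ℤ) : ℂ) * (e : ℂ) := by
      have := congrArg (Int.cast : ℤ → ℂ) h4
      push_cast at this
      exact this
    rw [e3, e4]
    field_simp
    ring
  rw [hz z, discriminant_smul, discriminant_smul, hden]
  have h12 : ∀ w : ℂ, w ^ (12 : ℤ) = w ^ 12 := fun w => by norm_cast
  rw [h12, h12, div_pow]
  field_simp

/-- Automorphy, `deltaQuot`/`dAff` form. -/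
theorem exists_deltaQuot_smul (γ : SL(2, ℤ)) (d : ℕ) [NeZero d] :
    ∃ (a e : ℕ) (b : ℤ) (ha : 0 < a) (he : 0 < e), a * e = d ∧ 0 ≤ b ∧ b < e ∧
      (∀ n : ℤ, n ∣ (a : ℤ) → n ∣ b → n ∣ (e : ℤ) → IsUnit n) ∧
      ∀ z : ℍ, deltaQuot d (γ • z) = ((e : ℂ) ^ 12)⁻¹ * dAff a e b ha he z :=
  exists_discriminant_scaleH_smul γ d

/-- Automorphy, `compSL` form (helper19's `(aut)` shape, with the Hermite normalisation). -/
theorem compSL_deltaQuot (γ : SL(2, ℤ)) (d : ℕ) [NeZero d] :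
    ∃ (a e : ℕ) (b : ℤ) (ha : 0 < a) (he : 0 < e), a * e = d ∧ 0 ≤ b ∧ b < e ∧
      (∀ n : ℤ, n ∣ (a : ℤ) → n ∣ b → n ∣ (e : ℤ) → IsUnit n) ∧
      compSL (deltaQuot d) γ = fun z => ((e : ℂ)⁻¹) ^ 12 * dAff a e b ha he z := by
  obtain ⟨a, e, b, ha, he, hae, hb0, hbe, hprim, h⟩ := exists_deltaQuot_smul γ d
  refine ⟨a, e, b, ha, he, hae, hb0, hbe, hprim, ?_⟩
  funext z
  rw [inv_pow]
  exact h z

/-! ### Holomorphy -/

theorem mdifferentiable_discriminant :
    MDifferentiable 𝓘(ℂ) 𝓘(ℂ) (fun z : ℍ => discriminant z) :=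
  CuspForm.discriminant.holo'

theorem discriminant_mem_HolH : (fun z : ℍ => discriminant z) ∈ HolH :=
  mdifferentiable_discriminant

/-- Precomposition with a self-map of `ℍ` that is affine in the coordinate preserves
holomorphy. -/
theorem comp_affine_mem_HolH {F : ℍ → ℂ} (hF : F ∈ HolH) (g : ℍ → ℍ) (α β : ℂ)
    (hg : ∀ z : ℍ, (g z : ℂ) = α * z + β) : (fun z => F (g z)) ∈ HolH := by
  rw [mem_HolH, UpperHalfPlane.mdifferentiable_iff] at hF ⊢
  have hmaps : Set.MapsTo (fun w : ℂ => α * w + β) {w : ℂ | 0 < w.im} {w : ℂ | 0 < w.im} := by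
    intro w hw
    have h1 := hg ⟨w, hw⟩
    show 0 < (α * w + β).im
    have h2 : (α * w + β) = (g ⟨w, hw⟩ : ℂ) := h1.symm
    rw [h2]
    exact (g ⟨w, hw⟩).im_pos
  have hdiff : DifferentiableOn ℂ (fun w : ℂ => α * w + β) {w : ℂ | 0 < w.im} := by
    fun_prop
  have hcomp := hF.comp hdiff hmaps
  refine hcomp.congr fun w hw => ?_
  simp only [Function.comp_apply]
  congr 1
  have hw' : 0 < w.im := hw
  rw [UpperHalfPlane.ofComplex_apply_of_im_pos hw']
  apply UpperHalfPlane.ext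
  rw [hg]
  have : 0 < (α * w + β).im := hmaps hw
  rw [UpperHalfPlane.ofComplex_apply_of_im_pos this]

/-- `z ↦ Δ(d z)` is holomorphic. -/
theorem discriminant_scaleH_mem_HolH (d : ℕ) [NeZero d] :
    (fun z : ℍ => discriminant (scaleH d z)) ∈ HolH :=
  comp_affine_mem_HolH discriminant_mem_HolH (scaleH d) (d : ℂ) 0
    (fun z => by rw [coe_scaleH, add_zero])

/-- `z ↦ Δ((a z + b)/e)` is holomorphic. -/
theorem discriminant_affH_mem_HolH (a e : ℕ) (b : ℤ) (ha : 0 < a) (he : 0 < e) :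
    (fun z : ℍ => discriminant (affH a e b ha he z)) ∈ HolH :=
  comp_affine_mem_HolH discriminant_mem_HolH (affH a e b ha he) ((a : ℂ) / e) ((b : ℂ) / e)
    (fun z => by
      rw [coe_affH]
      have heC : (e : ℂ) ≠ 0 := by exact_mod_cast he.ne'
      field_simp)

/-- `(i)`: the modular unit `Δ(d z)/Δ(z)` is holomorphic on `ℍ`. -/
theorem deltaQuot_mem_HolH (d : ℕ) [NeZero d] : deltaQuot d ∈ HolH := by
  have h1 := discriminant_scaleH_mem_HolH d
  rw [mem_HolH] at h1 ⊢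
  exact h1.div mdifferentiable_discriminant discriminant_ne_zero

/-- `(A1)`: the affine companions are holomorphic on `ℍ`. -/
theorem dAff_mem_HolH (a e : ℕ) (b : ℤ) (ha : 0 < a) (he : 0 < e) : dAff a e b ha he ∈ HolH := by
  have h1 := discriminant_affH_mem_HolH a e b ha he
  rw [mem_HolH] at h1 ⊢
  exact h1.div mdifferentiable_discriminant discriminant_ne_zero

/-! ### `Γ₀(d)`-invariance -/

/-- pointwise `Γ₀(d)`-invariance of `Δ(d z)/Δ(z)`. -/
theorem deltaQuot_smul_of_dvd (γ : SL(2, ℤ)) (d : ℕ) [NeZero d] (hd : (d : ℤ) ∣ γ 1 0) (z : ℍ) :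
    deltaQuot d (γ • z) = deltaQuot d z := by
  have hΔ : discriminant z ≠ 0 := discriminant_ne_zero z
  have hdenγ : denom γ z ≠ 0 := denom_ne_zero γ z
  have hden : denom (Analytic.conjMat γ d hd) (scaleH d z) = denom γ z := by
    rw [denom_eq, denom_eq, coe_scaleH]
    have h1 : ((γ 1 0 / (d : ℤ) : ℤ) : ℂ) * (d : ℂ) = ((γ 1 0 : ℤ) : ℂ) := by
      have := Int.ediv_mul_cancel hd
      exact_mod_cast congrArg (fun t : ℤ => (t : ℂ)) this
    have e10 : (Analytic.conjMat γ d hd) 1 0 = γ 1 0 / (d : ℤ) := by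
      simp [Analytic.conjMat]
    have e11 : (Analytic.conjMat γ d hd) 1 1 = γ 1 1 := by
      simp [Analytic.conjMat]
    rw [e10, e11, ← mul_assoc, h1]
  rw [deltaQuot_apply, deltaQuot_apply, Analytic.scaleH_smul γ d hd, discriminant_smul,
    discriminant_smul, hden]
  have h12 : ∀ w : ℂ, w ^ (12 : ℤ) = w ^ 12 := fun w => by norm_cast
  rw [h12]
  field_simp

/-- `(i')`: `Γ₀(d)`-invariance of the modular unit. -/
theorem deltaQuot_invariant (d : ℕ) [NeZero d] (γ : SL(2, ℤ))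
    (hγ : γ ∈ CongruenceSubgroup.Gamma0 d) : compSL (deltaQuot d) γ = deltaQuot d := by
  have hN : (d : ℤ) ∣ γ 1 0 := by
    rw [CongruenceSubgroup.Gamma0_mem] at hγ
    exact (ZMod.intCast_zmod_eq_zero_iff_dvd _ _).mp hγ
  funext z
  exact deltaQuot_smul_of_dvd γ d hN z

/-- The modular unit never vanishes. -/
theorem deltaQuot_ne_zero (d : ℕ) [NeZero d] (z : ℍ) : deltaQuot d z ≠ 0 :=
  div_ne_zero (discriminant_ne_zero _) (discriminant_ne_zero _)

end Fermat.Agent.IG.AN.DeltaAutomorphy14
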