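import Mathlib
import Fermat.Agent.IG.PR.Interface20

/-!
# Program G (Igusa), chapter IG/AN, piece (P1), formal part (helper10)

`jqModC_mul_deltaq : jqModC R * deltaq R = E4q R ^ 3` (i.e. `j Δ = E₄³`, definitional from
`jNum = E₄³ · (η^24)⁻¹`) and `deltaq_mul_deltaqInv : deltaq R * deltaqInv R = 1`, over every
commutative ring `R`, for the objects of `IG/PR/Interface20`.
-/

set_option autoImplicit false

namespace Fermat.Agent.IG.AN.FormalDelta10

open Fermat.Agent.IG.PR.Interface20

noncomputable section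

variable (R : Type*) [CommRing R]

theorem single_neg_one_mul_single_one :
    HahnSeries.single (-1 : ℤ) (1 : R) * HahnSeries.single (1 : ℤ) (1 : R) = 1 := by
  rw [HahnSeries.single_mul_single]
  simp

theorem etaUnit_mul_inv_map :
    ModularCurve.dedekindEtaUnit.map (Int.castRingHom R) *
      ModularCurve.dedekindEtaUnitInv.map (Int.castRingHom R) = 1 := by
  rw [← map_mul, ModularCurve.dedekindEtaUnit_mul_inv, map_one]

/-- `Δ · Δ⁻¹ = 1`. -/
theorem deltaq_mul_deltaqInv : deltaq R * deltaqInv R = 1 := by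
  rw [deltaq, deltaqInv]
  calc HahnSeries.single (1 : ℤ) (1 : R) *
        HahnSeries.ofPowerSeries ℤ R (ModularCurve.dedekindEtaUnit.map (Int.castRingHom R)) *
        (HahnSeries.single (-1 : ℤ) (1 : R) *
          HahnSeries.ofPowerSeries ℤ R (ModularCurve.dedekindEtaUnitInv.map (Int.castRingHom R)))
      = (HahnSeries.single (-1 : ℤ) (1 : R) * HahnSeries.single (1 : ℤ) (1 : R)) *
        HahnSeries.ofPowerSeries ℤ R (ModularCurve.dedekindEtaUnit.map (Int.castRingHom R) *
          ModularCurve.dedekindEtaUnitInv.map (Int.castRingHom R)) := by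
        rw [map_mul]; ring
    _ = 1 := by rw [single_neg_one_mul_single_one, etaUnit_mul_inv_map, map_one, one_mul]

theorem deltaqInv_mul_deltaq : deltaqInv R * deltaq R = 1 := by
  rw [mul_comm, deltaq_mul_deltaqInv]

/-- `j = E₄³ · Δ⁻¹`. -/
theorem jqModC_eq : ModularCurve.jqModC R = E4q R ^ 3 * deltaqInv R := by
  rw [ModularCurve.jqModC, E4q, deltaqInv, ModularCurve.jNum, map_mul, map_mul, map_pow, map_pow]
  ring

/-- **`j Δ = E₄³`** (formal, over any commutative ring). -/
theorem jqModC_mul_deltaq : ModularCurve.jqModC R * deltaq R = E4q R ^ 3 := by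
  rw [jqModC_eq, mul_assoc, deltaqInv_mul_deltaq, mul_one]

end

end Fermat.Agent.IG.AN.FormalDelta10
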