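/-
Program G (IG/AN; helper16): the "descent of coefficients" lemmas, free of `laurentOf`.

Let `x` be a Laurent series with a pole of exact order `r > 0` and leading coefficient `1`
(`x.coeff n = 0` for `n < -r`, `x.coeff (-r) = 1`).  If `P` is a polynomial such that all
coefficients of `P(x)` lie in a subring `S` (which contains the coefficients of `x`), then all
coefficients of `P` lie in `S`; ring-hom forms; two-variable forms; and the instances
`x = jqModC R`, `x = qExpand R N (jqModC R)`.

Everything is a wrapper around `Fermat.Agent.X0.lor_coeff_mem_of_aeval_mem`.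
-/
import Fermat.Agent.X0.LevelOneRational
import Fermat.Prelude.Def_ModularCurve_X0ModL

set_option autoImplicit false

noncomputable section

namespace Fermat.Agent.IG.AN.IntDescent16

open Polynomial ModularCurve Fermat.Agent.X0

/-! ### Writing a Laurent series with bounded pole as `laurentOf` -/

section Shift

variable {L : Type*} [CommRing L]

/-- The power series `q^r * x` (for `x` with a pole of order at most `r`). -/
def shiftPart (r : ℕ) (x : LaurentSeries L) : PowerSeries L :=
  PowerSeries.mk fun n => x.coeff ((n : ℤ) - r)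

theorem coeff_shiftPart (r : ℕ) (x : LaurentSeries L) (n : ℕ) :
    PowerSeries.coeff n (shiftPart r x) = x.coeff ((n : ℤ) - r) := by
  rw [shiftPart, PowerSeries.coeff_mk]

theorem laurentOf_shiftPart (r : ℕ) (x : LaurentSeries L)
    (hlow : ∀ n : ℤ, n < -(r : ℤ) → x.coeff n = 0) : laurentOf r (shiftPart r x) = x := by
  ext k
  rw [lor_laurentOf_coeff]
  split_ifs with h
  · rw [coeff_shiftPart, Int.toNat_of_nonneg h]
    congr 1
    ring
  · exact (hlow k (by omega)).symm

theorem constantCoeff_shiftPart (r : ℕ) (x : LaurentSeries L) (hlead : x.coeff (-(r : ℤ)) = 1) :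
    PowerSeries.constantCoeff (shiftPart r x) = 1 := by
  rw [← PowerSeries.coeff_zero_eq_constantCoeff_apply, coeff_shiftPart]
  simpa using hlead

theorem shiftPart_map {K : Type*} [CommRing K] (ι : K →+* L) (r : ℕ) (x : LaurentSeries K) :
    (shiftPart r x).map ι = shiftPart r (coeffMap ι x) := by
  ext n
  rw [PowerSeries.coeff_map, coeff_shiftPart, coeff_shiftPart, coeffMap_coeff]

end Shift

/-! ### One variable -/

section OneVar

variable {L : Type*} [CommRing L]

/-- **Descent, subring form.** `x` has a pole of exact order `r > 0` with leading coefficient `1`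
and coefficients in the subring `S`.  If all coefficients of `P(x)` lie in `S` then so do those
of `P`. -/
theorem coeff_mem_of_aeval_mem (S : Subring L) (r : ℕ) (hr : 0 < r) (x : LaurentSeries L)
    (hlow : ∀ n : ℤ, n < -(r : ℤ) → x.coeff n = 0) (hlead : x.coeff (-(r : ℤ)) = 1)
    (hxS : ∀ n : ℤ, x.coeff n ∈ S) (P : L[X])
    (hP : ∀ n : ℤ, (aeval x P).coeff n ∈ S) : ∀ i, P.coeff i ∈ S := by
  have hx := laurentOf_shiftPart r x hlow
  refine lor_coeff_mem_of_aeval_mem S r hr (shiftPart r x) (constantCoeff_shiftPart r x hlead)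
    (fun n => by rw [coeff_shiftPart]; exact hxS _) P ?_
  rw [hx]
  exact hP

/-- **Descent, ring hom form** (coefficients of `P(ι x)` in the range of `ι`). -/
theorem exists_map_eq {K : Type*} [CommRing K] (ι : K →+* L) (r : ℕ) (hr : 0 < r)
    (x : LaurentSeries K) (hlow : ∀ n : ℤ, n < -(r : ℤ) → x.coeff n = 0)
    (hlead : x.coeff (-(r : ℤ)) = 1) (P : L[X])
    (hP : ∀ n : ℤ, (aeval (coeffMap ι x) P).coeff n ∈ ι.range) : ∃ p : K[X], p.map ι = P := by
  have hx := laurentOf_shiftPart r x hlow
  refine lor_exists_map_eq ι r hr (shiftPart r x) (constantCoeff_shiftPart r x hlead) P ?_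
  rw [hx]
  exact hP

theorem coeffMap_injective {K : Type*} [CommRing K] (ι : K →+* L) (hι : Function.Injective ι) :
    Function.Injective (coeffMap ι) := by
  intro x y hxy
  ext k
  apply hι
  rw [← coeffMap_coeff, ← coeffMap_coeff, hxy]

/-- **Descent, final ring hom form.** If `P(ι x) = ι E` with `E` over `K` and `ι` injective then
`P = p.map ι` with `E = p(x)`. -/
theorem exists_aeval_eq {K : Type*} [CommRing K] (ι : K →+* L) (hι : Function.Injective ι)
    (r : ℕ) (hr : 0 < r) (x : LaurentSeries K) (hlow : ∀ n : ℤ, n < -(r : ℤ) → x.coeff n = 0)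
    (hlead : x.coeff (-(r : ℤ)) = 1) (P : L[X]) (E : LaurentSeries K)
    (h : aeval (coeffMap ι x) P = coeffMap ι E) : ∃ p : K[X], p.map ι = P ∧ aeval x p = E := by
  obtain ⟨p, hp⟩ := exists_map_eq ι r hr x hlow hlead P (fun n => by
    rw [h, coeffMap_coeff]; exact ⟨_, rfl⟩)
  refine ⟨p, hp, ?_⟩
  apply coeffMap_injective ι hι
  rw [lor_coeffMap_aeval, hp, h]

/-- `aeval` at a Laurent series with a pole of exact order `r > 0` and leading coefficient `1`
is injective, over any commutative ring: `x` is transcendental. -/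
theorem aeval_injective (r : ℕ) (hr : 0 < r) (x : LaurentSeries L)
    (hlow : ∀ n : ℤ, n < -(r : ℤ) → x.coeff n = 0) (hlead : x.coeff (-(r : ℤ)) = 1) :
    Function.Injective (aeval (R := L) x) := by
  rw [injective_iff_map_eq_zero]
  intro P hP
  by_contra hne
  have hx := laurentOf_shiftPart r x hlow
  have h1 := lor_coeff_aeval r hr (shiftPart r x) (constantCoeff_shiftPart r x hlead) P
    P.natDegree le_rfl
  rw [hx, hP, HahnSeries.coeff_zero] at h1
  exact hne (leadingCoeff_eq_zero.mp h1.symm)

end OneVar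

/-! ### Two variables: `Φ ∈ L[Y][X]`, coefficientwise in `X` -/

section TwoVar

variable {L : Type*} [CommRing L]

/-- **Two-variable descent, subring form.** If for every `k` all coefficients of the Laurent series
`(Φ.coeff k)(x)` lie in `S`, then all coefficients of `Φ` lie in `S`. -/
theorem coeff_coeff_mem_of_aeval_mem (S : Subring L) (r : ℕ) (hr : 0 < r) (x : LaurentSeries L)
    (hlow : ∀ n : ℤ, n < -(r : ℤ) → x.coeff n = 0) (hlead : x.coeff (-(r : ℤ)) = 1)
    (hxS : ∀ n : ℤ, x.coeff n ∈ S) (Φ : L[X][X])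
    (hΦ : ∀ (k : ℕ) (n : ℤ), (aeval x (Φ.coeff k)).coeff n ∈ S) :
    ∀ k i, (Φ.coeff k).coeff i ∈ S :=
  fun k => coeff_mem_of_aeval_mem S r hr x hlow hlead hxS (Φ.coeff k) (hΦ k)

/-- The same, stated with `Φ.map (aeval x)`, the polynomial over Laurent series obtained by
substituting `Y := x`. -/
theorem coeff_coeff_mem_of_map_aeval_mem (S : Subring L) (r : ℕ) (hr : 0 < r)
    (x : LaurentSeries L)
    (hlow : ∀ n : ℤ, n < -(r : ℤ) → x.coeff n = 0) (hlead : x.coeff (-(r : ℤ)) = 1)
    (hxS : ∀ n : ℤ, x.coeff n ∈ S) (Φ : L[X][X])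
    (hΦ : ∀ (k : ℕ) (n : ℤ), ((Φ.map (aeval (R := L) x).toRingHom).coeff k).coeff n ∈ S) :
    ∀ k i, (Φ.coeff k).coeff i ∈ S := by
  refine coeff_coeff_mem_of_aeval_mem S r hr x hlow hlead hxS Φ fun k n => ?_
  have := hΦ k n
  rwa [Polynomial.coeff_map] at this

/-- **Two-variable descent, ring hom form.** `Φ ∈ L[Y][X]`; if every `X`-coefficient of
`Φ(X, ι x)` is `ι` of a Laurent series over `K` (namely of `G.coeff k`, `G ∈ K((q))[X]`), then
`Φ = Ψ.map (mapRingHom ι)` with `Ψ ∈ K[Y][X]` and `Ψ(X, x) = G`. -/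
theorem exists_map_mapRingHom_eq {K : Type*} [CommRing K] (ι : K →+* L)
    (hι : Function.Injective ι) (r : ℕ) (hr : 0 < r) (x : LaurentSeries K)
    (hlow : ∀ n : ℤ, n < -(r : ℤ) → x.coeff n = 0) (hlead : x.coeff (-(r : ℤ)) = 1)
    (Φ : L[X][X]) (G : (LaurentSeries K)[X])
    (h : Φ.map (aeval (R := L) (coeffMap ι x)).toRingHom = G.map (coeffMap ι)) :
    ∃ Ψ : K[X][X], Ψ.map (Polynomial.mapRingHom ι) = Φ ∧
      Ψ.map (aeval (R := K) x).toRingHom = G := by
  have hk : ∀ k : ℕ, ∃ p : K[X], p.map ι = Φ.coeff k ∧ aeval x p = G.coeff k := by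
    intro k
    refine exists_aeval_eq ι hι r hr x hlow hlead (Φ.coeff k) (G.coeff k) ?_
    have := congrArg (fun Q => Q.coeff k) h
    simpa [Polynomial.coeff_map] using this
  choose p hp1 hp2 using hk
  refine ⟨∑ k ∈ Finset.range (Φ.natDegree + 1), Polynomial.C (p k) * Polynomial.X ^ k, ?_, ?_⟩
  · ext k : 1
    rw [Polynomial.coeff_map, Polynomial.finsetSum_coeff]
    simp only [Polynomial.coeff_C_mul, Polynomial.coeff_X_pow]
    by_cases hkd : k < Φ.natDegree + 1
    · rw [Finset.sum_eq_single k]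
      · simp [hp1]
      · intro b _ hb
        simp [Ne.symm hb]
      · intro hk'
        exact absurd (Finset.mem_range.mpr hkd) hk'
    · rw [Finset.sum_eq_zero]
      · rw [Polynomial.coe_mapRingHom, Polynomial.map_zero,
          Polynomial.coeff_eq_zero_of_natDegree_lt (by omega)]
      · intro b hb
        have : k ≠ b := by
          have := Finset.mem_range.mp hb
          omega
        simp [this]
  · ext k : 1
    rw [Polynomial.coeff_map, Polynomial.finsetSum_coeff]
    simp only [Polynomial.coeff_C_mul, Polynomial.coeff_X_pow]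
    by_cases hkd : k < Φ.natDegree + 1
    · rw [Finset.sum_eq_single k]
      · simp [hp2]
      · intro b _ hb
        simp [Ne.symm hb]
      · intro hk'
        exact absurd (Finset.mem_range.mpr hkd) hk'
    · rw [Finset.sum_eq_zero]
      · have h0 : Φ.coeff k = 0 := Polynomial.coeff_eq_zero_of_natDegree_lt (by omega)
        have h2 := hp2 k
        have h1 := hp1 k
        rw [h0] at h1
        have hpk : p k = 0 := Polynomial.map_injective ι hι (by rw [h1, Polynomial.map_zero])
        rw [← h2, hpk]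
        simp
      · intro b hb
        have : k ≠ b := by
          have := Finset.mem_range.mp hb
          omega
        simp [this]

end TwoVar

/-! ### The instances `jqModC R` and `qExpand R N (jqModC R)` -/

section Instances

variable (R : Type*) [CommRing R]

theorem jqModC_eq_laurentOf : jqModC R = laurentOf 1 (jNum.map (Int.castRingHom R)) := by
  rw [jqModC, laurentOf]
  norm_num

theorem coeff_jqModC (n : ℤ) :
    (jqModC R).coeff n
      = if 0 ≤ n + 1 then ((PowerSeries.coeff (n + 1).toNat jNum : ℤ) : R) else 0 := by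
  rw [jqModC_eq_laurentOf, lor_laurentOf_coeff]
  simp only [Nat.cast_one]
  split_ifs with h
  · rw [PowerSeries.coeff_map]; rfl
  · rfl

theorem jqModC_low : ∀ n : ℤ, n < -((1 : ℕ) : ℤ) → (jqModC R).coeff n = 0 := by
  intro n hn
  rw [coeff_jqModC, if_neg]
  push_cast at hn
  omega

theorem jqModC_lead : (jqModC R).coeff (-((1 : ℕ) : ℤ)) = 1 := by
  rw [coeff_jqModC, if_pos (by simp)]
  have : (-((1 : ℕ) : ℤ) + 1).toNat = 0 := by simp
  rw [this, PowerSeries.coeff_zero_eq_constantCoeff_apply, constantCoeff_jNum]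
  simp

/-- The coefficients of `jqModC R` are integers: they lie in every subring. -/
theorem jqModC_coeff_mem (S : Subring R) (n : ℤ) : (jqModC R).coeff n ∈ S := by
  rw [coeff_jqModC]
  split_ifs
  · exact intCast_mem S _
  · exact S.zero_mem

variable (N : ℕ) [NeZero N]

theorem qExpand_jqModC_low :
    ∀ n : ℤ, n < -((N : ℕ) : ℤ) → (qExpand R N (jqModC R)).coeff n = 0 := by
  intro n hn
  by_cases hd : (N : ℤ) ∣ n
  · obtain ⟨m, rfl⟩ := hd
    rw [qExpand_coeff_mul]
    apply jqModC_low
    have hN : (0 : ℤ) < N := by exact_mod_cast Nat.pos_of_ne_zero (NeZero.ne N)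
    push_cast
    by_contra hm
    push Not at hm
    have : -(N : ℤ) ≤ (N : ℤ) * m := by nlinarith
    omega
  · exact qExpand_coeff_of_not_dvd N _ hd

theorem qExpand_jqModC_lead : (qExpand R N (jqModC R)).coeff (-((N : ℕ) : ℤ)) = 1 := by
  have h : -((N : ℕ) : ℤ) = (N : ℤ) * (-((1 : ℕ) : ℤ)) := by push_cast; ring
  rw [h, qExpand_coeff_mul, jqModC_lead]

theorem qExpand_jqModC_coeff_mem (S : Subring R) (n : ℤ) :
    (qExpand R N (jqModC R)).coeff n ∈ S := by
  by_cases hd : (N : ℤ) ∣ n
  · obtain ⟨m, rfl⟩ := hd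
    rw [qExpand_coeff_mul]
    exact jqModC_coeff_mem R S m
  · rw [qExpand_coeff_of_not_dvd N _ hd]
    exact S.zero_mem

end Instances

/-! ### Ready-made corollaries for `j` -/

section ForJ

variable {L : Type*} [CommRing L]

/-- `P(j) ∈ S((q))` implies `P ∈ S[Y]`, for any subring `S` of any commutative ring. -/
theorem coeff_mem_of_aeval_jqModC_mem (S : Subring L) (P : L[X])
    (hP : ∀ n : ℤ, (aeval (jqModC L) P).coeff n ∈ S) : ∀ i, P.coeff i ∈ S :=
  coeff_mem_of_aeval_mem S 1 one_pos (jqModC L) (jqModC_low L) (jqModC_lead L)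
    (jqModC_coeff_mem L S) P hP

/-- `P(j(q^N)) ∈ S((q))` implies `P ∈ S[Y]`. -/
theorem coeff_mem_of_aeval_qExpand_jqModC_mem (S : Subring L) (N : ℕ) [NeZero N] (P : L[X])
    (hP : ∀ n : ℤ, (aeval (qExpand L N (jqModC L)) P).coeff n ∈ S) : ∀ i, P.coeff i ∈ S :=
  coeff_mem_of_aeval_mem S N (Nat.pos_of_ne_zero (NeZero.ne N)) _ (qExpand_jqModC_low L N)
    (qExpand_jqModC_lead L N) (qExpand_jqModC_coeff_mem L N S) P hP

/-- If `P(j) = ι E` (`P ∈ L[Y]`, `E ∈ K((q))`, `ι : K → L` injective) then `P = p.map ι` and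
`p(j) = E`. -/
theorem exists_aeval_jqModC_eq {K : Type*} [CommRing K] (ι : K →+* L)
    (hι : Function.Injective ι) (P : L[X]) (E : LaurentSeries K)
    (h : aeval (jqModC L) P = coeffMap ι E) : ∃ p : K[X], p.map ι = P ∧ aeval (jqModC K) p = E := by
  refine exists_aeval_eq ι hι 1 one_pos (jqModC K) (jqModC_low K) (jqModC_lead K) P E ?_
  rw [coeffMap_jqModC]
  exact h

/-- If `P(j(q^N)) = ι E` then `P = p.map ι` and `p(j(q^N)) = E`. -/
theorem exists_aeval_qExpand_jqModC_eq {K : Type*} [CommRing K] (ι : K →+* L)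
    (hι : Function.Injective ι) (N : ℕ) [NeZero N] (P : L[X]) (E : LaurentSeries K)
    (h : aeval (qExpand L N (jqModC L)) P = coeffMap ι E) :
    ∃ p : K[X], p.map ι = P ∧ aeval (qExpand K N (jqModC K)) p = E := by
  refine exists_aeval_eq ι hι N (Nat.pos_of_ne_zero (NeZero.ne N)) _ (qExpand_jqModC_low K N)
    (qExpand_jqModC_lead K N) P E ?_
  have : coeffMap ι (qExpand K N (jqModC K)) = qExpand L N (jqModC L) := by
    have := coeffMap_jqNModC ι N
    simpa [jqNModC] using this
  rw [this]
  exact h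

/-- `j` is transcendental over any commutative ring: `aeval (jqModC L)` is injective. -/
theorem aeval_jqModC_injective : Function.Injective (aeval (R := L) (jqModC L)) :=
  aeval_injective 1 one_pos (jqModC L) (jqModC_low L) (jqModC_lead L)

theorem aeval_qExpand_jqModC_injective (N : ℕ) [NeZero N] :
    Function.Injective (aeval (R := L) (qExpand L N (jqModC L))) :=
  aeval_injective N (Nat.pos_of_ne_zero (NeZero.ne N)) _ (qExpand_jqModC_low L N)
    (qExpand_jqModC_lead L N)

end ForJ

end Fermat.Agent.IG.AN.IntDescent16
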