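/-
Program G (S28, Igusa), chapter IG/AN — helper26.

Root identifications for the modular polynomial of level `N` in the interface language of
`X0/Iface.lean` (`(D : RealizeData N) (C : CuspData N D)`, `T γ` = `q_N`-expansion of `Θ u ∘ γ`):

* `T_S_jN`    : `T_S (j_N) = j(t)`            (`j(N · S z) = j(z / N)`; `t = q_N`);
* `T_one_jN`  : `T_1 (j_N) = j(t^{N²})`;
* `T_mul_left`: `T_{γ₀ γ} u = T_γ u` for `γ₀ ∈ Γ₀(N)`, `u ∈ R`;
* `T_eq_S_of_mem` : `T_γ u = T_S u` whenever `γ S⁻¹ ∈ Γ₀(N)` (so the factor of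
  `∏_x (X - T_{(rep x)⁻¹} j_N)` at the coset of `S⁻¹` is `X - j(t)` whatever `rep` is).
-/
import Fermat.Agent.X0.Integrality

set_option autoImplicit false
set_option linter.unusedSectionVars false

open ModularCurve UpperHalfPlane
open scoped MatrixGroups

noncomputable section

namespace Fermat.Agent.IG.AN.RootS26

open Fermat.Agent.X0 Fermat.Agent.X0.Analytic

variable (N : ℕ) [NeZero N]

/-- `N · S (N z) = S z` on the upper half plane. -/
theorem scaleH_S_scaleH (z : ℍ) :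
    scaleH N (ModularGroup.S • scaleH N z) = ModularGroup.S • z := by
  apply UpperHalfPlane.ext
  rw [coe_scaleH, UpperHalfPlane.modular_S_smul, UpperHalfPlane.modular_S_smul]
  show (N : ℂ) * (-((scaleH N z : ℍ) : ℂ))⁻¹ = (-(z : ℂ))⁻¹
  rw [coe_scaleH]
  have hN : (N : ℂ) ≠ 0 := by exact_mod_cast NeZero.ne N
  have hz : (z : ℂ) ≠ 0 := UpperHalfPlane.ne_zero z
  field_simp

/-- `j(N · S (N z)) = j(z)`. -/
theorem jdFun_S_scaleH (z : ℍ) : jdFun N (ModularGroup.S • scaleH N z) = jFun z := by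
  show jFun (scaleH N (ModularGroup.S • scaleH N z)) = jFun z
  rw [scaleH_S_scaleH, jFun_smul]

/-- `N · (N z) = (N N) z`. -/
theorem scaleH_scaleH (z : ℍ) : scaleH N (scaleH N z) = scaleH (N * N) z := by
  apply UpperHalfPlane.ext
  rw [coe_scaleH, coe_scaleH, coe_scaleH]
  push_cast
  ring

variable (D : RealizeData N) (C : CuspData N D)

/-- `toC jqK = j` over `ℂ`. -/
theorem toC_jqK : toC jqK = jqModC ℂ := toC_coeffEmb_jq

/-- **`T_S (j_N) = j(t)`**: the `q_N`-expansion of `z ↦ j(N · S z) = j(z / N)` is `j(q_N)`. -/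
theorem T_S_jN : C.T ModularGroup.S (jdF N N dvd_rfl) = jqK := by
  have h1 : ((jdR N N dvd_rfl : Rsub N) : FF N) = jdF N N dvd_rfl := rfl
  rw [← h1]
  apply intg_T_eq_of_qn
  rw [D.jd_eq N dvd_rfl, toC_jqK]
  have hfun : (fun z => compSL (jdFun N) ModularGroup.S (scaleH N z)) = jFun := by
    funext z
    exact jdFun_S_scaleH N z
  show HasQExp (jqModC ℂ) (fun z => compSL (jdFun N) ModularGroup.S (scaleH N z))
  rw [hfun]
  exact hasQExp_jqModC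

/-- **`T_1 (j_N) = j(t^{N²})`**. -/
theorem T_one_jN : C.T 1 (jdF N N dvd_rfl) = qExpand Kbar (N * N) jqK := by
  have h1 : ((jdR N N dvd_rfl : Rsub N) : FF N) = jdF N N dvd_rfl := rfl
  rw [← h1]
  apply intg_T_eq_of_qn
  rw [D.jd_eq N dvd_rfl, intg_toC_jN]
  have hfun : (fun z => compSL (jdFun N) 1 (scaleH N z)) = fun z => jFun (scaleH (N * N) z) := by
    funext z
    show jFun (scaleH N ((1 : SL(2, ℤ)) • scaleH N z)) = jFun (scaleH (N * N) z)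
    rw [one_smul, scaleH_scaleH]
  show HasQExp (qExpand ℂ (N * N) (jqModC ℂ)) (fun z => compSL (jdFun N) 1 (scaleH N z))
  rw [hfun]
  exact hasQExp_jqModC.qExpand (N * N)

/-- `T_{γ₀ γ} u = T_γ u` for `γ₀ ∈ Γ₀(N)` and `u ∈ R = ℚbar[j_d]`. -/
theorem T_mul_left (γ₀ γ : SL(2, ℤ)) (hγ₀ : γ₀ ∈ CongruenceSubgroup.Gamma0 N) (u : Rsub N) :
    C.T (γ₀ * γ) (u : FF N) = C.T γ (u : FF N) := by
  apply intg_T_eq_of_qn
  have hfun : compSL (D.Θ u) (γ₀ * γ) = compSL (D.Θ u) γ := by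
    funext z
    show D.Θ u ((γ₀ * γ) • z) = D.Θ u (γ • z)
    rw [mul_smul]
    exact congrFun (D.invariant u γ₀ hγ₀) (γ • z)
  rw [hfun]
  exact intg_T_spec N D C γ u

/-- `T_γ u = T_S u` whenever `γ S⁻¹ ∈ Γ₀(N)`. -/
theorem T_eq_S_of_mem (γ : SL(2, ℤ)) (hγ : γ * ModularGroup.S⁻¹ ∈ CongruenceSubgroup.Gamma0 N)
    (u : Rsub N) : C.T γ (u : FF N) = C.T ModularGroup.S (u : FF N) := by
  have h := T_mul_left N D C (γ * ModularGroup.S⁻¹) ModularGroup.S hγ u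
  rwa [inv_mul_cancel_right] at h

/-- For ANY system of coset representatives, the factor at the coset of `S⁻¹` of
`∏_x (X - T_{(rep x)⁻¹} j_N)` is `X - j(t)`. -/
theorem T_rep_inv_S_jN (rep : SL(2, ℤ) ⧸ CongruenceSubgroup.Gamma0 N → SL(2, ℤ))
    (hrep : ∀ x, (rep x : SL(2, ℤ) ⧸ CongruenceSubgroup.Gamma0 N) = x) :
    C.T (rep ((ModularGroup.S⁻¹ : SL(2, ℤ)) : SL(2, ℤ) ⧸ CongruenceSubgroup.Gamma0 N))⁻¹
      (jdF N N dvd_rfl) = jqK := by
  have hmem : (ModularGroup.S⁻¹ : SL(2, ℤ))⁻¹ *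
      rep ((ModularGroup.S⁻¹ : SL(2, ℤ)) : SL(2, ℤ) ⧸ CongruenceSubgroup.Gamma0 N)
        ∈ CongruenceSubgroup.Gamma0 N := QuotientGroup.eq.mp (hrep _).symm
  have hmem' : (rep ((ModularGroup.S⁻¹ : SL(2, ℤ)) : SL(2, ℤ) ⧸ CongruenceSubgroup.Gamma0 N))⁻¹ *
      ModularGroup.S⁻¹ ∈ CongruenceSubgroup.Gamma0 N := by
    have := inv_mem hmem
    rwa [mul_inv_rev, inv_inv] at this
  have h1 : ((jdR N N dvd_rfl : Rsub N) : FF N) = jdF N N dvd_rfl := rfl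
  rw [← h1, T_eq_S_of_mem N D C _ hmem' (jdR N N dvd_rfl), h1]
  exact T_S_jN N D C

/-- Likewise the factor at the trivial coset is `X - j(t^{N²})`. -/
theorem T_rep_inv_one_jN (rep : SL(2, ℤ) ⧸ CongruenceSubgroup.Gamma0 N → SL(2, ℤ))
    (hrep : ∀ x, (rep x : SL(2, ℤ) ⧸ CongruenceSubgroup.Gamma0 N) = x) :
    C.T (rep ((1 : SL(2, ℤ)) : SL(2, ℤ) ⧸ CongruenceSubgroup.Gamma0 N))⁻¹
      (jdF N N dvd_rfl) = qExpand Kbar (N * N) jqK := by
  have hmem : (1 : SL(2, ℤ))⁻¹ *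
      rep ((1 : SL(2, ℤ)) : SL(2, ℤ) ⧸ CongruenceSubgroup.Gamma0 N)
        ∈ CongruenceSubgroup.Gamma0 N := QuotientGroup.eq.mp (hrep _).symm
  have hmem' : (rep ((1 : SL(2, ℤ)) : SL(2, ℤ) ⧸ CongruenceSubgroup.Gamma0 N))⁻¹
      ∈ CongruenceSubgroup.Gamma0 N := by
    have := inv_mem hmem
    rwa [inv_one, one_mul] at this
  have h1 : ((jdR N N dvd_rfl : Rsub N) : FF N) = jdF N N dvd_rfl := rfl
  have h2 := T_mul_left N D C _ 1 hmem' (jdR N N dvd_rfl)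
  rw [mul_one] at h2
  rw [← h1, h2, h1]
  exact T_one_jN N D C

end Fermat.Agent.IG.AN.RootS26
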