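/-
Program G (S28, Igusa), chapter IG/AN — helper26.

**The modular polynomial of level `N` over `ℚbar`, with both vanishing identities.**

* `exists_pack` : for an interface pair `(D, C)`, coset representatives `rep` and `u ∈ R`:
  `∏_x (X - T_{(rep x)⁻¹} u) = Φ.map (T_1 ∘ aeval j)` for a monic `Φ ∈ ℚbar[Y][X]` of `X`-degree
  `#(SL₂(ℤ)/Γ₀(N))` (packaging of `X0.integrality`);
* `exists_modPolyBar N` : a monic `Φ ∈ ℚbar[Y][X]` of `X`-degree `ψ(N)` with
  `Φ(X := j(q^N); Y := j(q)) = 0` and `Φ(X := j(q); Y := j(q^N)) = 0` in `ℚbar((q))`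
  (the factors of the product at the cosets of `1` and of `S⁻¹`, `RootS26`).
-/
import Fermat.Agent.IG.AN.RootS26
import Fermat.Agent.X0.Degree
import Fermat.Agent.X0.CuspExpand

set_option autoImplicit false
set_option linter.unusedSectionVars false

open ModularCurve UpperHalfPlane Polynomial
open scoped MatrixGroups

noncomputable section

namespace Fermat.Agent.IG.AN.ModPolyBar26

open Fermat.Agent.X0 Fermat.Agent.X0.Analytic

section Generic

variable {A B : Type*} [CommRing A] [CommRing B]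

/-- Packaging: a monic polynomial of degree `n` over `B` all of whose coefficients are in the
range of `φ : A →+* B` is the image of a monic polynomial of degree `n` over `A`. -/
theorem exists_monic_map_eq (φ : A →+* B) [Nontrivial A] (P : B[X]) (hP : P.Monic)
    (h : ∀ k, ∃ a : A, P.coeff k = φ a) :
    ∃ Φ : A[X], Φ.Monic ∧ Φ.natDegree = P.natDegree ∧ Φ.map φ = P := by
  classical
  choose a ha using h
  set n := P.natDegree with hn
  set Q : A[X] := ∑ k ∈ Finset.range n, C (a k) * X ^ k with hQ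
  have hQcoeff : ∀ m, Q.coeff m = if m < n then a m else 0 := by
    intro m
    rw [hQ, Polynomial.finsetSum_coeff]
    simp only [Polynomial.coeff_C_mul_X_pow]
    by_cases hm : m < n
    · rw [if_pos hm, Finset.sum_eq_single m]
      · rw [if_pos rfl]
      · intro b _ hb
        rw [if_neg (Ne.symm hb)]
      · intro hm'
        exact absurd (Finset.mem_range.mpr hm) hm'
    · rw [if_neg hm, Finset.sum_eq_zero]
      intro b hb
      rw [if_neg]
      intro hmb
      rw [hmb] at hm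
      exact hm (Finset.mem_range.mp hb)
  have hQdeg : Q.degree < (n : WithBot ℕ) := by
    rw [Polynomial.degree_lt_iff_coeff_zero]
    intro m hm
    rw [hQcoeff, if_neg (by omega)]
  have hnat : (X ^ n + Q).natDegree = n := by
    rw [Polynomial.natDegree_add_eq_left_of_degree_lt, Polynomial.natDegree_X_pow]
    rw [Polynomial.degree_X_pow]
    exact hQdeg
  refine ⟨X ^ n + Q, Polynomial.monic_X_pow_add hQdeg, hnat, ?_⟩
  ext k
  rw [Polynomial.coeff_map, Polynomial.coeff_add, Polynomial.coeff_X_pow, hQcoeff]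
  rcases lt_trichotomy k n with hk | hk | hk
  · rw [if_neg hk.ne, zero_add, if_pos hk, ← ha k]
  · rw [if_pos hk, if_neg (by omega), add_zero, map_one, hk]
    exact hP.coeff_natDegree.symm
  · rw [if_neg hk.ne', zero_add, if_neg (by omega), map_zero]
    exact (Polynomial.coeff_eq_zero_of_natDegree_lt hk).symm

end Generic

section Pack

variable (N : ℕ) [NeZero N] (D : RealizeData N) (C : CuspData N D)

/-- The evaluation hom `ℚbar[Y] → ℚbar((t))`, `Y ↦ j(t^N)`, is `T_1 ∘ (Y ↦ j)`. -/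
theorem T_one_comp_aeval :
    (C.T 1).comp ((Polynomial.aeval (jF N)).toRingHom : Kbar[X] →+* FF N) =
      ((Polynomial.aeval (qExpand Kbar N jqK)).toRingHom : Kbar[X] →+* LaurentSeries Kbar) := by
  refine RingHom.ext fun p => ?_
  exact intg_T_aeval_jF N D C 1 p

/-- **Packaging of `X0.integrality`**: the product over the cosets is the image of ONE monic
bivariate polynomial of exact `X`-degree `#(SL₂(ℤ)/Γ₀(N))`. -/
theorem exists_pack [Fintype (SL(2, ℤ) ⧸ CongruenceSubgroup.Gamma0 N)]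
    (rep : SL(2, ℤ) ⧸ CongruenceSubgroup.Gamma0 N → SL(2, ℤ))
    (hrep : ∀ x, (rep x : SL(2, ℤ) ⧸ CongruenceSubgroup.Gamma0 N) = x) (u : Rsub N) :
    ∃ Φ : Polynomial (Polynomial Kbar), Φ.Monic ∧
      Φ.natDegree = Fintype.card (SL(2, ℤ) ⧸ CongruenceSubgroup.Gamma0 N) ∧
      Φ.map ((Polynomial.aeval (qExpand Kbar N jqK)).toRingHom :
          Kbar[X] →+* LaurentSeries Kbar) =
        ∏ x, (X - Polynomial.C (C.T (rep x)⁻¹ (u : FF N))) := by
  have hmonic : (∏ x, (X - Polynomial.C (C.T (rep x)⁻¹ (u : FF N)))).Monic :=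
    Polynomial.monic_prod_of_monic _ _ fun x _ => Polynomial.monic_X_sub_C _
  have hdeg : (∏ x, (X - Polynomial.C (C.T (rep x)⁻¹ (u : FF N)))).natDegree =
      Fintype.card (SL(2, ℤ) ⧸ CongruenceSubgroup.Gamma0 N) := by
    rw [Polynomial.natDegree_prod_of_monic _ _ fun x _ => Polynomial.monic_X_sub_C _]
    simp
  obtain ⟨Φ, hΦ1, hΦ2, hΦ3⟩ := exists_monic_map_eq
    ((Polynomial.aeval (qExpand Kbar N jqK)).toRingHom : Kbar[X] →+* LaurentSeries Kbar)
    _ hmonic (fun k => by
      obtain ⟨p, hp, -⟩ := integrality N D C rep hrep u k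
      refine ⟨p, ?_⟩
      rw [hp, ← T_one_comp_aeval N D C]
      rfl)
  exact ⟨Φ, hΦ1, hΦ2.trans hdeg, hΦ3⟩

/-- Every `T_{(rep x₀)⁻¹} u` is a root of the packaged polynomial. -/
theorem eval₂_pack_eq_zero [Fintype (SL(2, ℤ) ⧸ CongruenceSubgroup.Gamma0 N)]
    (rep : SL(2, ℤ) ⧸ CongruenceSubgroup.Gamma0 N → SL(2, ℤ)) (u : Rsub N)
    (Φ : Polynomial (Polynomial Kbar))
    (hΦ : Φ.map ((Polynomial.aeval (qExpand Kbar N jqK)).toRingHom :
          Kbar[X] →+* LaurentSeries Kbar) =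
        ∏ x, (X - Polynomial.C (C.T (rep x)⁻¹ (u : FF N))))
    (x₀ : SL(2, ℤ) ⧸ CongruenceSubgroup.Gamma0 N) :
    Φ.eval₂ ((Polynomial.aeval (qExpand Kbar N jqK)).toRingHom :
        Kbar[X] →+* LaurentSeries Kbar) (C.T (rep x₀)⁻¹ (u : FF N)) = 0 := by
  rw [← Polynomial.eval_map, hΦ, Polynomial.eval_prod]
  refine Finset.prod_eq_zero (Finset.mem_univ x₀) ?_
  simp

end Pack

section Main

variable (N : ℕ) [NeZero N]

/-- `q ↦ q^N` composed with `Y ↦ j(q)` is `Y ↦ j(q^N)`. -/
theorem qExpand_comp_aeval :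
    (qExpand Kbar N).comp ((Polynomial.aeval jqK).toRingHom : Kbar[X] →+* LaurentSeries Kbar) =
      ((Polynomial.aeval (qExpand Kbar N jqK)).toRingHom : Kbar[X] →+* LaurentSeries Kbar) := by
  refine Polynomial.ringHom_ext (fun c => ?_) ?_
  · show qExpand Kbar N (Polynomial.aeval jqK (Polynomial.C c)) =
      Polynomial.aeval (qExpand Kbar N jqK) (Polynomial.C c)
    rw [Polynomial.aeval_C, Polynomial.aeval_C, algebraMap_laurentSeries_eq_single,
      qExpand_single, mul_zero]
  · show qExpand Kbar N (Polynomial.aeval jqK Polynomial.X) =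
      Polynomial.aeval (qExpand Kbar N jqK) Polynomial.X
    rw [Polynomial.aeval_X, Polynomial.aeval_X]

/-- **The modular polynomial of level `N` over `ℚbar`**: monic of `X`-degree `ψ(N)`, with
`Φ(j(q^N); j(q)) = 0` and `Φ(j(q); j(q^N)) = 0`. -/
theorem exists_modPolyBar :
    ∃ Φ : Polynomial (Polynomial Kbar), Φ.Monic ∧ Φ.natDegree = dedekindPsi N ∧
      Φ.eval₂ ((Polynomial.aeval jqK).toRingHom : Kbar[X] →+* LaurentSeries Kbar)
        (qExpand Kbar N jqK) = 0 ∧
      Φ.eval₂ ((Polynomial.aeval (qExpand Kbar N jqK)).toRingHom :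
        Kbar[X] →+* LaurentSeries Kbar) jqK = 0 := by
  haveI : Fintype (SL(2, ℤ) ⧸ CongruenceSubgroup.Gamma0 N) := Fintype.ofFinite _
  obtain ⟨Φ, hΦ1, hΦ2, hΦ3⟩ := exists_pack N (realizeData N) (cuspData N) (Degree.rep N)
    (Degree.rep_spec N) (jdR N N dvd_rfl)
  refine ⟨Φ, hΦ1, ?_, ?_, ?_⟩
  · rw [hΦ2, ← Nat.card_eq_fintype_card, G1Index.g1_card]
  · -- the factor at the trivial coset: `X - j(t^{N²})`, then undo `q ↦ q^N`
    have h := eval₂_pack_eq_zero N (realizeData N) (cuspData N) (Degree.rep N) (jdR N N dvd_rfl)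
      Φ hΦ3 ((1 : SL(2, ℤ)) : SL(2, ℤ) ⧸ CongruenceSubgroup.Gamma0 N)
    have h1 : ((jdR N N dvd_rfl : Rsub N) : FF N) = jdF N N dvd_rfl := rfl
    rw [h1, RootS26.T_rep_inv_one_jN N (realizeData N) (cuspData N) (Degree.rep N)
      (Degree.rep_spec N)] at h
    apply qExpand_injective (R := Kbar) N
    rw [map_zero, Polynomial.hom_eval₂, qExpand_comp_aeval, qExpand_qExpand]
    exact h
  · -- the factor at the coset of `S⁻¹`: `X - j(t)`
    have h := eval₂_pack_eq_zero N (realizeData N) (cuspData N) (Degree.rep N) (jdR N N dvd_rfl)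
      Φ hΦ3 ((ModularGroup.S⁻¹ : SL(2, ℤ)) : SL(2, ℤ) ⧸ CongruenceSubgroup.Gamma0 N)
    have h1 : ((jdR N N dvd_rfl : Rsub N) : FF N) = jdF N N dvd_rfl := rfl
    rw [h1, RootS26.T_rep_inv_S_jN N (realizeData N) (cuspData N) (Degree.rep N)
      (Degree.rep_spec N)] at h
    exact h

end Main

end Fermat.Agent.IG.AN.ModPolyBar26
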