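/-
Program G (S28, Igusa), chapter IG/AN — helper26.  Hedge (E2) of ruling #3 for (P0).

**(P0) over `ℤ` from the hypothesis (E1)** "all conjugates `T_γ(j_N)` have `q_N`-expansion
coefficients in `ℤ[ζ_N]`":

* `exists_modPolyBar_mem` : the modular polynomial `Φ ∈ ℚbar[Y][X]` of `ModPolyBar26` has all
  its coefficients in any subring `S ⊆ ℚbar` containing the coefficients of the `T_γ(j_N)`
  (`IntDescent16` applied to the product form `∏ (X - T_x)`);
* `exists_retraction` : `ℤ[ζ]` (`ζ` integral over `ℤ`) has a `ℤ`-linear retraction `π` onto `ℤ`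
  (coordinate at `ζ^0` of the power basis);
* `descent` : applying `π` coefficientwise to a monic `Φ` with coefficients in `ℤ[ζ]` gives a
  monic `Ψ ∈ ℤ[Y][X]` of the same degree, and every identity `Φ(x; y) = 0` with `x, y ∈ ℤ((q))`
  survives (it is `ℤ`-linear in the coefficients of `Φ`);
* `exists_modPolyInt N hE1`, `p0_of_E1 p hp hE1 : Interface20.P0 p`.
-/
import Fermat.Agent.IG.AN.ModPolyBar26
import Fermat.Agent.IG.AN.IntDescent16
import Fermat.Agent.IG.PR.Interface20
import Fermat.Agent.IG.PR.Counting20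
import Fermat.Agent.X0.RootsK

set_option autoImplicit false
set_option linter.unusedSectionVars false
set_option linter.style.haveILetI false

open ModularCurve UpperHalfPlane Polynomial
open scoped MatrixGroups

noncomputable section

namespace Fermat.Agent.IG.AN.ModPolyInt26

open Fermat.Agent.X0 Fermat.Agent.X0.Analytic Fermat.Agent.IG.PR

section Retraction

variable {K : Type*} [Field K] [CharZero K]

/-- `ℤ[ζ]` has a `ℤ`-linear retraction onto `ℤ`. -/
theorem exists_retraction (ζ : K) (hζ : IsIntegral ℤ ζ) :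
    ∃ π : ↥(Algebra.adjoin ℤ ({ζ} : Set K)) →ₗ[ℤ] ℤ, π 1 = 1 := by
  let pb := Algebra.adjoin.powerBasis' hζ
  have hdim : 0 < pb.dim := pb.dim_pos
  refine ⟨pb.basis.coord ⟨0, hdim⟩, ?_⟩
  have h1 : (1 : ↥(Algebra.adjoin ℤ ({ζ} : Set K))) = pb.basis ⟨0, hdim⟩ := by
    rw [PowerBasis.coe_basis]
    simp
  rw [h1, Module.Basis.coord_apply, Module.Basis.repr_self, Finsupp.single_eq_same]

end Retraction

section CW

variable {R T : Type*} [Semiring R] [Semiring T]

/-- Coefficientwise application of a function to a polynomial. -/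
def cw (c : R → T) (P : R[X]) : T[X] :=
  ∑ i ∈ Finset.range (P.natDegree + 1), monomial i (c (P.coeff i))

theorem coeff_cw (c : R → T) (hc : c 0 = 0) (P : R[X]) (i : ℕ) :
    (cw c P).coeff i = c (P.coeff i) := by
  rw [cw, Polynomial.finsetSum_coeff]
  simp only [Polynomial.coeff_monomial]
  by_cases hi : i < P.natDegree + 1
  · rw [Finset.sum_eq_single i]
    · rw [if_pos rfl]
    · intro b _ hb
      rw [if_neg hb]
    · intro hi'
      exact absurd (Finset.mem_range.mpr hi) hi'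
  · rw [Finset.sum_eq_zero, Polynomial.coeff_eq_zero_of_natDegree_lt (by omega), hc]
    intro b hb
    rw [if_neg]
    intro hbi
    rw [hbi] at hb
    exact hi (Finset.mem_range.mp hb)

theorem cw_zero (c : R → T) (hc : c 0 = 0) : cw c (0 : R[X]) = 0 := by
  ext i
  rw [coeff_cw c hc, Polynomial.coeff_zero, hc, Polynomial.coeff_zero]

theorem cw_one (c : R → T) (hc : c 0 = 0) (hc1 : c 1 = 1) : cw c (1 : R[X]) = 1 := by
  ext i
  rw [coeff_cw c hc, Polynomial.coeff_one, Polynomial.coeff_one]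
  split_ifs
  · exact hc1
  · exact hc

theorem natDegree_cw_le (c : R → T) (hc : c 0 = 0) (P : R[X]) :
    (cw c P).natDegree ≤ P.natDegree := by
  rw [Polynomial.natDegree_le_iff_coeff_eq_zero]
  intro i hi
  rw [coeff_cw c hc, Polynomial.coeff_eq_zero_of_natDegree_lt hi, hc]

end CW

section CW2

variable {R T : Type*} [Semiring R] [Semiring T] [Nontrivial T]

theorem coeff_cw_cw (c : R → T) (hc : c 0 = 0) (Φ : R[X][X]) (k i : ℕ) :
    ((cw (cw c) Φ).coeff k).coeff i = c ((Φ.coeff k).coeff i) := by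
  rw [coeff_cw (cw c) (cw_zero c hc), coeff_cw c hc]

theorem natDegree_cw_cw (c : R → T) (hc : c 0 = 0) (hc1 : c 1 = 1) (Φ : R[X][X])
    (hΦ : Φ.Monic) : (cw (cw c) Φ).natDegree = Φ.natDegree := by
  refine le_antisymm (natDegree_cw_le _ (cw_zero c hc) Φ) ?_
  apply Polynomial.le_natDegree_of_ne_zero
  rw [coeff_cw (cw c) (cw_zero c hc), hΦ.coeff_natDegree, cw_one c hc hc1]
  exact one_ne_zero

theorem monic_cw_cw (c : R → T) (hc : c 0 = 0) (hc1 : c 1 = 1) (Φ : R[X][X])
    (hΦ : Φ.Monic) : (cw (cw c) Φ).Monic := by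
  rw [Polynomial.Monic, Polynomial.leadingCoeff, natDegree_cw_cw c hc hc1 Φ hΦ,
    coeff_cw (cw c) (cw_zero c hc), hΦ.coeff_natDegree, cw_one c hc hc1]

end CW2

section Eval

variable {R T : Type*} [CommRing R] [CommRing T]

theorem eval₂_eval₂_eq_sum (g : R →+* T) (Φ : R[X][X]) (x y : T) (n B : ℕ)
    (hn : Φ.natDegree < n) (hB : ∀ k, (Φ.coeff k).natDegree < B) :
    Φ.eval₂ (Polynomial.eval₂RingHom g y) x =
      ∑ k ∈ Finset.range n, ∑ i ∈ Finset.range B, g ((Φ.coeff k).coeff i) * (y ^ i * x ^ k) := by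
  rw [Polynomial.eval₂_eq_sum_range' _ hn]
  refine Finset.sum_congr rfl fun k _ => ?_
  rw [Polynomial.coe_eval₂RingHom, Polynomial.eval₂_eq_sum_range' _ (hB k), Finset.sum_mul]
  refine Finset.sum_congr rfl fun i _ => ?_
  ring

theorem exists_bound (Φ : R[X][X]) : ∃ B : ℕ, ∀ k, (Φ.coeff k).natDegree < B := by
  refine ⟨(Finset.range (Φ.natDegree + 1)).sup (fun k => (Φ.coeff k).natDegree) + 1, fun k => ?_⟩
  by_cases hk : k < Φ.natDegree + 1
  · exact Nat.lt_succ_of_le (Finset.le_sup (f := fun k => (Φ.coeff k).natDegree)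
      (Finset.mem_range.mpr hk))
  · rw [Polynomial.coeff_eq_zero_of_natDegree_lt (by omega), Polynomial.natDegree_zero]
    exact Nat.succ_pos _

end Eval

section Ext0

variable {L : Type*} [Field L] (A : Subalgebra ℤ L) (π : ↥A →ₗ[ℤ] ℤ)

/-- extension by zero of `π : A → ℤ` to `L`. -/
def ext0 (a : L) : ℤ := by
  classical exact if h : a ∈ A then π ⟨a, h⟩ else 0

theorem ext0_of_mem {a : L} (h : a ∈ A) : ext0 A π a = π ⟨a, h⟩ := by
  classical exact dif_pos h

theorem ext0_zero : ext0 A π 0 = 0 := by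
  rw [ext0_of_mem A π A.zero_mem]
  exact map_zero π

theorem ext0_one (h1 : π 1 = 1) : ext0 A π 1 = 1 := by
  rw [ext0_of_mem A π A.one_mem]
  exact h1

theorem ext0_add {a b : L} (ha : a ∈ A) (hb : b ∈ A) :
    ext0 A π (a + b) = ext0 A π a + ext0 A π b := by
  rw [ext0_of_mem A π ha, ext0_of_mem A π hb, ext0_of_mem A π (A.add_mem ha hb), ← map_add]
  rfl

theorem ext0_sum {J : Type*} (s : Finset J) (b : J → L) (hb : ∀ j ∈ s, b j ∈ A) :
    ext0 A π (∑ j ∈ s, b j) = ∑ j ∈ s, ext0 A π (b j) := by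
  classical
  induction s using Finset.induction_on with
  | empty => simp [ext0_zero]
  | insert a s ha ih =>
    rw [Finset.sum_insert ha, Finset.sum_insert ha, ext0_add A π
      (hb a (Finset.mem_insert_self a s))
      (A.sum_mem fun j hj => hb j (Finset.mem_insert_of_mem hj)),
      ih fun j hj => hb j (Finset.mem_insert_of_mem hj)]

theorem mul_intCast_mem {a : L} (h : a ∈ A) (z : ℤ) : a * (z : L) ∈ A :=
  A.mul_mem h (by simp)

theorem ext0_mul_intCast {a : L} (h : a ∈ A) (z : ℤ) :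
    ext0 A π (a * (z : L)) = ext0 A π a * z := by
  rw [ext0_of_mem A π h, ext0_of_mem A π (mul_intCast_mem A h z)]
  have : (⟨a * (z : L), mul_intCast_mem A h z⟩ : A) = z • (⟨a, h⟩ : A) := by
    apply Subtype.ext
    simp [mul_comm]
  rw [this, map_zsmul, smul_eq_mul, mul_comm]

end Ext0

section Descent

variable {L : Type*} [Field L] (A : Subalgebra ℤ L) (π : ↥A →ₗ[ℤ] ℤ)

theorem aeval_toRingHom_eq (Y : LaurentSeries L) :
    ((Polynomial.aeval Y).toRingHom : L[X] →+* LaurentSeries L) =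
      Polynomial.eval₂RingHom (algebraMap L (LaurentSeries L)) Y :=
  RingHom.ext fun _ => rfl

theorem coeff_intCast_mul (c : ℤ) (M : LaurentSeries ℤ) (m : ℤ) :
    (Int.castRingHom (LaurentSeries ℤ) c * M).coeff m = c * M.coeff m := by
  have : Int.castRingHom (LaurentSeries ℤ) c = HahnSeries.C c := by
    rw [eq_intCast, ← map_intCast (HahnSeries.C (Γ := ℤ) (R := ℤ)) c, Int.cast_id]
  rw [this, HahnSeries.C_apply]
  exact HahnSeries.coeff_single_zero_mul

/-- **Descent along a `ℤ`-linear retraction.** -/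
theorem descent (h1 : π 1 = 1) (Φ : L[X][X]) (hΦm : Φ.Monic)
    (hΦA : ∀ k i, (Φ.coeff k).coeff i ∈ A) :
    ∃ Ψ : ℤ[X][X], Ψ.Monic ∧ Ψ.natDegree = Φ.natDegree ∧
      ∀ x y : LaurentSeries ℤ,
        Φ.eval₂ ((Polynomial.aeval (coeffMap (Int.castRingHom L) y)).toRingHom :
          L[X] →+* LaurentSeries L) (coeffMap (Int.castRingHom L) x) = 0 →
        Ψ.eval₂ (Interface20.evalAt ℤ y) x = 0 := by
  have hc0 := ext0_zero A π
  have hc1 := ext0_one A π h1
  refine ⟨cw (cw (ext0 A π)) Φ, monic_cw_cw _ hc0 hc1 Φ hΦm, natDegree_cw_cw _ hc0 hc1 Φ hΦm, ?_⟩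
  intro x y h
  obtain ⟨B, hB⟩ := exists_bound Φ
  rw [aeval_toRingHom_eq, eval₂_eval₂_eq_sum _ Φ _ _ (Φ.natDegree + 1) B (Nat.lt_succ_self _) hB]
    at h
  have hB' : ∀ k, ((cw (cw (ext0 A π)) Φ).coeff k).natDegree < B := by
    intro k
    rw [coeff_cw _ (cw_zero _ hc0)]
    exact lt_of_le_of_lt (natDegree_cw_le _ hc0 _) (hB k)
  have hn' : (cw (cw (ext0 A π)) Φ).natDegree < Φ.natDegree + 1 := by
    rw [natDegree_cw_cw _ hc0 hc1 Φ hΦm]
    exact Nat.lt_succ_self _
  rw [Interface20.evalAt, eval₂_eval₂_eq_sum _ _ _ _ (Φ.natDegree + 1) B hn' hB']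
  ext m
  rw [HahnSeries.coeff_zero, HahnSeries.coeff_sum]
  simp_rw [HahnSeries.coeff_sum, coeff_intCast_mul, coeff_cw_cw _ hc0]
  -- the hypothesis, coefficient `m`
  have hm := congrArg (fun z : LaurentSeries L => z.coeff m) h
  simp only [HahnSeries.coeff_zero, HahnSeries.coeff_sum] at hm
  have hterm : ∀ k i, (algebraMap L (LaurentSeries L) ((Φ.coeff k).coeff i) *
      (coeffMap (Int.castRingHom L) y ^ i * coeffMap (Int.castRingHom L) x ^ k)).coeff m =
      (Φ.coeff k).coeff i * (((y ^ i * x ^ k).coeff m : ℤ) : L) := by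
    intro k i
    rw [algebraMap_laurentSeries_eq_single, ← map_pow, ← map_pow, ← map_mul,
      HahnSeries.coeff_single_zero_mul, coeffMap_coeff]
    rfl
  simp_rw [hterm] at hm
  have := congrArg (ext0 A π) hm
  rw [hc0, ext0_sum A π _ _ (fun k _ => A.sum_mem fun i _ => mul_intCast_mem A (hΦA k i) _)] at this
  rw [← this]
  refine Finset.sum_congr rfl fun k _ => ?_
  rw [ext0_sum A π _ _ (fun i _ => mul_intCast_mem A (hΦA k i) _)]
  refine Finset.sum_congr rfl fun i _ => ?_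
  rw [ext0_mul_intCast A π (hΦA k i)]

end Descent

section CoeffSubring

variable {L : Type*} [CommRing L]

/-- Laurent series all of whose coefficients lie in the subring `S`. -/
def coeffSubring (S : Subring L) : Subring (LaurentSeries L) where
  carrier := {x | ∀ n, x.coeff n ∈ S}
  mul_mem' := by
    intro x y hx hy n
    rw [HahnSeries.coeff_mul]
    exact Subring.sum_mem _ fun ij _ => S.mul_mem (hx _) (hy _)
  one_mem' := by
    intro n
    rw [HahnSeries.coeff_one]
    split_ifs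
    · exact S.one_mem
    · exact S.zero_mem
  add_mem' := by
    intro x y hx hy n
    rw [HahnSeries.coeff_add]
    exact S.add_mem (hx _) (hy _)
  zero_mem' := fun n => by rw [HahnSeries.coeff_zero]; exact S.zero_mem
  neg_mem' := by
    intro x hx n
    rw [HahnSeries.coeff_neg]
    exact S.neg_mem (hx _)

theorem mem_coeffSubring (S : Subring L) (x : LaurentSeries L) :
    x ∈ coeffSubring S ↔ ∀ n, x.coeff n ∈ S := Iff.rfl

/-- The coefficients of `∏ (X - t_x)` lie in any subring containing the `t_x`. -/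
theorem coeff_prod_X_sub_C_mem {B ι : Type*} [CommRing B] (T : Subring B) (s : Finset ι)
    (t : ι → B) (ht : ∀ x, t x ∈ T) (k : ℕ) :
    (∏ x ∈ s, (X - Polynomial.C (t x))).coeff k ∈ T := by
  have h : ∏ x ∈ s, (X - Polynomial.C (t x)) =
      (∏ x ∈ s, (X - Polynomial.C (⟨t x, ht x⟩ : T))).map T.subtype := by
    rw [Polynomial.map_prod]
    refine Finset.prod_congr rfl fun x _ => ?_
    simp
  rw [h, Polynomial.coeff_map]
  exact Subtype.property _

end CoeffSubring

section Main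

variable (N : ℕ) [NeZero N]

/-- The modular polynomial over `ℚbar` of `ModPolyBar26`, with all its coefficients in any
subring `S` containing the coefficients of all conjugates `T_γ(j_N)`. -/
theorem exists_modPolyBar_mem (S : Subring Kbar)
    (hE1 : ∀ (γ : SL(2, ℤ)) (n : ℤ), ((cuspData N).T γ (jdF N N dvd_rfl)).coeff n ∈ S) :
    ∃ Φ : Polynomial (Polynomial Kbar), Φ.Monic ∧ Φ.natDegree = dedekindPsi N ∧
      (∀ k i, (Φ.coeff k).coeff i ∈ S) ∧
      Φ.eval₂ ((Polynomial.aeval jqK).toRingHom : Kbar[X] →+* LaurentSeries Kbar)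
        (qExpand Kbar N jqK) = 0 ∧
      Φ.eval₂ ((Polynomial.aeval (qExpand Kbar N jqK)).toRingHom :
        Kbar[X] →+* LaurentSeries Kbar) jqK = 0 := by
  haveI : Fintype (SL(2, ℤ) ⧸ CongruenceSubgroup.Gamma0 N) := Fintype.ofFinite _
  obtain ⟨Φ, hΦ1, hΦ2, hΦ3⟩ := ModPolyBar26.exists_pack N (realizeData N) (cuspData N)
    (Degree.rep N) (Degree.rep_spec N) (jdR N N dvd_rfl)
  have h1 : ((jdR N N dvd_rfl : Rsub N) : FF N) = jdF N N dvd_rfl := rfl
  refine ⟨Φ, hΦ1, ?_, ?_, ?_, ?_⟩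
  · rw [hΦ2, ← Nat.card_eq_fintype_card, G1Index.g1_card]
  · -- coefficients in `S`
    have hmem : ∀ (k : ℕ) (n : ℤ),
        ((Φ.map (Polynomial.aeval (R := Kbar) (qExpand Kbar N (jqModC Kbar))).toRingHom).coeff
          k).coeff n ∈ S := by
      intro k n
      rw [← jqK_eq_jqModC, hΦ3]
      exact coeff_prod_X_sub_C_mem (coeffSubring S) Finset.univ _
        (fun x => by rw [h1]; exact fun n => hE1 _ n) k n
    exact IntDescent16.coeff_coeff_mem_of_map_aeval_mem S N (Nat.pos_of_ne_zero (NeZero.ne N))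
      _ (IntDescent16.qExpand_jqModC_low Kbar N) (IntDescent16.qExpand_jqModC_lead Kbar N)
      (IntDescent16.qExpand_jqModC_coeff_mem Kbar N S) Φ hmem
  · have h := ModPolyBar26.eval₂_pack_eq_zero N (realizeData N) (cuspData N) (Degree.rep N)
      (jdR N N dvd_rfl) Φ hΦ3 ((1 : SL(2, ℤ)) : SL(2, ℤ) ⧸ CongruenceSubgroup.Gamma0 N)
    rw [h1, RootS26.T_rep_inv_one_jN N (realizeData N) (cuspData N) (Degree.rep N)
      (Degree.rep_spec N)] at h
    apply qExpand_injective (R := Kbar) N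
    rw [map_zero, Polynomial.hom_eval₂, ModPolyBar26.qExpand_comp_aeval, qExpand_qExpand]
    exact h
  · have h := ModPolyBar26.eval₂_pack_eq_zero N (realizeData N) (cuspData N) (Degree.rep N)
      (jdR N N dvd_rfl) Φ hΦ3
      ((ModularGroup.S⁻¹ : SL(2, ℤ)) : SL(2, ℤ) ⧸ CongruenceSubgroup.Gamma0 N)
    rw [h1, RootS26.T_rep_inv_S_jN N (realizeData N) (cuspData N) (Degree.rep N)
      (Degree.rep_spec N)] at h
    exact h

theorem coeffMap_int_jqModC :
    coeffMap (Int.castRingHom Kbar) (jqModC ℤ) = jqK := by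
  rw [coeffMap_jqModC, jqK_eq_jqModC]

theorem coeffMap_int_qExpand_jqModC :
    coeffMap (Int.castRingHom Kbar) (qExpand ℤ N (jqModC ℤ)) = qExpand Kbar N jqK := by
  have := coeffMap_jqNModC (Int.castRingHom Kbar) N
  rw [jqK_eq_jqModC]
  simpa [jqNModC] using this

/-- **The modular polynomial of level `N` over `ℤ`**, from the hypothesis (E1) that all
conjugates of `j_N` have `q_N`-expansion coefficients in `ℤ[ζ_N]`. -/
theorem exists_modPolyInt
    (hE1 : ∀ (γ : SL(2, ℤ)) (n : ℤ),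
      ((cuspData N).T γ (jdF N N dvd_rfl)).coeff n ∈ Subring.closure {zetaK N}) :
    ∃ Ψ : Polynomial (Polynomial ℤ), Ψ.Monic ∧ Ψ.natDegree = dedekindPsi N ∧
      Ψ.eval₂ (Interface20.evalAt ℤ (jqModC ℤ)) (qExpand ℤ N (jqModC ℤ)) = 0 ∧
      Ψ.eval₂ (Interface20.evalAt ℤ (qExpand ℤ N (jqModC ℤ))) (jqModC ℤ) = 0 := by
  set A : Subalgebra ℤ Kbar := Algebra.adjoin ℤ ({zetaK N} : Set Kbar) with hA
  have hle : Subring.closure ({zetaK N} : Set Kbar) ≤ A.toSubring := by
    rw [Subring.closure_le]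
    intro z hz
    rw [Set.mem_singleton_iff] at hz
    rw [hz]
    exact Algebra.subset_adjoin (Set.mem_singleton _)
  obtain ⟨Φ, hΦ1, hΦ2, hΦ3, hΦ4, hΦ5⟩ := exists_modPolyBar_mem N A.toSubring
    (fun γ n => hle (hE1 γ n))
  obtain ⟨π, hπ⟩ := exists_retraction (zetaK N)
    ((isPrimitiveRoot_zetaK N).isIntegral (Nat.pos_of_ne_zero (NeZero.ne N)))
  obtain ⟨Ψ, hΨ1, hΨ2, hΨ3⟩ := descent A π hπ Φ hΦ1 (fun k i => hΦ3 k i)
  refine ⟨Ψ, hΨ1, hΨ2.trans hΦ2, ?_, ?_⟩
  · apply hΨ3
    rw [coeffMap_int_jqModC, coeffMap_int_qExpand_jqModC]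
    exact hΦ4
  · apply hΨ3
    rw [coeffMap_int_jqModC, coeffMap_int_qExpand_jqModC]
    exact hΦ5

/-- **(P0) at prime level**, from (E1). -/
theorem p0_of_E1 (p : ℕ) [NeZero p] (hp : p.Prime)
    (hE1 : ∀ (γ : SL(2, ℤ)) (n : ℤ),
      ((cuspData p).T γ (jdF p p dvd_rfl)).coeff n ∈ Subring.closure {zetaK p}) :
    Interface20.P0 p := by
  obtain ⟨Ψ, h1, h2, h3, h4⟩ := exists_modPolyInt p hE1
  exact ⟨Ψ, h1, h2.trans (Counting20.psi_prime hp), h3, h4⟩

end Main

end Fermat.Agent.IG.AN.ModPolyInt26
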