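/-
Program G (S28, Igusa), chapter IG/AN — helper6.

(E3) THE SYMMETRIC IDENTITY of the modular equation, as a generic lemma.

For any `F ∈ A[Y][X]` (`A` any commutative ring embedding into `ℂ`, e.g. `ℤ`, `ℚ`, `ℚbar`, `ℂ`)
and any level `p ≥ 1` (primality is not needed):

  `F(X := j(q^p), Y := j(q)) = 0`  ⟹  `F(X := j(q), Y := j(q^p)) = 0`   in `A((q))`.

Proof: realise both sides as convergent `q`-expansions (`X0.Analytic.HasQExp`) of the functions
`z ↦ F(j(pz), j(z))` and `z ↦ F(j(z), j(pz))` on the upper half plane; the first vanishes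
identically, and substituting `w = S • (p z)` (`j(w) = j(pz)`, `j(p w) = j(S z) = j(z)`) shows that
the second vanishes identically too; conclude by uniqueness of `q`-expansions.

Exports:
* `ev2 c x y`                : the two–variable evaluation `A[Y][X] →+* B`, `X ↦ x`, `Y ↦ y`;
* `symm_C`                   : the identity over `ℂ`;
* `symm_of_injective`        : the identity over any `A ↪ ℂ`, for any `x` with `coeffMap φ x = j`;
* `symm_jqModC`              : the same for `x = jqModC A`;
* `symm_Kbar`                : the same over `ℚbar` for `x = jqK`;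
* `symm_int`                 : the ℤ-version, LITERALLY in the shape of `Interface20.P0`;
* `p0_of_first`              : `Interface20.P0 p` from a monic `Φ` of degree `p + 1` killing
                               `(j(q^p), j(q))` only.
-/
import Mathlib
import Fermat.Agent.X0.Analytic
import Fermat.Agent.IG.PR.Interface20

set_option autoImplicit false
set_option linter.unusedSectionVars false

open ModularCurve UpperHalfPlane HahnSeries Polynomial
open scoped MatrixGroups

noncomputable section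

namespace Fermat.Agent.IG.AN.SymmIdent6

open Fermat.Agent.X0 Fermat.Agent.X0.Analytic

/-! ### two–variable evaluation -/

section Ev2

variable {A A' B B' : Type*} [CommRing A] [CommRing A'] [CommRing B] [CommRing B']

/-- Two–variable evaluation `A[Y][X] →+* B`: coefficients through `c`, `X ↦ x`, `Y ↦ y`. -/
def ev2 (c : A →+* B) (x y : B) : Polynomial (Polynomial A) →+* B :=
  Polynomial.eval₂RingHom (Polynomial.eval₂RingHom c y) x

theorem ev2_apply (c : A →+* B) (x y : B) (F : Polynomial (Polynomial A)) :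
    ev2 c x y F = F.eval₂ (Polynomial.eval₂RingHom c y) x := rfl

theorem comp_eval₂RingHom (ψ : B →+* B') (c : A →+* B) (y : B) :
    ψ.comp (Polynomial.eval₂RingHom c y) = Polynomial.eval₂RingHom (ψ.comp c) (ψ y) := by
  ext a
  · simp
  · simp

/-- naturality of `ev2` in the target ring. -/
theorem map_ev2 (ψ : B →+* B') (c : A →+* B) (x y : B) (F : Polynomial (Polynomial A)) :
    ψ (ev2 c x y F) = ev2 (ψ.comp c) (ψ x) (ψ y) F := by
  rw [ev2_apply, ev2_apply, Polynomial.hom_eval₂, comp_eval₂RingHom]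

/-- naturality of `ev2` in the coefficient ring. -/
theorem ev2_map (φ : A →+* A') (c : A' →+* B) (x y : B) (F : Polynomial (Polynomial A)) :
    ev2 c x y (F.map (Polynomial.mapRingHom φ)) = ev2 (c.comp φ) x y F := by
  rw [ev2_apply, ev2_apply, Polynomial.eval₂_map]
  congr 1
  ext a
  · simp
  · simp

end Ev2

/-! ### `HasQExp` is closed under polynomial expressions -/

theorem hasQExp_one : HasQExp (1 : LaurentSeries ℂ) (1 : ℍ → ℂ) := by
  have h := HasQExp.const (1 : ℂ)
  rwa [map_one] at h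

theorem hasQExp_zero : HasQExp (0 : LaurentSeries ℂ) (0 : ℍ → ℂ) := by
  have h := HasQExp.const (0 : ℂ)
  rwa [map_zero] at h

theorem hasQExp_pow {f : LaurentSeries ℂ} {g : ℍ → ℂ} (h : HasQExp f g) (n : ℕ) :
    HasQExp (f ^ n) (g ^ n) := by
  induction n with
  | zero => rw [pow_zero, pow_zero]; exact hasQExp_one
  | succ n ih => rw [pow_succ, pow_succ]; exact ih.mul h

theorem hasQExp_eval₂ {A : Type*} [CommRing A] (c : A →+* LaurentSeries ℂ) (c' : A →+* (ℍ → ℂ))
    (hc : ∀ a, HasQExp (c a) (c' a)) {f : LaurentSeries ℂ} {g : ℍ → ℂ} (hfg : HasQExp f g)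
    (P : Polynomial A) : HasQExp (P.eval₂ c f) (P.eval₂ c' g) := by
  induction P using Polynomial.induction_on' with
  | add p q hp hq => rw [Polynomial.eval₂_add, Polynomial.eval₂_add]; exact hp.add hq
  | monomial n a =>
    rw [Polynomial.eval₂_monomial, Polynomial.eval₂_monomial]
    exact (hc a).mul (hasQExp_pow hfg n)

/-- `HasQExp` for two–variable polynomial expressions. -/
theorem hasQExp_ev2 {fx fy : LaurentSeries ℂ} {gx gy : ℍ → ℂ} (hx : HasQExp fx gx)
    (hy : HasQExp fy gy) (F : Polynomial (Polynomial ℂ)) :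
    HasQExp (ev2 (HahnSeries.C : ℂ →+* LaurentSeries ℂ) fx fy F)
      (ev2 (Pi.constRingHom ℍ ℂ) gx gy F) := by
  rw [ev2_apply, ev2_apply]
  refine hasQExp_eval₂ _ _ (fun P => ?_) hx F
  exact hasQExp_eval₂ _ _ (fun a => HasQExp.const a) hy P

theorem ev2_const_apply (gx gy : ℍ → ℂ) (F : Polynomial (Polynomial ℂ)) (z : ℍ) :
    ev2 (Pi.constRingHom ℍ ℂ) gx gy F z = ev2 (RingHom.id ℂ) (gx z) (gy z) F := by
  have h := map_ev2 (Pi.evalRingHom (fun _ : ℍ => ℂ) z) (Pi.constRingHom ℍ ℂ) gx gy F
  exact h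

/-! ### the Fricke substitution -/

/-- `p · S (p z) = S z` on the upper half plane. -/
theorem scaleH_S_scaleH (p : ℕ) [NeZero p] (z : ℍ) :
    scaleH p (ModularGroup.S • scaleH p z) = ModularGroup.S • z := by
  apply UpperHalfPlane.ext
  rw [coe_scaleH, UpperHalfPlane.modular_S_smul, UpperHalfPlane.modular_S_smul]
  show (p : ℂ) * (-((scaleH p z : ℍ) : ℂ))⁻¹ = (-(z : ℂ))⁻¹
  rw [coe_scaleH]
  have hN : (p : ℂ) ≠ 0 := by exact_mod_cast NeZero.ne p
  have hz : (z : ℂ) ≠ 0 := UpperHalfPlane.ne_zero z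
  field_simp

/-- `j(p w) = j(z)` and `j(w) = j(p z)` for `w = S • (p z)`. -/
theorem jFun_fricke (p : ℕ) [NeZero p] (z : ℍ) :
    jFun (scaleH p (ModularGroup.S • scaleH p z)) = jFun z ∧
      jFun (ModularGroup.S • scaleH p z) = jFun (scaleH p z) :=
  ⟨by rw [scaleH_S_scaleH, jFun_smul], jFun_smul _ _⟩

/-! ### the symmetric identity over `ℂ` -/

/-- **Symmetric identity over `ℂ`.** -/
theorem symm_C (p : ℕ) [NeZero p] (F : Polynomial (Polynomial ℂ))
    (h : ev2 (HahnSeries.C : ℂ →+* LaurentSeries ℂ) (qExpand ℂ p (jqModC ℂ)) (jqModC ℂ) F = 0) :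
    ev2 (HahnSeries.C : ℂ →+* LaurentSeries ℂ) (jqModC ℂ) (qExpand ℂ p (jqModC ℂ)) F = 0 := by
  have h1 : HasQExp (jqModC ℂ) jFun := hasQExp_jqModC
  have hp : HasQExp (qExpand ℂ p (jqModC ℂ)) (fun z => jFun (scaleH p z)) := h1.qExpand p
  -- the first function vanishes identically
  have hA := hasQExp_ev2 hp h1 F
  rw [h] at hA
  have hA0 : (0 : ℍ → ℂ) = ev2 (Pi.constRingHom ℍ ℂ) (fun z => jFun (scaleH p z)) jFun F :=
    hasQExp_zero.unique_right hA
  have hval : ∀ z : ℍ, ev2 (RingHom.id ℂ) (jFun (scaleH p z)) (jFun z) F = 0 := by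
    intro z
    have := congrFun hA0 z
    rw [ev2_const_apply] at this
    exact this.symm
  -- hence so does the second one
  have hB := hasQExp_ev2 h1 hp F
  have hB0 : ev2 (Pi.constRingHom ℍ ℂ) jFun (fun z => jFun (scaleH p z)) F = 0 := by
    funext z
    rw [ev2_const_apply]
    have := hval (ModularGroup.S • scaleH p z)
    rw [(jFun_fricke p z).1, (jFun_fricke p z).2] at this
    exact this
  rw [hB0] at hB
  exact hB.unique_left hasQExp_zero

/-! ### descent to subrings of `ℂ` -/

theorem coeffMap_inj {R S : Type*} [CommRing R] [CommRing S] {φ : R →+* S}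
    (hφ : Function.Injective φ) : Function.Injective (coeffMap φ) := by
  intro x y hxy
  ext k
  apply hφ
  have := congrArg (fun s => HahnSeries.coeff s k) hxy
  simpa [coeffMap_coeff] using this

theorem coeffMap_comp_C {R S : Type*} [CommRing R] [CommRing S] (φ : R →+* S) :
    (coeffMap φ).comp (HahnSeries.C : R →+* LaurentSeries R)
      = (HahnSeries.C : S →+* LaurentSeries S).comp φ := by
  ext a : 1
  show coeffMap φ (HahnSeries.C a) = HahnSeries.C (φ a)
  rw [HahnSeries.C_apply, coeffMap_single, HahnSeries.C_apply]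

/-- **Symmetric identity over any coefficient ring embedded in `ℂ`**, for any series `x` whose
complexification is `j`. -/
theorem symm_of_injective {A : Type*} [CommRing A] (φ : A →+* ℂ) (hφ : Function.Injective φ)
    (x : LaurentSeries A) (hx : coeffMap φ x = jqModC ℂ) (p : ℕ) [NeZero p]
    (F : Polynomial (Polynomial A))
    (h : ev2 (HahnSeries.C : A →+* LaurentSeries A) (qExpand A p x) x F = 0) :
    ev2 (HahnSeries.C : A →+* LaurentSeries A) x (qExpand A p x) F = 0 := by
  apply coeffMap_inj hφ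
  rw [map_zero, map_ev2, coeffMap_comp_C, ModularCurve.coeffMap_qExpand, hx, ← ev2_map]
  apply symm_C
  have h2 := congrArg (coeffMap φ) h
  rw [map_zero, map_ev2, coeffMap_comp_C, ModularCurve.coeffMap_qExpand, hx, ← ev2_map] at h2
  exact h2

/-- Symmetric identity for the formal `j` over any `A ↪ ℂ`. -/
theorem symm_jqModC {A : Type*} [CommRing A] (φ : A →+* ℂ) (hφ : Function.Injective φ)
    (p : ℕ) [NeZero p] (F : Polynomial (Polynomial A))
    (h : ev2 (HahnSeries.C : A →+* LaurentSeries A) (qExpand A p (jqModC A)) (jqModC A) F = 0) :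
    ev2 (HahnSeries.C : A →+* LaurentSeries A) (jqModC A) (qExpand A p (jqModC A)) F = 0 :=
  symm_of_injective φ hφ (jqModC A) (coeffMap_jqModC φ) p F h

/-- Symmetric identity over `ℚbar` for `jqK`. -/
theorem symm_Kbar (p : ℕ) [NeZero p] (F : Polynomial (Polynomial Kbar))
    (h : ev2 (HahnSeries.C : Kbar →+* LaurentSeries Kbar) (qExpand Kbar p jqK) jqK F = 0) :
    ev2 (HahnSeries.C : Kbar →+* LaurentSeries Kbar) jqK (qExpand Kbar p jqK) F = 0 :=
  symm_of_injective iotaK iotaK_injective jqK toC_coeffEmb_jq p F h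

/-! ### the `ℤ`-version in the literal shape of `Interface20.P0` -/

open Fermat.Agent.IG.PR.Interface20 in
theorem evalAt_eq (y : LaurentSeries ℤ) :
    evalAt ℤ y = Polynomial.eval₂RingHom (HahnSeries.C : ℤ →+* LaurentSeries ℤ) y := by
  unfold evalAt
  congr 1

open Fermat.Agent.IG.PR.Interface20 in
/-- **Symmetric identity over `ℤ`**, in the shape of `Interface20.P0`. -/
theorem symm_int (p : ℕ) [NeZero p] (Φ : Polynomial (Polynomial ℤ))
    (h : Φ.eval₂ (evalAt ℤ (jqModC ℤ)) (qExpand ℤ p (jqModC ℤ)) = 0) :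
    Φ.eval₂ (evalAt ℤ (qExpand ℤ p (jqModC ℤ))) (jqModC ℤ) = 0 := by
  rw [evalAt_eq] at h ⊢
  exact symm_jqModC (Int.castRingHom ℂ) Int.cast_injective p Φ h

open Fermat.Agent.IG.PR.Interface20 in
/-- `Interface20.P0 p` from the first identity alone. -/
theorem p0_of_first (p : ℕ) [NeZero p] (Φ : Polynomial (Polynomial ℤ)) (hm : Φ.Monic)
    (hd : Φ.natDegree = p + 1)
    (h : Φ.eval₂ (evalAt ℤ (jqModC ℤ)) (qExpand ℤ p (jqModC ℤ)) = 0) : P0 p :=
  ⟨Φ, hm, hd, h, symm_int p Φ h⟩

end Fermat.Agent.IG.AN.SymmIdent6
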