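/-
Program G (S28, Igusa) / chapter IG/AN / helper24.

Assembly of `Interface20.P2 p` (and, as a by-product of the same core, of `Interface20.P0 p`)
from an `SL(2,ℤ)`-permuted family of holomorphic functions with `q_p`-expansions over `ℚbar`,
WITHOUT roots of unity and WITHOUT denominators:

* `core`: pure algebra.  A monic `F = ∏ (X - T x) ∈ ℚbar((t))[X]` of degree `p + 1` whose
  coefficients are polynomials over `ℚbar` in `j(t^p)`, with two known roots `V_p w` and `h`
  (`w, h ∈ ℤ((q))`, the order of `h` prime to `p`), together with a monic `G ∈ ℤ((s))[X]` of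
  degree `p` with `G(V_p)(h) = 0`, is the image of `(X - w) * G ∈ ℤ((s))[X]`; by the `q`-expansion
  principle over `ℤ` its coefficients are polynomials in `j` over `ℤ`.
-/
import Mathlib
import Fermat.Agent.X0.Integrality
import Fermat.Agent.X0.RootsK
import Fermat.Agent.X0.G1Index
import Fermat.Agent.X0.GNPsi
import Fermat.Agent.IG.PR.Interface20
import Fermat.Agent.IG.PR.RamDeg25
import Fermat.Agent.IG.PR.ThetaV1

set_option autoImplicit false

noncomputable section

namespace Fermat.Agent.IG.AN.UnitPoly24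

open Polynomial ModularCurve Fermat.Agent.X0 Fermat.Agent.X0.Analytic
  Fermat.Agent.IG.PR.Interface20

/-- Coefficient cast `ℤ((q)) → ℚbar((q))`. -/
abbrev cK : LaurentSeries ℤ →+* LaurentSeries Kbar := coeffMap (Int.castRingHom Kbar)

theorem cK_injective : Function.Injective cK := by
  intro x y h
  ext k
  have := congrArg (fun f => f.coeff k) h
  simp only [coeffMap_coeff] at this
  exact Int.cast_injective (α := Kbar) this

theorem cK_qExpand (p : ℕ) [NeZero p] (x : LaurentSeries ℤ) :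
    cK (qExpand ℤ p x) = qExpand Kbar p (cK x) :=
  Fermat.Agent.X0.Analytic.coeffMap_qExpand _ p x

theorem cK_jq : cK (jqModC ℤ) = jqK := by
  rw [jqK_eq_jqModC]
  exact coeffMap_jqModC _

theorem laurentOf_jNum : laurentOf 1 jNum = jqModC ℤ := by
  rw [laurentOf, jqModC]
  congr 2

theorem cK_order (x : LaurentSeries ℤ) : (cK x).order = x.order := by
  by_cases hx : x = 0
  · rw [hx, map_zero, HahnSeries.order_zero, HahnSeries.order_zero]
  have hx' : cK x ≠ 0 := fun h => hx (cK_injective (by rw [h, map_zero]))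
  apply le_antisymm
  · apply HahnSeries.order_le_of_coeff_ne_zero
    rw [coeffMap_coeff]
    intro h
    exact (HahnSeries.coeff_order_eq_zero.not.2 hx)
      (Int.cast_injective (α := Kbar) (by simpa using h))
  · apply HahnSeries.order_le_of_coeff_ne_zero
    intro h
    apply HahnSeries.coeff_order_eq_zero.not.2 hx'
    rw [coeffMap_coeff, h]
    simp

/-- `evalAt` is `aeval`. -/
theorem evalAt_eq_aeval (y : LaurentSeries ℤ) (a : ℤ[X]) : evalAt ℤ y a = aeval y a := by
  rw [evalAt, aeval_def, coe_eval₂RingHom]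
  congr 1
  exact RingHom.ext_int _ _

/-- `cK` of a polynomial in a series over `ℤ`. -/
theorem cK_evalAt (y : LaurentSeries ℤ) (a : ℤ[X]) :
    cK (evalAt ℤ y a) = aeval (cK y) (a.map (Int.castRingHom Kbar)) := by
  rw [evalAt_eq_aeval]
  exact lor_coeffMap_aeval _ y a

section Core

variable (p : ℕ) [NeZero p]

/-- `eval` of a mapped polynomial at a mapped point. -/
theorem eval_map_apply' {A B : Type*} [CommRing A] [CommRing B] (f : A →+* B) (P : A[X]) (a : A) :
    (P.map f).eval (f a) = f (P.eval a) := by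
  rw [eval_map, eval₂_at_apply]

/-- **Core (pure algebra).** -/
theorem core (hp : p.Prime) {ι : Type*} [Fintype ι] (hcard : Fintype.card ι = p + 1)
    (T : ι → LaurentSeries Kbar) (pk : ℕ → Kbar[X])
    (hpk : ∀ k, (∏ x, (X - C (T x))).coeff k = aeval (qExpand Kbar p jqK) (pk k))
    (x1 xS : ι) (w h : LaurentSeries ℤ)
    (hT1 : T x1 = qExpand Kbar p (cK w)) (hTS : T xS = cK h)
    (hh0 : h ≠ 0) (hh : IsCoprime h.order (p : ℤ))
    (G : (LaurentSeries ℤ)[X]) (hG : G.Monic) (hGd : G.natDegree = p)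
    (hGh : (G.map (qExpand ℤ p)).eval h = 0) :
    ∃ Φ : Polynomial (Polynomial ℤ), Φ.Monic ∧ Φ.natDegree = p + 1 ∧
      Φ.eval₂ (evalAt ℤ (jqModC ℤ)) w = 0 ∧
      Φ.eval₂ (evalAt ℤ (qExpand ℤ p (jqModC ℤ))) h = 0 := by
  classical
  set V : LaurentSeries Kbar →+* LaurentSeries Kbar := qExpand Kbar p with hV
  have hVinj : Function.Injective V := qExpand_injective p
  set Fp : (LaurentSeries Kbar)[X] := ∏ x, (X - C (T x)) with hFp
  have hFmonic : Fp.Monic := monic_prod_of_monic _ _ fun x _ => monic_X_sub_C (T x)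
  have hFdeg : Fp.natDegree = p + 1 := by
    rw [hFp, natDegree_prod_of_monic _ _ fun x _ => monic_X_sub_C (T x)]
    simp only [natDegree_X_sub_C, Finset.sum_const, Finset.card_univ, smul_eq_mul, mul_one]
    exact hcard
  -- `V` commutes with `aeval`
  have hVaeval : ∀ a : Kbar[X], V (aeval jqK a) = aeval (V jqK) a := by
    intro a
    exact (aeval_algHom_apply (qExpandAlgHomC Kbar p) jqK a).symm
  -- lift along `V`
  have hlift : Fp ∈ Polynomial.lifts V := by
    rw [Polynomial.lifts_iff_coeff_lifts]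
    intro k
    exact ⟨aeval jqK (pk k), by rw [hVaeval, hpk k]⟩
  obtain ⟨Q, hQmap, hQdeg, hQmonic⟩ := lifts_and_natDegree_eq_and_monic hlift hFmonic
  have hQcoeff : ∀ k, Q.coeff k = aeval jqK (pk k) := by
    intro k
    apply hVinj
    rw [← coeff_map, hQmap, hVaeval, hpk k]
  -- the two roots of `Fp`
  have hroot : ∀ x, Fp.eval (T x) = 0 := by
    intro x
    rw [hFp, eval_prod]
    exact Finset.prod_eq_zero (Finset.mem_univ x) (by simp)
  -- the root `cK w` of `Q`
  have hQroot : Q.IsRoot (cK w) := by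
    apply hVinj
    rw [← eval_map_apply', hQmap, map_zero, ← hT1]
    exact hroot x1
  set Q1 := Q /ₘ (X - C (cK w)) with hQ1
  have hQfac : (X - C (cK w)) * Q1 = Q := mul_divByMonic_eq_iff_isRoot.mpr hQroot
  have hQ1monic : Q1.Monic := (monic_X_sub_C (cK w)).of_mul_monic_left (by rw [hQfac]; exact hQmonic)
  have hQ1deg : Q1.natDegree = p := by
    have := (monic_X_sub_C (cK w)).natDegree_mul hQ1monic
    rw [hQfac, hQdeg, hFdeg, natDegree_X_sub_C] at this
    omega
  -- `h` is a root of `Q1.map V`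
  have hp2 : 2 ≤ p := hp.two_le
  have hcop : IsCoprime (cK h).order (p : ℤ) := by rw [cK_order]; exact hh
  have hh0' : cK h ≠ 0 := fun e => hh0 (cK_injective (by rw [e, map_zero]))
  have hne : cK h - V (cK w) ≠ 0 := by
    intro e
    have e' : cK h = V (cK w) := sub_eq_zero.mp e
    have hdvd : (p : ℤ) ∣ (cK h).order := by
      rw [e']
      exact Fermat.Agent.IG.PR.RamDeg25.dvd_order_qExpand p _
    have hu : IsUnit (p : ℤ) := hcop.symm.isUnit_of_dvd' dvd_rfl hdvd
    rw [Int.isUnit_iff] at hu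
    omega
  have hQ1root : (Q1.map V).eval (cK h) = 0 := by
    have h0 : Fp.eval (cK h) = 0 := by rw [← hTS]; exact hroot xS
    rw [← hQmap, ← hQfac, Polynomial.map_mul, eval_mul, Polynomial.map_sub, map_X, map_C,
      eval_sub, eval_X, eval_C] at h0
    exact (mul_eq_zero.mp h0).resolve_left hne
  -- the kit polynomial over `ℚbar`
  set Gk : (LaurentSeries Kbar)[X] := G.map cK with hGk
  have hGkmonic : Gk.Monic := hG.map cK
  have hGkdeg : Gk.natDegree = p := by rw [hGk, hG.natDegree_map, hGd]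
  have hGkroot : (Gk.map V).eval (cK h) = 0 := by
    have e : Gk.map V = (G.map (qExpand ℤ p)).map cK := by
      rw [hGk, Polynomial.map_map, Polynomial.map_map]
      congr 1
      ext1 x
      exact (cK_qExpand p x).symm
    rw [e, eval_map_apply', hGh, map_zero]
  -- uniqueness
  have hQ1eq : Q1 = Gk := by
    by_contra hne'
    have hD0 : Q1 - Gk ≠ 0 := sub_ne_zero.mpr hne'
    have hDdeg : (Q1 - Gk).natDegree < p := by
      have hdeg : (Q1 - Gk).degree < Q1.degree := by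
        apply degree_sub_lt_left
        · rw [degree_eq_natDegree hQ1monic.ne_zero, degree_eq_natDegree hGkmonic.ne_zero,
            hQ1deg, hGkdeg]
        · exact hQ1monic.ne_zero
        · rw [hQ1monic.leadingCoeff, hGkmonic.leadingCoeff]
      rw [degree_eq_natDegree hD0, degree_eq_natDegree hQ1monic.ne_zero, hQ1deg] at hdeg
      exact_mod_cast hdeg
    apply Fermat.Agent.IG.PR.RamDeg25.eval_map_qExpand_ne_zero hh0' hcop (Q1 - Gk) hD0 hDdeg
    rw [Polynomial.map_sub, eval_sub, hQ1root, hGkroot, sub_zero]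
  -- `Q` comes from `ℤ((s))[X]`
  set Rz : (LaurentSeries ℤ)[X] := (X - C w) * G with hRz
  have hRzmonic : Rz.Monic := (monic_X_sub_C w).mul hG
  have hRzdeg : Rz.natDegree = p + 1 := by
    rw [hRz, (monic_X_sub_C w).natDegree_mul hG, natDegree_X_sub_C, hGd]
    omega
  have hQRz : Q = Rz.map cK := by
    rw [← hQfac, hQ1eq, hRz, Polynomial.map_mul, Polynomial.map_sub, map_X, map_C]
  -- `q`-expansion principle over `ℤ`
  have hcastinj : Function.Injective (Int.castRingHom Kbar) := Int.cast_injective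
  have hHasse : ∀ k, ∃ a : ℤ[X], a.map (Int.castRingHom Kbar) = pk k ∧
      Rz.coeff k = aeval (jqModC ℤ) a := by
    intro k
    have := lor_exists_aeval_eq (Int.castRingHom Kbar) hcastinj 1 one_pos jNum
      constantCoeff_jNum (pk k) (Rz.coeff k) (by
        rw [laurentOf_jNum]
        show aeval (cK (jqModC ℤ)) (pk k) = cK (Rz.coeff k)
        rw [cK_jq, ← hQcoeff, hQRz, coeff_map])
    rw [laurentOf_jNum] at this
    exact this
  choose a ha1 ha2 using hHasse
  -- lift `Rz` along `evalAt ℤ j`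
  set f : ℤ[X] →+* LaurentSeries ℤ := evalAt ℤ (jqModC ℤ) with hf
  have hlift2 : Rz ∈ Polynomial.lifts f := by
    rw [Polynomial.lifts_iff_coeff_lifts]
    intro k
    exact ⟨a k, by rw [hf, evalAt_eq_aeval, ha2]⟩
  obtain ⟨Φ, hΦmap, hΦdeg, hΦmonic⟩ := lifts_and_natDegree_eq_and_monic hlift2 hRzmonic
  refine ⟨Φ, hΦmonic, by rw [hΦdeg, hRzdeg], ?_, ?_⟩
  · rw [← eval_map, hΦmap, hRz, eval_mul, eval_sub, eval_X, eval_C, sub_self, zero_mul]
  · -- the coefficients of `Φ` are the `pk`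
    have hΦpk : ∀ k, (Φ.coeff k).map (Int.castRingHom Kbar) = pk k := by
      intro k
      have h1 : f (Φ.coeff k) = Rz.coeff k := by rw [← coeff_map, hΦmap]
      have h2 : aeval jqK ((Φ.coeff k).map (Int.castRingHom Kbar)) = aeval jqK (pk k) := by
        rw [← cK_jq, ← cK_evalAt, ← hf, h1, cK_jq, ← hQcoeff, hQRz, coeff_map]
      have h3 : aeval jqK ((Φ.coeff k).map (Int.castRingHom Kbar) - pk k) = 0 := by
        rw [map_sub, h2, sub_self]
      exact sub_eq_zero.mp (aeval_jqK_eq_zero h3)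
    set g : ℤ[X] →+* LaurentSeries ℤ := evalAt ℤ (qExpand ℤ p (jqModC ℤ)) with hg
    have hFp2 : Fp = (Φ.map g).map cK := by
      ext1 k
      rw [coeff_map, coeff_map, hg, cK_evalAt, hΦpk, cK_qExpand, cK_jq]
      exact hpk k
    apply cK_injective
    rw [map_zero, ← eval_map, ← eval_map_apply', ← hFp2, ← hTS]
    exact hroot xS

end Core

/-! ### From a `Γ₀(p)`-invariant holomorphic function to the hypotheses of `core` -/

section Family

open UpperHalfPlane
open scoped MatrixGroups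

variable (p : ℕ) [NeZero p]

/-- The quotient `SL(2,ℤ)/Γ₀(p)` is finite. -/
theorem finite_quot : Finite (SL(2, ℤ) ⧸ CongruenceSubgroup.Gamma0 p) := by
  apply Nat.finite_of_card_ne_zero
  rw [Fermat.Agent.X0.G1Index.g1_card p]
  exact (Fermat.Agent.X0.GNPsi.gnp_dedekindPsi_pos (NeZero.ne p)).ne'

omit [NeZero p] in
/-- `SL(2,ℤ)` permutes the conjugates of a `Γ₀(p)`-invariant function. -/
theorem perm_of_invariant (F : ℍ → ℂ)
    (hinv : ∀ γ ∈ CongruenceSubgroup.Gamma0 p, compSL F γ = F)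
    (rep : SL(2, ℤ) ⧸ CongruenceSubgroup.Gamma0 p → SL(2, ℤ))
    (hrep : ∀ x, (rep x : SL(2, ℤ) ⧸ CongruenceSubgroup.Gamma0 p) = x) (δ : SL(2, ℤ)) :
    ∃ σ : Equiv.Perm (SL(2, ℤ) ⧸ CongruenceSubgroup.Gamma0 p), ∀ x z,
      compSL F (rep x)⁻¹ (δ • z) = compSL F (rep (σ x))⁻¹ z := by
  refine ⟨MulAction.toPerm δ⁻¹, fun x z => ?_⟩
  set a := rep x with ha
  set b := rep ((MulAction.toPerm δ⁻¹ : Equiv.Perm _) x) with hb
  have hcoset : ((b : SL(2, ℤ)) : SL(2, ℤ) ⧸ CongruenceSubgroup.Gamma0 p)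
      = ((δ⁻¹ * a : SL(2, ℤ)) : SL(2, ℤ) ⧸ CongruenceSubgroup.Gamma0 p) := by
    rw [hb, hrep, MulAction.toPerm_apply]
    conv_lhs => rw [← hrep x]
    rfl
  have hmem : b⁻¹ * (δ⁻¹ * a) ∈ CongruenceSubgroup.Gamma0 p := QuotientGroup.eq.mp hcoset
  have hmem' : (b⁻¹ * (δ⁻¹ * a))⁻¹ ∈ CongruenceSubgroup.Gamma0 p := inv_mem hmem
  have hinv' := hinv _ hmem'
  show F (a⁻¹ • δ • z) = F (b⁻¹ • z)
  have h1 : a⁻¹ • δ • z = (b⁻¹ * (δ⁻¹ * a))⁻¹ • (b⁻¹ • z) := by
    rw [← mul_smul, ← mul_smul]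
    congr 1
    group
  rw [h1]
  exact congrFun hinv' (b⁻¹ • z)

/-- **Family form.** `F` holomorphic on `ℍ`, `Γ₀(p)`-invariant, all `F ∘ γ` with a `q_p`-expansion
over `ℚbar`, the expansions of `F` and `F ∘ S` being `V_p w` and `h` with `w, h ∈ ℤ((q))`. -/
theorem family_core (hp : p.Prime) (F : ℍ → ℂ) (hF : F ∈ HolH)
    (hinv : ∀ γ ∈ CongruenceSubgroup.Gamma0 p, compSL F γ = F)
    (hexp : ∀ γ : SL(2, ℤ), ∃ T : LaurentSeries Kbar, IntgQN p (compSL F γ) (toC T))
    (w h : LaurentSeries ℤ)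
    (h1 : IntgQN p F (toC (qExpand Kbar p (cK w))))
    (hS : IntgQN p (compSL F ModularGroup.S) (toC (cK h)))
    (hh0 : h ≠ 0) (hh : IsCoprime h.order (p : ℤ))
    (G : (LaurentSeries ℤ)[X]) (hG : G.Monic) (hGd : G.natDegree = p)
    (hGh : (G.map (qExpand ℤ p)).eval h = 0) :
    ∃ Φ : Polynomial (Polynomial ℤ), Φ.Monic ∧ Φ.natDegree = p + 1 ∧
      Φ.eval₂ (evalAt ℤ (jqModC ℤ)) w = 0 ∧
      Φ.eval₂ (evalAt ℤ (qExpand ℤ p (jqModC ℤ))) h = 0 := by
  classical
  have : Finite (SL(2, ℤ) ⧸ CongruenceSubgroup.Gamma0 p) := finite_quot p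
  let _ : Fintype (SL(2, ℤ) ⧸ CongruenceSubgroup.Gamma0 p) := Fintype.ofFinite _
  have hcard : Fintype.card (SL(2, ℤ) ⧸ CongruenceSubgroup.Gamma0 p) = p + 1 := by
    rw [← Nat.card_eq_fintype_card, Fermat.Agent.X0.G1Index.g1_card p]
    have := Fermat.Agent.X0.GNPsi.gnp_dedekindPsi_prime_pow hp 0
    simpa using this
  -- representatives
  set xS : SL(2, ℤ) ⧸ CongruenceSubgroup.Gamma0 p := QuotientGroup.mk ModularGroup.S⁻¹ with hxS
  set x1 : SL(2, ℤ) ⧸ CongruenceSubgroup.Gamma0 p := QuotientGroup.mk (1 : SL(2, ℤ)) with hx1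
  set rep : SL(2, ℤ) ⧸ CongruenceSubgroup.Gamma0 p → SL(2, ℤ) :=
    Function.update (fun x => Quotient.out x) xS ModularGroup.S⁻¹ with hrepdef
  have hrep : ∀ x, (rep x : SL(2, ℤ) ⧸ CongruenceSubgroup.Gamma0 p) = x := by
    intro x
    by_cases hx : x = xS
    · rw [hx, hrepdef, Function.update_self]
    · rw [hrepdef, Function.update_of_ne hx]
      exact Quotient.out_eq' x
  have hrepS : (rep xS)⁻¹ = ModularGroup.S := by
    rw [hrepdef, Function.update_self, inv_inv]
  have hrep1 : compSL F (rep x1)⁻¹ = F := by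
    apply hinv
    apply inv_mem
    have := hrep x1
    rw [hx1] at this
    have h2 := QuotientGroup.eq.mp this
    rw [mul_one] at h2
    exact inv_mem_iff.mp h2
  -- the family
  choose Tγ hTγ using hexp
  obtain ⟨pk, hpk⟩ : ∃ pk : ℕ → Kbar[X], ∀ k,
      (∏ x, (X - C (Tγ (rep x)⁻¹))).coeff k = aeval (qExpand Kbar p jqK) (pk k) := by
    have := fun k => intg_core p (fun x => compSL F (rep x)⁻¹) (fun x => Tγ (rep x)⁻¹)
      (fun x => compSL_mem_HolH hF _) (fun x => hTγ _) (perm_of_invariant p F hinv rep hrep) k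
    choose pk hpk1 _ using this
    exact ⟨pk, hpk1⟩
  refine core p hp hcard (fun x => Tγ (rep x)⁻¹) pk hpk x1 xS w h ?_ ?_ hh0 hh G hG hGd hGh
  · apply toC_injective
    refine intg_qn_unique p (hTγ _) ?_
    rw [hrep1]
    exact h1
  · apply toC_injective
    refine intg_qn_unique p (hTγ _) ?_
    rw [hrepS]
    exact hS

end Family

/-! ### Orders of the formal `Δ`-quotients -/

section Orders

open HahnSeries

theorem order_ofPowerSeries_of_constantCoeff (P : PowerSeries ℤ)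
    (hP : PowerSeries.constantCoeff P = 1) :
    (HahnSeries.ofPowerSeries ℤ ℤ P).order = 0 ∧ HahnSeries.ofPowerSeries ℤ ℤ P ≠ 0 := by
  have h0 : (HahnSeries.ofPowerSeries ℤ ℤ P).coeff 0 = 1 := by
    have := HahnSeries.ofPowerSeries_apply_coeff (Γ := ℤ) P 0
    rw [Nat.cast_zero] at this
    rw [this, PowerSeries.coeff_zero_eq_constantCoeff_apply, hP]
  have hne : HahnSeries.ofPowerSeries ℤ ℤ P ≠ 0 := by
    intro h
    rw [h, HahnSeries.coeff_zero] at h0
    exact zero_ne_one h0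
  refine ⟨le_antisymm ?_ ?_, hne⟩
  · apply HahnSeries.order_le_of_coeff_ne_zero
    rw [h0]
    exact one_ne_zero
  · apply Fermat.Agent.IG.PR.ThetaV1.le_order_of_forall_lt hne
    intro i hi
    exact ModularCurve.ofPowerSeries_coeff_of_neg _ hi

theorem deltaq_order : (deltaq ℤ).order = 1 ∧ deltaq ℤ ≠ 0 := by
  have hc : PowerSeries.constantCoeff (dedekindEtaUnit.map (Int.castRingHom ℤ)) = 1 := by
    rw [← PowerSeries.coeff_zero_eq_constantCoeff_apply, PowerSeries.coeff_map,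
      PowerSeries.coeff_zero_eq_constantCoeff_apply, constantCoeff_dedekindEtaUnit]
    rfl
  obtain ⟨h1, h2⟩ := order_ofPowerSeries_of_constantCoeff _ hc
  constructor
  · rw [deltaq, HahnSeries.order_single_mul_of_isRegular isRegular_one h2, h1, add_zero]
  · rw [deltaq]
    exact mul_ne_zero (HahnSeries.single_ne_zero one_ne_zero) h2

theorem deltaqInv_order : (deltaqInv ℤ).order = -1 ∧ deltaqInv ℤ ≠ 0 := by
  have hc : PowerSeries.constantCoeff (dedekindEtaUnitInv.map (Int.castRingHom ℤ)) = 1 := by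
    rw [← PowerSeries.coeff_zero_eq_constantCoeff_apply, PowerSeries.coeff_map,
      PowerSeries.coeff_zero_eq_constantCoeff_apply, constantCoeff_dedekindEtaUnitInv]
    rfl
  obtain ⟨h1, h2⟩ := order_ofPowerSeries_of_constantCoeff _ hc
  constructor
  · rw [deltaqInv, HahnSeries.order_single_mul_of_isRegular isRegular_one h2, h1, add_zero]
  · rw [deltaqInv]
    exact mul_ne_zero (HahnSeries.single_ne_zero one_ne_zero) h2

/-- `h = Δ(t)/Δ(t^p)`. -/
def hq (p : ℕ) [NeZero p] : LaurentSeries ℤ := deltaq ℤ * qExpand ℤ p (deltaqInv ℤ)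

theorem hq_ne_zero (p : ℕ) [NeZero p] : hq p ≠ 0 :=
  mul_ne_zero deltaq_order.2 (Fermat.Agent.IG.PR.ThetaV1.qExpand_ne_zero p deltaqInv_order.2)

theorem hq_order (p : ℕ) [NeZero p] : (hq p).order = 1 - (p : ℤ) := by
  rw [hq, HahnSeries.order_mul deltaq_order.2
    (Fermat.Agent.IG.PR.ThetaV1.qExpand_ne_zero p deltaqInv_order.2), deltaq_order.1,
    Fermat.Agent.IG.PR.ThetaV1.order_qExpand, deltaqInv_order.1]
  ring

theorem hq_coprime (p : ℕ) [NeZero p] : IsCoprime (hq p).order (p : ℤ) := by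
  rw [hq_order]
  exact ⟨1, 1, by ring⟩

end Orders

/-! ### The modular unit: `Interface20.P2 p` from the analytic inputs and the section kit -/

section Unit

open UpperHalfPlane
open scoped MatrixGroups

variable (p : ℕ) [NeZero p]

/-- **`P2 p` from its inputs.**  `F0 = Δ(p z)/Δ(z)` (any function with these properties):
holomorphic, `Γ₀(p)`-invariant, all `F0 ∘ γ` with `q_p`-expansions over `ℚbar`, the expansions of
`F0` and `F0 ∘ S` being `u(t^p)` and `p^{-12} Δ(t)/Δ(t^p)`; and the section kit for `Δ(t)/Δ(t^p)`. -/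
theorem p2_of_inputs (hp : p.Prime) (F0 : ℍ → ℂ) (hF0 : F0 ∈ HolH)
    (hinv : ∀ γ : SL(2, ℤ), γ ∈ CongruenceSubgroup.Gamma0 p → compSL F0 γ = F0)
    (hexp : ∀ γ : SL(2, ℤ), ∃ T : LaurentSeries Kbar, IntgQN p (compSL F0 γ) (toC T))
    (h1 : IntgQN p F0 (toC (qExpand Kbar p (coeffMap (Int.castRingHom Kbar) (uq ℤ p)))))
    (hS : IntgQN p (compSL F0 ModularGroup.S)
      (toC (HahnSeries.C (((p : Kbar)⁻¹) ^ 12) * coeffMap (Int.castRingHom Kbar)
        (deltaq ℤ * qExpand ℤ p (deltaqInv ℤ)))))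
    (hkit : ∃ G : (LaurentSeries ℤ)[X], G.Monic ∧ G.natDegree = p ∧
      (G.map (qExpand ℤ p)).eval (deltaq ℤ * qExpand ℤ p (deltaqInv ℤ)) = 0) :
    P2 p := by
  obtain ⟨G, hG, hGd, hGh⟩ := hkit
  have hpK : (p : Kbar) ≠ 0 := by exact_mod_cast NeZero.ne p
  -- the scaled function
  set c : ℂ := (p : ℂ) ^ 12 with hc
  set F : ℍ → ℂ := fun z => c * F0 z with hFdef
  have hcomp : ∀ γ : SL(2, ℤ), compSL F γ = (fun _ => c) * compSL F0 γ := fun γ => rfl
  have hF : F ∈ HolH := HolH.mul_mem (HolH.algebraMap_mem c) hF0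
  have hinvF : ∀ γ ∈ CongruenceSubgroup.Gamma0 p, compSL F γ = F := by
    intro γ hγ
    rw [hcomp, hinv γ hγ]
    rfl
  have hCc : toC (HahnSeries.C ((p : Kbar) ^ 12)) = HahnSeries.C c := by
    rw [toC, HahnSeries.C_apply, coeffMap_single, HahnSeries.C_apply, map_pow, map_natCast]
  have hexpF : ∀ γ : SL(2, ℤ), ∃ T : LaurentSeries Kbar, IntgQN p (compSL F γ) (toC T) := by
    intro γ
    obtain ⟨T, hT⟩ := hexp γ
    refine ⟨HahnSeries.C ((p : Kbar) ^ 12) * T, ?_⟩
    rw [hcomp, map_mul, hCc]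
    exact intg_qn_mul p (intg_qn_const p c) hT
  -- the two series over `ℤ`
  set w : LaurentSeries ℤ := HahnSeries.C ((p : ℤ) ^ 12) * uq ℤ p with hw
  have hcKC : cK (HahnSeries.C ((p : ℤ) ^ 12)) = HahnSeries.C ((p : Kbar) ^ 12) := by
    rw [HahnSeries.C_apply, coeffMap_single, HahnSeries.C_apply]
    congr 1
    simp
  have h1F : IntgQN p F (toC (qExpand Kbar p (cK w))) := by
    rw [hw, map_mul, map_mul, hcKC, qExpand_C, map_mul, hCc]
    exact intg_qn_mul p (intg_qn_const p c) h1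
  have hSF : IntgQN p (compSL F ModularGroup.S) (toC (cK (hq p))) := by
    have := intg_qn_mul p (intg_qn_const p c) hS
    rw [← hCc, ← map_mul, ← mul_assoc, ← map_mul, ← mul_pow, mul_inv_cancel₀ hpK, one_pow,
      map_one, one_mul] at this
    exact this
  obtain ⟨Φ, hΦmonic, hΦdeg, hΦw, -⟩ := family_core p hp F hF hinvF hexpF w (hq p) h1F hSF
    (hq_ne_zero p) (hq_coprime p) G hG hGd hGh
  -- substitute `X ↦ p^12 X`
  set lin : Polynomial (Polynomial ℤ) := C (C ((p : ℤ) ^ 12)) * X with hlin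
  have hlindeg : lin.natDegree = 1 := by
    rw [hlin]
    apply natDegree_C_mul_X
    rw [Ne, C_eq_zero]
    exact pow_ne_zero _ (by exact_mod_cast NeZero.ne p)
  have hlinlead : lin.leadingCoeff = C ((p : ℤ) ^ 12) := by
    rw [hlin, leadingCoeff_mul, leadingCoeff_C, leadingCoeff_X, mul_one]
  refine ⟨12 * (p + 1), Φ.comp lin, ?_, ?_⟩
  · rw [leadingCoeff_comp (by rw [hlindeg]; exact one_ne_zero), hΦmonic.leadingCoeff, one_mul,
      hlinlead, hΦdeg, ← C_pow, ← pow_mul]
  · rw [eval₂_comp, hlin, eval₂_mul, eval₂_C, eval₂_X]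
    have : evalAt ℤ (jqModC ℤ) (C ((p : ℤ) ^ 12)) = HahnSeries.C ((p : ℤ) ^ 12) := by
      rw [evalAt, coe_eval₂RingHom, eval₂_C]
      rfl
    rw [this]
    exact hΦw

end Unit

end Fermat.Agent.IG.AN.UnitPoly24
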