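/-
Program G (S28, Igusa) / chapter IG/AN / helper24.

`Interface20.P2 p` for every prime `p`, VERBATIM:  `u = Δ(q^p)/Δ(q)` is a root of a polynomial over
`ℤ[j]` whose leading coefficient is the constant `p^(12(p+1))`.

Assembly (zeta-free, denominator-free) of
* `UnitPoly24.p2_of_inputs`   (helper24: `X0.intg_core` + uniqueness of the degree-`p` annihilator +
                               `q`-expansion principle over `ℤ`),
* `DeltaQuot19`               (helper19: `F = Δ(p z)/Δ(z)` holomorphic, `Γ₀(p)`-invariant, automorphy),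
* `DeltaAffine11`             (helper11: `q_p`-expansions of `Δ((a z + b)/e)/Δ(z)`),
* `SectionKit3.annPoly`       (helper3: monic degree-`p` annihilator over `ℤ((q^p))`).
-/
import Mathlib
import Fermat.Agent.IG.AN.UnitPoly24
import Fermat.Agent.IG.AN.DeltaQuot19
import Fermat.Agent.IG.AN.DeltaAffine11
import Fermat.Agent.IG.AN.SectionKit3

set_option autoImplicit false

noncomputable section

namespace Fermat.Agent.IG.AN.UnitP2Final24

open Polynomial ModularCurve UpperHalfPlane Fermat.Agent.X0 Fermat.Agent.X0.Analytic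
  Fermat.Agent.IG.PR.Interface20 Fermat.Agent.IG.AN.DeltaQuot19
open scoped MatrixGroups

variable (p : ℕ) [NeZero p]

/-- `toC` of a constant. -/
theorem toC_C (c : Kbar) : toC (HahnSeries.C c) = HahnSeries.C (iotaK c) := by
  rw [toC, HahnSeries.C_apply, coeffMap_single, HahnSeries.C_apply]

/-- Constant multiples of a function with a `q_p`-expansion. -/
theorem intgQN_const_mul (c : Kbar) {g : ℍ → ℂ} {T : LaurentSeries Kbar}
    (h : IntgQN p g (toC T)) :
    IntgQN p (fun z => iotaK c * g z) (toC (HahnSeries.C c * T)) := by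
  rw [map_mul, toC_C]
  exact intg_qn_mul p (intg_qn_const p (iotaK c)) h

theorem iotaK_inv_pow (e : ℕ) : iotaK (((e : Kbar)⁻¹) ^ 12) = ((e : ℂ)⁻¹) ^ 12 := by
  rw [map_pow, map_inv₀, map_natCast]

/-- (ii') all conjugates of `Δ(p z)/Δ(z)` have `q_p`-expansions over `ℚbar`. -/
theorem exists_expansion (γ : SL(2, ℤ)) :
    ∃ T : LaurentSeries Kbar, IntgQN p (compSL (deltaQuot p) γ) (toC T) := by
  obtain ⟨a, e, b, ha, he, hae, -, -, h⟩ := compSL_deltaQuot p γ
  obtain ⟨T, hT, -⟩ := Fermat.Agent.IG.AN.DeltaAffine11.exists_expansion p a e b ha he hae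
  refine ⟨HahnSeries.C (((e : Kbar)⁻¹) ^ 12) * T, ?_⟩
  have := intgQN_const_mul p (((e : Kbar)⁻¹) ^ 12) hT
  rw [iotaK_inv_pow] at this
  rw [h]
  exact this

/-- (iii) the expansion of `Δ(p z)/Δ(z)` itself. -/
theorem expansion_one :
    IntgQN p (deltaQuot p)
      (toC (qExpand Kbar p (coeffMap (Int.castRingHom Kbar) (uq ℤ p)))) := by
  rw [deltaQuot_eq_deltaAff]
  exact Fermat.Agent.IG.AN.DeltaAffine11.expansion_top p

/-- (iv) the expansion of `F ∘ S`. -/
theorem expansion_S :
    IntgQN p (compSL (deltaQuot p) ModularGroup.S)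
      (toC (HahnSeries.C (((p : Kbar)⁻¹) ^ 12) * coeffMap (Int.castRingHom Kbar)
        (deltaq ℤ * qExpand ℤ p (deltaqInv ℤ)))) := by
  have := intgQN_const_mul p (((p : Kbar)⁻¹) ^ 12)
    (Fermat.Agent.IG.AN.DeltaAffine11.expansion_bot p)
  rw [iotaK_inv_pow] at this
  rw [compSL_deltaQuot_S]
  exact this

/-- **(P2)** for every prime `p`, in the literal shape of `Interface20`. -/
theorem p2 (hp : p.Prime) : P2 p :=
  Fermat.Agent.IG.AN.UnitPoly24.p2_of_inputs p hp (deltaQuot p) (deltaQuot_mem_HolH p)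
    (deltaQuot_invariant p) (exists_expansion p) (expansion_one p) (expansion_S p)
    ⟨Fermat.Agent.IG.AN.SectionKit3.annPoly p _,
      Fermat.Agent.IG.AN.SectionKit3.annPoly_monic p _,
      Fermat.Agent.IG.AN.SectionKit3.annPoly_natDegree p _,
      Fermat.Agent.IG.AN.SectionKit3.eval_map_annPoly p _⟩

end Fermat.Agent.IG.AN.UnitP2Final24
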